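import Mathlib
import Fermat.Agent.S14.Defs
import Fermat.Agent.S14.PrimeSumsDefs

/-!
# S55 / Global / Second (package GD): the second inequality, analytic route — definitions

Language: `Fermat.Agent.S14` (`Div K`, `divOf`, `normDiv`, `divChar`, `idealCoeff`).

* `gdOneMod K 𝔪 x` : `x ≡ 1 mod× 𝔪` (no condition at the infinite places);
* `gdPrimeTo K 𝔪 D` : the divisor `D` is prime to `𝔪`;
* `gdChar K 𝔪 f` : the multiplicative function on ideals attached to `f : Div K →+ ZMod m`,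
  set to `0` on the ideals that are not coprime to `𝔪`.
-/

set_option autoImplicit false

namespace Fermat.Agent.S55

open NumberField IsDedekindDomain Fermat.Agent.S14

variable (K : Type) [Field K] [NumberField K]

/-- `x ≡ 1 mod× 𝔪`: `x = a / b` with `a, b` nonzero integers prime to `𝔪` and `a ≡ b mod 𝔪`. -/
def gdOneMod (𝔪 : Ideal (𝓞 K)) (x : K) : Prop :=
  ∃ a b : 𝓞 K, a ≠ 0 ∧ b ≠ 0 ∧ IsCoprime (Ideal.span {a}) 𝔪 ∧ IsCoprime (Ideal.span {b}) 𝔪 ∧
    a - b ∈ 𝔪 ∧ x = (a : K) / (b : K)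

/-- The divisor `D` is prime to `𝔪`. -/
def gdPrimeTo (𝔪 : Ideal (𝓞 K)) (D : S14.Div K) : Prop :=
  ∀ v : HeightOneSpectrum (𝓞 K), 𝔪 ≤ v.asIdeal → D v = 0

open scoped Classical in
/-- The ray class character attached to `f : Div K →+ ZMod m`: `divChar K f` on the ideals
coprime to `𝔪`, zero on the others. -/
noncomputable def gdChar (𝔪 : Ideal (𝓞 K)) {m : ℕ} [NeZero m] (f : S14.Div K →+ ZMod m) :
    Ideal (𝓞 K) →*₀ ℂ where
  toFun I := if IsCoprime I 𝔪 then divChar K f I else 0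
  map_zero' := by
    split_ifs
    · exact map_zero _
    · rfl
  map_one' := by
    rw [if_pos isCoprime_one_left, map_one]
  map_mul' I J := by
    by_cases hI : IsCoprime I 𝔪
    · by_cases hJ : IsCoprime J 𝔪
      · rw [if_pos hI, if_pos hJ, if_pos (hI.mul_left hJ), map_mul]
      · rw [if_neg hJ, if_neg (fun h => hJ (IsCoprime.of_mul_left_right h)), mul_zero]
    · rw [if_neg hI, if_neg (fun h => hI (IsCoprime.of_mul_left_left h)), zero_mul]

variable {K}

theorem gdChar_apply_of_isCoprime {𝔪 : Ideal (𝓞 K)} {m : ℕ} [NeZero m] (f : S14.Div K →+ ZMod m)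
    {I : Ideal (𝓞 K)} (hI : IsCoprime I 𝔪) : gdChar K 𝔪 f I = divChar K f I := by
  classical
  exact if_pos hI

theorem gdChar_apply_of_not_isCoprime {𝔪 : Ideal (𝓞 K)} {m : ℕ} [NeZero m] (f : S14.Div K →+ ZMod m)
    {I : Ideal (𝓞 K)} (hI : ¬ IsCoprime I 𝔪) : gdChar K 𝔪 f I = 0 := by
  classical
  exact if_neg hI

theorem norm_gdChar_le (𝔪 : Ideal (𝓞 K)) {m : ℕ} [NeZero m] (f : S14.Div K →+ ZMod m)
    (I : Ideal (𝓞 K)) : ‖gdChar K 𝔪 f I‖ ≤ 1 := by
  by_cases hI : IsCoprime I 𝔪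
  · rw [gdChar_apply_of_isCoprime f hI]
    exact norm_divChar_le K f I
  · rw [gdChar_apply_of_not_isCoprime f hI, norm_zero]
    exact zero_le_one

end Fermat.Agent.S55
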