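import Mathlib
import Fermat.Agent.S55.Global.Second.Defs
import Fermat.Agent.S14.NormDiv

/-!
# S55 / Global / Second (package GD), leaf GD-alg: Dedekind-domain algebra

* `gd_exists_mk0_eq_isCoprime` : every ideal class contains an integral ideal coprime to `𝔪`;
* `gd_exists_div_isCoprime` : an element of `Kˣ` which is a unit at all primes dividing `𝔪` is a
  quotient of two integers prime to `𝔪`;
* `gd_nsmul_eq_normDiv` : `[F:K] • D` is the norm of a divisor prime to `𝔪`.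
-/

set_option autoImplicit false

namespace Fermat.Agent.S55

open NumberField IsDedekindDomain Fermat.Agent.S14
open scoped nonZeroDivisors

/-! ### general Dedekind domains -/

section Dedekind

variable {R : Type*} [CommRing R] [IsDedekindDomain R]

/-- For nonzero ideals `I`, `𝔪` of a Dedekind domain there is an ideal `B` coprime to `𝔪` with
`I * B` principal (generated by a nonzero element). -/
theorem gd_exists_isCoprime_mul_eq_span (I 𝔪 : Ideal R) (hI : I ≠ ⊥) (h𝔪 : 𝔪 ≠ ⊥) :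
    ∃ (B : Ideal R) (a : R), a ≠ 0 ∧ I * B = Ideal.span {a} ∧ IsCoprime B 𝔪 := by
  by_cases htop : 𝔪 = ⊤
  · obtain ⟨a, haI, ha0⟩ := Submodule.exists_mem_ne_zero_of_ne_bot hI
    obtain ⟨B, hB⟩ : I ∣ Ideal.span {a} :=
      Ideal.dvd_iff_le.mpr ((Ideal.span_singleton_le_iff_mem I).mpr haI)
    refine ⟨B, a, ha0, hB.symm, ?_⟩
    rw [Ideal.isCoprime_iff_sup_eq, htop, sup_top_eq]
  · obtain ⟨a, ha⟩ := IsDedekindDomain.exists_sup_span_eq (I := I * 𝔪) (J := I) Ideal.mul_le_left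
      (mul_ne_zero hI h𝔪)
    have haI : Ideal.span {a} ≤ I := by
      rw [← ha]
      exact le_sup_right
    obtain ⟨B, hB⟩ : I ∣ Ideal.span {a} := Ideal.dvd_iff_le.mpr haI
    have hcop : 𝔪 ⊔ B = ⊤ := by
      have h1 : I * (𝔪 ⊔ B) = I * ⊤ := by
        rw [Ideal.mul_sup, ← hB, ha, Ideal.mul_top]
      exact mul_left_cancel₀ hI h1
    refine ⟨B, a, ?_, hB.symm, ?_⟩
    · rintro rfl
      have hB0 : I * B = ⊥ := by
        rw [← hB]
        simp
      have hB' : B = ⊥ := by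
        rcases mul_eq_zero.mp hB0 with h | h
        · exact absurd h hI
        · exact h
      rw [hB', sup_bot_eq] at hcop
      exact htop hcop
    · rw [Ideal.isCoprime_iff_sup_eq, sup_comm]
      exact hcop

/-- Every ideal class of a Dedekind domain contains an integral ideal coprime to `𝔪`. -/
theorem gd_exists_mk0_eq_isCoprime' (𝔪 : Ideal R) (h𝔪 : 𝔪 ≠ ⊥) (C : ClassGroup R) :
    ∃ J : (Ideal R)⁰, ClassGroup.mk0 J = C ∧ IsCoprime (J : Ideal R) 𝔪 := by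
  obtain ⟨I, hI⟩ := ClassGroup.mk0_surjective C⁻¹
  have hI0 : (I : Ideal R) ≠ ⊥ := mem_nonZeroDivisors_iff_ne_zero.mp I.2
  obtain ⟨B, a, ha0, hB, hcop⟩ := gd_exists_isCoprime_mul_eq_span (I : Ideal R) 𝔪 hI0 h𝔪
  have hB0 : B ≠ ⊥ := by
    rintro rfl
    rw [Ideal.mul_bot] at hB
    exact ha0 (Ideal.span_singleton_eq_bot.mp hB.symm)
  set J : (Ideal R)⁰ := ⟨B, mem_nonZeroDivisors_iff_ne_zero.mpr hB0⟩ with hJ
  refine ⟨J, ?_, hcop⟩
  have hprin : ((I * J : (Ideal R)⁰) : Ideal R).IsPrincipal := by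
    rw [Submonoid.coe_mul]
    show ((I : Ideal R) * B).IsPrincipal
    rw [hB]
    exact ⟨⟨a, rfl⟩⟩
  have h1 : ClassGroup.mk0 (I * J) = 1 := (ClassGroup.mk0_eq_one_iff (I * J).2).mpr hprin
  rw [map_mul, hI] at h1
  exact (inv_mul_eq_one.mp h1).symm

end Dedekind

variable (K : Type) [Field K] [NumberField K]

/-- Every ideal class contains an integral ideal coprime to `𝔪`
(from `IsDedekindDomain.exists_sup_span_eq`). -/
theorem gd_exists_mk0_eq_isCoprime (𝔪 : Ideal (𝓞 K)) (h𝔪 : 𝔪 ≠ ⊥) (C : ClassGroup (𝓞 K)) :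
    ∃ J : (Ideal (𝓞 K))⁰, ClassGroup.mk0 J = C ∧ IsCoprime (J : Ideal (𝓞 K)) 𝔪 :=
  gd_exists_mk0_eq_isCoprime' 𝔪 h𝔪 C

/-! ### the divisor of an integral ideal -/

theorem gd_divOfIdeal_coe_apply (I : Ideal (𝓞 K)) (hI : I ≠ 0) (v : HeightOneSpectrum (𝓞 K)) :
    divOfIdeal K ((I : Ideal (𝓞 K)) : FractionalIdeal (𝓞 K)⁰ K) v =
      ((Associates.mk v.asIdeal).count (Associates.mk I).factors : ℤ) := by
  rw [divOfIdeal_apply, FractionalIdeal.count_coe K v hI]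

/-- the coefficient at `v` of the divisor of a nonzero integral ideal `I` vanishes iff `I ⊄ v` -/
theorem gd_divOfIdeal_coe_eq_zero_iff (I : Ideal (𝓞 K)) (hI : I ≠ 0)
    (v : HeightOneSpectrum (𝓞 K)) :
    divOfIdeal K ((I : Ideal (𝓞 K)) : FractionalIdeal (𝓞 K)⁰ K) v = 0 ↔ ¬ I ≤ v.asIdeal := by
  rw [gd_divOfIdeal_coe_apply K I hI v, Nat.cast_eq_zero, ← not_iff_not, not_not,
    ← Ne, Associates.count_ne_zero_iff_dvd hI v.irreducible, Ideal.dvd_iff_le]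

theorem gd_divOfIdeal_coe_mul (I J : Ideal (𝓞 K)) (hI : I ≠ 0) (hJ : J ≠ 0) :
    divOfIdeal K (((I * J : Ideal (𝓞 K))) : FractionalIdeal (𝓞 K)⁰ K) =
      divOfIdeal K ((I : Ideal (𝓞 K)) : FractionalIdeal (𝓞 K)⁰ K) +
        divOfIdeal K ((J : Ideal (𝓞 K)) : FractionalIdeal (𝓞 K)⁰ K) := by
  rw [FractionalIdeal.coeIdeal_mul, divOfIdeal_mul K (FractionalIdeal.coeIdeal_ne_zero.mpr hI)
    (FractionalIdeal.coeIdeal_ne_zero.mpr hJ)]

/-- An integral ideal is coprime to `𝔪 ≠ ⊥` iff its divisor vanishes at all `v ⊇ 𝔪`. -/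
theorem gd_isCoprime_of_divOfIdeal_eq_zero (𝔪 : Ideal (𝓞 K)) (h𝔪 : 𝔪 ≠ ⊥) (I : Ideal (𝓞 K))
    (hI : I ≠ 0)
    (h : ∀ v : HeightOneSpectrum (𝓞 K), 𝔪 ≤ v.asIdeal →
      divOfIdeal K ((I : Ideal (𝓞 K)) : FractionalIdeal (𝓞 K)⁰ K) v = 0) :
    IsCoprime I 𝔪 := by
  rw [Ideal.isCoprime_iff_sup_eq]
  by_contra hne
  obtain ⟨P, hP, hle⟩ := Ideal.exists_le_maximal _ hne
  have hP0 : P ≠ ⊥ := by
    rintro rfl
    exact h𝔪 (le_bot_iff.mp (le_sup_right.trans hle))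
  let v : HeightOneSpectrum (𝓞 K) := ⟨P, hP.isPrime, hP0⟩
  have h1 := h v (le_sup_right.trans hle)
  rw [gd_divOfIdeal_coe_eq_zero_iff K I hI v] at h1
  exact h1 (le_sup_left.trans hle)

/-- An element of `Kˣ` which is a unit at all primes dividing `𝔪` is a quotient of two integers
prime to `𝔪`. -/
theorem gd_exists_div_isCoprime (𝔪 : Ideal (𝓞 K)) (h𝔪 : 𝔪 ≠ ⊥) (x : K) (hx : x ≠ 0)
    (h : ∀ v : HeightOneSpectrum (𝓞 K), 𝔪 ≤ v.asIdeal → divOf K x v = 0) :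
    ∃ a b : 𝓞 K, a ≠ 0 ∧ b ≠ 0 ∧ IsCoprime (Ideal.span {a}) 𝔪 ∧ IsCoprime (Ideal.span {b}) 𝔪 ∧
      x = (a : K) / (b : K) := by
  obtain ⟨a0, b0, hb0mem, rfl⟩ := IsFractionRing.div_surjective (A := 𝓞 K) x
  have hb0 : b0 ≠ 0 := nonZeroDivisors.ne_zero hb0mem
  have ha0 : a0 ≠ 0 := by
    rintro rfl
    simp at hx
  have hb0' : algebraMap (𝓞 K) K b0 ≠ 0 := by simpa using hb0
  have hsa : (Ideal.span {a0} : Ideal (𝓞 K)) ≠ 0 := by simpa using ha0
  have hsb : (Ideal.span {b0} : Ideal (𝓞 K)) ≠ 0 := by simpa using hb0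
  -- the gcd `G` of `(a0)` and `(b0)`
  set G : Ideal (𝓞 K) := Ideal.span {a0} ⊔ Ideal.span {b0} with hG
  have hG0 : G ≠ 0 := by
    intro h0
    have hle : Ideal.span {a0} ≤ G := le_sup_left
    rw [h0] at hle
    exact hsa (le_bot_iff.mp hle)
  obtain ⟨A1, hA1⟩ : G ∣ Ideal.span {a0} := Ideal.dvd_iff_le.mpr le_sup_left
  obtain ⟨B1, hB1⟩ : G ∣ Ideal.span {b0} := Ideal.dvd_iff_le.mpr le_sup_right
  have hA10 : A1 ≠ 0 := by
    rintro rfl
    rw [mul_zero] at hA1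
    exact hsa hA1
  have hB10 : B1 ≠ 0 := by
    rintro rfl
    rw [mul_zero] at hB1
    exact hsb hB1
  have hcop : A1 ⊔ B1 = ⊤ := by
    have h1 : G * (A1 ⊔ B1) = G * ⊤ := by
      rw [Ideal.mul_sup, ← hA1, ← hB1, Ideal.mul_top]
    exact mul_left_cancel₀ hG0 h1
  -- the divisors of `A1` and `B1` agree at the places dividing `𝔪`
  have hdiv : divOf K (algebraMap (𝓞 K) K a0 / algebraMap (𝓞 K) K b0) +
      divOfIdeal K ((B1 : Ideal (𝓞 K)) : FractionalIdeal (𝓞 K)⁰ K) =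
      divOfIdeal K ((A1 : Ideal (𝓞 K)) : FractionalIdeal (𝓞 K)⁰ K) := by
    have key : divOf K (algebraMap (𝓞 K) K a0 / algebraMap (𝓞 K) K b0) +
        divOf K (algebraMap (𝓞 K) K b0) = divOf K (algebraMap (𝓞 K) K a0) := by
      rw [← divOf_mul' K hx hb0', div_mul_cancel₀ _ hb0']
    rw [divOf_algebraMap_eq_divOfIdeal, divOf_algebraMap_eq_divOfIdeal, hA1, hB1,
      gd_divOfIdeal_coe_mul K G A1 hG0 hA10, gd_divOfIdeal_coe_mul K G B1 hG0 hB10] at key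
    have key' : divOfIdeal K ((G : Ideal (𝓞 K)) : FractionalIdeal (𝓞 K)⁰ K) +
        (divOf K (algebraMap (𝓞 K) K a0 / algebraMap (𝓞 K) K b0) +
          divOfIdeal K ((B1 : Ideal (𝓞 K)) : FractionalIdeal (𝓞 K)⁰ K)) =
        divOfIdeal K ((G : Ideal (𝓞 K)) : FractionalIdeal (𝓞 K)⁰ K) +
          divOfIdeal K ((A1 : Ideal (𝓞 K)) : FractionalIdeal (𝓞 K)⁰ K) := by
      rw [← key]
      abel
    exact add_left_cancel key'
  have hAB : ∀ v : HeightOneSpectrum (𝓞 K), 𝔪 ≤ v.asIdeal →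
      divOfIdeal K ((B1 : Ideal (𝓞 K)) : FractionalIdeal (𝓞 K)⁰ K) v =
      divOfIdeal K ((A1 : Ideal (𝓞 K)) : FractionalIdeal (𝓞 K)⁰ K) v := by
    intro v hv
    have h1 := DFunLike.congr_fun hdiv v
    rw [Finsupp.add_apply, h v hv, zero_add] at h1
    exact h1
  have hA1v : ∀ v : HeightOneSpectrum (𝓞 K), 𝔪 ≤ v.asIdeal →
      divOfIdeal K ((A1 : Ideal (𝓞 K)) : FractionalIdeal (𝓞 K)⁰ K) v = 0 := by
    intro v hv
    by_contra hne
    have hAle : A1 ≤ v.asIdeal := by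
      by_contra hnle
      exact hne ((gd_divOfIdeal_coe_eq_zero_iff K A1 hA10 v).mpr hnle)
    have hBle : B1 ≤ v.asIdeal := by
      by_contra hnle
      exact hne ((hAB v hv).symm.trans ((gd_divOfIdeal_coe_eq_zero_iff K B1 hB10 v).mpr hnle))
    have : (⊤ : Ideal (𝓞 K)) ≤ v.asIdeal := hcop ▸ sup_le hAle hBle
    exact v.isPrime.ne_top (top_le_iff.mp this)
  have hB1v : ∀ v : HeightOneSpectrum (𝓞 K), 𝔪 ≤ v.asIdeal →
      divOfIdeal K ((B1 : Ideal (𝓞 K)) : FractionalIdeal (𝓞 K)⁰ K) v = 0 := fun v hv =>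
    (hAB v hv).trans (hA1v v hv)
  have hA1cop : IsCoprime A1 𝔪 := gd_isCoprime_of_divOfIdeal_eq_zero K 𝔪 h𝔪 A1 hA10 hA1v
  have hB1cop : IsCoprime B1 𝔪 := gd_isCoprime_of_divOfIdeal_eq_zero K 𝔪 h𝔪 B1 hB10 hB1v
  -- an integral ideal `J` coprime to `𝔪` in the class of `G`
  obtain ⟨J, hJcl, hJcop⟩ := gd_exists_mk0_eq_isCoprime K 𝔪 h𝔪
    (ClassGroup.mk0 ⟨G, mem_nonZeroDivisors_iff_ne_zero.mpr hG0⟩)
  obtain ⟨s, t, hs, ht, hst⟩ := ClassGroup.mk0_eq_mk0_iff.mp hJcl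
  have hst' : Ideal.span {s} * (J : Ideal (𝓞 K)) = Ideal.span {t} * G := hst
  have hss : (Ideal.span {s} : Ideal (𝓞 K)) ≠ 0 := by simpa using hs
  -- the new numerator and denominator
  have hnum : ∀ (c : 𝓞 K) (C1 : Ideal (𝓞 K)), Ideal.span {c} = G * C1 →
      ∃ a : 𝓞 K, c * t = s * a ∧ Ideal.span {a} = (J : Ideal (𝓞 K)) * C1 := by
    intro c C1 hc
    have h1 : Ideal.span {c * t} = Ideal.span {s} * ((J : Ideal (𝓞 K)) * C1) := by
      rw [← Ideal.span_singleton_mul_span_singleton, hc, ← mul_assoc, hst']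
      ring
    have h2 : c * t ∈ Ideal.span {s} := by
      have : c * t ∈ Ideal.span {c * t} := Ideal.mem_span_singleton_self _
      rw [h1] at this
      exact Ideal.mul_le_left this
    obtain ⟨a, ha⟩ := Ideal.mem_span_singleton.mp h2
    refine ⟨a, ha, ?_⟩
    rw [ha, ← Ideal.span_singleton_mul_span_singleton] at h1
    exact mul_left_cancel₀ hss h1
  obtain ⟨a, hat, haJ⟩ := hnum a0 A1 hA1
  obtain ⟨b, hbt, hbJ⟩ := hnum b0 B1 hB1
  have ha : a ≠ 0 := by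
    rintro rfl
    rw [mul_zero] at hat
    exact (mul_ne_zero ha0 ht) hat
  have hb : b ≠ 0 := by
    rintro rfl
    rw [mul_zero] at hbt
    exact (mul_ne_zero hb0 ht) hbt
  refine ⟨a, b, ha, hb, ?_, ?_, ?_⟩
  · rw [haJ]
    exact IsCoprime.mul_left hJcop hA1cop
  · rw [hbJ]
    exact IsCoprime.mul_left hJcop hB1cop
  · have hcross : a0 * b = a * b0 := by
      have h1 : s * (a0 * b) = s * (a * b0) := by
        calc s * (a0 * b) = a0 * (s * b) := by ring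
          _ = a0 * (b0 * t) := by rw [hbt]
          _ = (a0 * t) * b0 := by ring
          _ = (s * a) * b0 := by rw [hat]
          _ = s * (a * b0) := by ring
      exact mul_left_cancel₀ hs h1
    have hb' : (b : K) ≠ 0 := by simpa using hb
    have hcross' : algebraMap (𝓞 K) K a0 * (b : K) = (a : K) * algebraMap (𝓞 K) K b0 := by
      have := congrArg (algebraMap (𝓞 K) K) hcross
      simpa only [map_mul] using this
    rw [div_eq_div_iff hb0' hb']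
    exact hcross'

/-! ### `[F:K] • D` is a norm -/

section Ext

variable (F : Type) [Field F] [NumberField F] [Algebra K F]

/-- extension of divisors `Div K →+ Div F`: a place `v` goes to the divisor of `v 𝓞_F` -/
noncomputable def gdExtDiv : S14.Div K →+ S14.Div F :=
  Finsupp.liftAddHom fun v =>
    zmultiplesHom (S14.Div F)
      (divOfIdeal F ((v.asIdeal.map (algebraMap (𝓞 K) (𝓞 F)) : Ideal (𝓞 F)) :
        FractionalIdeal (𝓞 F)⁰ F))

theorem gdExtDiv_single (v : HeightOneSpectrum (𝓞 K)) (n : ℤ) :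
    gdExtDiv K F (Finsupp.single v n) =
      n • divOfIdeal F ((v.asIdeal.map (algebraMap (𝓞 K) (𝓞 F)) : Ideal (𝓞 F)) :
        FractionalIdeal (𝓞 F)⁰ F) := by
  simp [gdExtDiv]

theorem gd_map_ne_bot (I : Ideal (𝓞 K)) (hI : I ≠ ⊥) :
    I.map (algebraMap (𝓞 K) (𝓞 F)) ≠ ⊥ := by
  rw [Ne, Ideal.map_eq_bot_iff_of_injective (FaithfulSMul.algebraMap_injective (𝓞 K) (𝓞 F))]
  exact hI

theorem gd_normDiv_gdExtDiv (D : S14.Div K) :
    normDiv K F (gdExtDiv K F D) = Module.finrank K F • D := by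
  have h : (normDiv K F).comp (gdExtDiv K F) =
      (Module.finrank K F) • AddMonoidHom.id (S14.Div K) := by
    refine Finsupp.addHom_ext fun v n => ?_
    rw [AddMonoidHom.comp_apply, gdExtDiv_single, map_zsmul,
      normDiv_divOfIdeal_coe K F _ (gd_map_ne_bot K F v.asIdeal v.ne_bot),
      Ideal.relNorm_algebraMap, divOfIdeal_place_pow,
      (IsFractionRing.finrank_eq (𝓞 K) K (𝓞 F) F).symm, AddMonoidHom.smul_apply,
      AddMonoidHom.id_apply, Finsupp.smul_single, Finsupp.smul_single]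
    congr 1
    simp [mul_comm]
  have h' := DFunLike.congr_fun h D
  rw [AddMonoidHom.comp_apply, AddMonoidHom.smul_apply, AddMonoidHom.id_apply] at h'
  exact h'

theorem gd_gdExtDiv_primeTo (𝔪 : Ideal (𝓞 K)) (D : S14.Div K) (hD : gdPrimeTo K 𝔪 D) :
    gdPrimeTo F (𝔪.map (algebraMap (𝓞 K) (𝓞 F))) (gdExtDiv K F D) := by
  intro w hw
  have h1 : gdExtDiv K F D = D.sum fun v n =>
      n • divOfIdeal F ((v.asIdeal.map (algebraMap (𝓞 K) (𝓞 F)) : Ideal (𝓞 F)) :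
        FractionalIdeal (𝓞 F)⁰ F) := by
    rw [gdExtDiv, Finsupp.liftAddHom_apply]
    rfl
  rw [h1, Finsupp.sum, Finsupp.finsetSum_apply]
  refine Finset.sum_eq_zero fun v hv => ?_
  have hDv : D v ≠ 0 := Finsupp.mem_support_iff.mp hv
  have hmv : ¬ 𝔪 ≤ v.asIdeal := fun hle => hDv (hD v hle)
  have h0 : divOfIdeal F ((v.asIdeal.map (algebraMap (𝓞 K) (𝓞 F)) : Ideal (𝓞 F)) :
      FractionalIdeal (𝓞 F)⁰ F) w = 0 := by
    rw [gd_divOfIdeal_coe_eq_zero_iff F _ (gd_map_ne_bot K F v.asIdeal v.ne_bot) w]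
    intro hle
    have hle' : v.asIdeal ≤ w.asIdeal.comap (algebraMap (𝓞 K) (𝓞 F)) :=
      Ideal.map_le_iff_le_comap.mp hle
    have hne : w.asIdeal.comap (algebraMap (𝓞 K) (𝓞 F)) ≠ ⊤ :=
      (Ideal.comap_isPrime (algebraMap (𝓞 K) (𝓞 F)) w.asIdeal).ne_top
    have heq : v.asIdeal = w.asIdeal.comap (algebraMap (𝓞 K) (𝓞 F)) :=
      v.isMaximal.eq_of_le hne hle'
    apply hmv
    rw [heq]
    exact Ideal.map_le_iff_le_comap.mp hw
  rw [Finsupp.smul_apply, h0, smul_zero]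

end Ext

/-- `[F:K] • D` is the norm of a divisor prime to `𝔪`, for `D` prime to `𝔪`
(the norm of the extended ideal; `Ideal.relNorm_algebraMap`, `S14.normDiv_divOfIdeal_coe`). -/
theorem gd_nsmul_eq_normDiv {F : Type} [Field F] [NumberField F] [Algebra K F]
    (𝔪 : Ideal (𝓞 K)) (D : S14.Div K) (hD : gdPrimeTo K 𝔪 D) :
    ∃ E : S14.Div F, gdPrimeTo F (𝔪.map (algebraMap (𝓞 K) (𝓞 F))) E ∧
      Module.finrank K F • D = normDiv K F E :=
  ⟨gdExtDiv K F D, gd_gdExtDiv_primeTo K F 𝔪 D hD, (gd_normDiv_gdExtDiv K F D).symm⟩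

end Fermat.Agent.S55
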