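import Mathlib

/-!
# S55 / Global / Second (package GD), leaf GD-c: weighted form of `integerSetEquiv`

A sum over the nonzero principal ideals divisible by `J` of norm `≤ s` is `1/w` times the sum over
the generators lying in the fundamental cone (`w = torsionOrder K`).
-/

set_option autoImplicit false

namespace Fermat.Agent.S55

open NumberField IsDedekindDomain MeasureTheory
open NumberField.mixedEmbedding NumberField.mixedEmbedding.fundamentalCone NumberField.Units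
open scoped nonZeroDivisors

variable (K : Type) [Field K] [NumberField K]

/-- The integers whose image lies in the fundamental cone are the points of `integerSet K`. -/
noncomputable def gdConeEquiv :
    {β : 𝓞 K // mixedEmbedding K (β : K) ∈ fundamentalCone K} ≃ integerSet K where
  toFun β := ⟨mixedEmbedding K (β.1 : K), mem_integerSet.mpr ⟨β.2, β.1, rfl⟩⟩
  invFun a := ⟨(preimageOfMemIntegerSet a : 𝓞 K), by
    rw [mixedEmbedding_preimageOfMemIntegerSet]; exact a.2.1⟩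
  left_inv β := by
    apply Subtype.ext
    exact preimageOfMemIntegerSet_mixedEmbedding (mem_integerSet.mpr ⟨β.2, β.1, rfl⟩)
  right_inv a := by
    apply Subtype.ext
    exact mixedEmbedding_preimageOfMemIntegerSet a

theorem gdConeEquiv_preimage (β : {β : 𝓞 K // mixedEmbedding K (β : K) ∈ fundamentalCone K}) :
    (preimageOfMemIntegerSet (gdConeEquiv K β) : 𝓞 K) = β.1 :=
  congrArg Subtype.val ((gdConeEquiv K).left_inv β)

/-- Integers in the fundamental cone ≃ (nonzero principal ideals) × torsion. -/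
noncomputable def gdConeProd :
    {β : 𝓞 K // mixedEmbedding K (β : K) ∈ fundamentalCone K} ≃
      {I : (Ideal (𝓞 K))⁰ // Submodule.IsPrincipal I.val} × torsion K :=
  (gdConeEquiv K).trans (integerSetEquiv K)

theorem gdConeProd_fst (β : {β : 𝓞 K // mixedEmbedding K (β : K) ∈ fundamentalCone K}) :
    (((gdConeProd K β).1 : (Ideal (𝓞 K))⁰) : Ideal (𝓞 K)) = Ideal.span {β.1} := by
  have h : (((gdConeProd K β).1 : (Ideal (𝓞 K))⁰) : Ideal (𝓞 K)) =
      Ideal.span {(preimageOfMemIntegerSet (gdConeEquiv K β) : 𝓞 K)} :=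
    integerSetEquiv_apply_fst (gdConeEquiv K β)
  rw [h, gdConeEquiv_preimage]

/-- `N(β 𝓞_K) = |N(β)|` in the language of the mixed space. -/
theorem gd_absNorm_span_singleton (β : 𝓞 K) :
    (Ideal.absNorm (Ideal.span {β}) : ℝ) = mixedEmbedding.norm (mixedEmbedding K (β : K)) := by
  rw [Ideal.absNorm_span_singleton, Nat.cast_natAbs, ← Rat.cast_intCast, Int.cast_abs,
    Algebra.coe_norm_int, ← norm_eq_norm]

/-- The generators in the fundamental cone of the principal ideals divisible by `J` of norm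
`≤ s`, as a product. -/
noncomputable def gdConeSumEquiv (J : (Ideal (𝓞 K))⁰) (s : ℝ) :
    {β : 𝓞 K // β ∈ (J : Ideal (𝓞 K)) ∧ mixedEmbedding K (β : K) ∈ fundamentalCone K ∧
      mixedEmbedding.norm (mixedEmbedding K (β : K)) ≤ s} ≃
    {I : (Ideal (𝓞 K))⁰ // (J : Ideal (𝓞 K)) ∣ I ∧
      Submodule.IsPrincipal (I : Ideal (𝓞 K)) ∧ (Ideal.absNorm (I : Ideal (𝓞 K)) : ℝ) ≤ s} ×
      torsion K where
  toFun β :=
    (⟨(gdConeProd K ⟨β.1, β.2.2.1⟩).1.1, by
        have h := gdConeProd_fst K ⟨β.1, β.2.2.1⟩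
        refine ⟨?_, (gdConeProd K ⟨β.1, β.2.2.1⟩).1.2, ?_⟩
        · rw [h, Ideal.dvd_span_singleton]; exact β.2.1
        · rw [h, gd_absNorm_span_singleton]; exact β.2.2.2⟩,
      (gdConeProd K ⟨β.1, β.2.2.1⟩).2)
  invFun p :=
    ⟨((gdConeProd K).symm (⟨p.1.1, p.1.2.2.1⟩, p.2)).1, by
      have h := gdConeProd_fst K ((gdConeProd K).symm (⟨p.1.1, p.1.2.2.1⟩, p.2))
      rw [Equiv.apply_symm_apply] at h
      simp only at h
      refine ⟨?_, ((gdConeProd K).symm (⟨p.1.1, p.1.2.2.1⟩, p.2)).2, ?_⟩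
      · rw [← Ideal.dvd_span_singleton, ← h]; exact p.1.2.1
      · rw [← gd_absNorm_span_singleton, ← h]; exact p.1.2.2.2⟩
  left_inv β := by
    apply Subtype.ext
    simp only [Subtype.coe_eta, Prod.mk.eta, Equiv.symm_apply_apply]
  right_inv p := by
    simp only [Subtype.coe_eta, Equiv.apply_symm_apply, Prod.mk.eta]

theorem gdConeSumEquiv_fst (J : (Ideal (𝓞 K))⁰) (s : ℝ)
    (β : {β : 𝓞 K // β ∈ (J : Ideal (𝓞 K)) ∧ mixedEmbedding K (β : K) ∈ fundamentalCone K ∧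
      mixedEmbedding.norm (mixedEmbedding K (β : K)) ≤ s}) :
    ((((gdConeSumEquiv K J s β).1 : (Ideal (𝓞 K))⁰)) : Ideal (𝓞 K)) = Ideal.span {β.1} :=
  gdConeProd_fst K ⟨β.1, β.2.2.1⟩

theorem gd_finite_principal (J : (Ideal (𝓞 K))⁰) (s : ℝ) :
    Finite {I : (Ideal (𝓞 K))⁰ // (J : Ideal (𝓞 K)) ∣ I ∧
      Submodule.IsPrincipal (I : Ideal (𝓞 K)) ∧ (Ideal.absNorm (I : Ideal (𝓞 K)) : ℝ) ≤ s} := by
  have h : {I : (Ideal (𝓞 K))⁰ | Ideal.absNorm (I : Ideal (𝓞 K)) ≤ ⌊s⌋₊}.Finite :=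
    Ideal.finite_setOfPred_absNorm_le₀ ⌊s⌋₊
  have h' : {I : (Ideal (𝓞 K))⁰ | (J : Ideal (𝓞 K)) ∣ I ∧
      Submodule.IsPrincipal (I : Ideal (𝓞 K)) ∧ (Ideal.absNorm (I : Ideal (𝓞 K)) : ℝ) ≤ s}.Finite := by
    refine h.subset ?_
    rintro I ⟨-, -, hI⟩
    exact Nat.le_floor hI
  exact h'.to_subtype

theorem gd_finite_cone (J : (Ideal (𝓞 K))⁰) (s : ℝ) :
    Finite {β : 𝓞 K // β ∈ (J : Ideal (𝓞 K)) ∧ mixedEmbedding K (β : K) ∈ fundamentalCone K ∧
      mixedEmbedding.norm (mixedEmbedding K (β : K)) ≤ s} := by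
  have := gd_finite_principal K J s
  exact Finite.of_equiv _ (gdConeSumEquiv K J s).symm

theorem gd_sum_principal (J : (Ideal (𝓞 K))⁰) (s : ℝ) (g : Ideal (𝓞 K) → ℂ) :
    (torsionOrder K : ℂ) *
      ∑ᶠ I : {I : (Ideal (𝓞 K))⁰ // (J : Ideal (𝓞 K)) ∣ I ∧
        Submodule.IsPrincipal (I : Ideal (𝓞 K)) ∧ (Ideal.absNorm (I : Ideal (𝓞 K)) : ℝ) ≤ s},
        g (I : Ideal (𝓞 K)) =
    ∑ᶠ β : {β : 𝓞 K // β ∈ (J : Ideal (𝓞 K)) ∧ mixedEmbedding K (β : K) ∈ fundamentalCone K ∧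
        mixedEmbedding.norm (mixedEmbedding K (β : K)) ≤ s}, g (Ideal.span {(β : 𝓞 K)}) := by
  classical
  have hfin := gd_finite_principal K J s
  have := Fintype.ofFinite {I : (Ideal (𝓞 K))⁰ // (J : Ideal (𝓞 K)) ∣ I ∧
      Submodule.IsPrincipal (I : Ideal (𝓞 K)) ∧ (Ideal.absNorm (I : Ideal (𝓞 K)) : ℝ) ≤ s}
  have := Fintype.ofFinite (torsion K)
  have hrw : ∀ β : {β : 𝓞 K // β ∈ (J : Ideal (𝓞 K)) ∧
      mixedEmbedding K (β : K) ∈ fundamentalCone K ∧
      mixedEmbedding.norm (mixedEmbedding K (β : K)) ≤ s},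
      g (Ideal.span {(β : 𝓞 K)}) =
        (fun p : {I : (Ideal (𝓞 K))⁰ // (J : Ideal (𝓞 K)) ∣ I ∧
          Submodule.IsPrincipal (I : Ideal (𝓞 K)) ∧ (Ideal.absNorm (I : Ideal (𝓞 K)) : ℝ) ≤ s} ×
            torsion K => g ((p.1 : (Ideal (𝓞 K))⁰) : Ideal (𝓞 K))) (gdConeSumEquiv K J s β) := by
    intro β
    simp only [gdConeSumEquiv_fst]
  rw [finsum_congr hrw, finsum_comp_equiv (gdConeSumEquiv K J s)
    (f := fun p : {I : (Ideal (𝓞 K))⁰ // (J : Ideal (𝓞 K)) ∣ I ∧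
          Submodule.IsPrincipal (I : Ideal (𝓞 K)) ∧ (Ideal.absNorm (I : Ideal (𝓞 K)) : ℝ) ≤ s} ×
            torsion K => g ((p.1 : (Ideal (𝓞 K))⁰) : Ideal (𝓞 K))), finsum_eq_sum_of_fintype,
    finsum_eq_sum_of_fintype, Fintype.sum_prod_type]
  simp only [Finset.sum_const, Finset.card_univ, nsmul_eq_mul]
  rw [Finset.mul_sum, torsionOrder, Nat.card_eq_fintype_card]

end Fermat.Agent.S55
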