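import Mathlib
import Fermat.Agent.S14.LatticeCount

/-!
# S55 / Global / Second, leaf GD-a: lattice points of a coset `y + L`, with rate

Generalises `S14.card_le_sub_le` (the case `y = 0`): same proof through `S14.lc_sandwich`,
`S14.lc_card_le_of_cover`, translating the set instead of the lattice.
-/

set_option autoImplicit false

namespace Fermat.Agent.S55

open MeasureTheory Set Pointwise Fermat.Agent.S14
open scoped Classical

section Main

variable {ι κ : Type*} [Fintype ι] [Fintype κ]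

omit [Fintype ι] in
theorem gd_frontier_vadd (x₀ : ι → ℝ) (A : Set (ι → ℝ)) :
    frontier (x₀ +ᵥ A) = x₀ +ᵥ frontier A :=
  ((Homeomorph.addLeft x₀).image_frontier A).symm

/-- Lattice point counting with a power-saving error term for a TRANSLATE of the dilated set
(standard lattice), explicit constant. -/
theorem gd_card_sub_volume_le_explicit {D : Set (ι → ℝ)} {m : ℕ}
    {φ : Fin m → (κ → ℝ) → (ι → ℝ)} {M : NNReal}
    (hD : Bornology.IsBounded D)
    (hφ : ∀ j, LipschitzOnWith M (φ j) (Set.Icc 0 1))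
    (hcov : frontier D ⊆ ⋃ j, φ j '' Set.Icc 0 1) (x₀ : ι → ℝ) {t : ℝ} (ht : 1 ≤ t) :
    |(Nat.card ↥((x₀ +ᵥ (t • D)) ∩ lcIntPts ι) : ℝ) - (volume D).toReal * t ^ Fintype.card ι|
      ≤ (m * ((⌈2 * (M : ℝ)⌉₊ + 2) ^ Fintype.card ι * 3 ^ Fintype.card κ) : ℕ)
          * t ^ Fintype.card κ := by
  have ht0 : 0 < t := lt_of_lt_of_le one_pos ht
  obtain ⟨R₀, hR₀⟩ := hD.subset_closedBall (0 : ι → ℝ)
  -- bound for `x₀ +ᵥ t • D`
  have hA : ∀ y ∈ x₀ +ᵥ (t • D), ∀ i, |y i| ≤ ‖x₀‖ + t * R₀ := by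
    rintro y ⟨z, ⟨x, hx, rfl⟩, rfl⟩ i
    have h1 : ‖x‖ ≤ R₀ := by simpa using hR₀ hx
    have h2 : |x i| ≤ ‖x‖ := by
      have := norm_le_pi_norm x i
      simpa using this
    have h3 : |x₀ i| ≤ ‖x₀‖ := by
      have := norm_le_pi_norm x₀ i
      simpa using this
    simp only [vadd_eq_add, Pi.add_apply, Pi.smul_apply, smul_eq_mul]
    refine (abs_add_le _ _).trans (add_le_add h3 ?_)
    rw [abs_mul, abs_of_pos ht0]
    exact mul_le_mul_of_nonneg_left (h2.trans h1) ht0.le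
  obtain ⟨hfin, hsand⟩ := lc_sandwich hA
  rw [← lc_natCard_eq hA] at hsand
  -- volume of `x₀ +ᵥ t • D`
  have hvol : volume (x₀ +ᵥ (t • D)) = ENNReal.ofReal (t ^ Fintype.card ι) * volume D := by
    rw [measure_vadd, Measure.addHaar_smul, Module.finrank_fintype_fun_eq_card,
      abs_of_pos (pow_pos ht0 _)]
  have hvolD : volume D ≠ ⊤ := by
    intro htop
    rw [hvol, htop, ENNReal.mul_top (by simpa using pow_pos ht0 _)] at hfin
    exact hfin rfl
  have hvol' : (volume (x₀ +ᵥ (t • D))).toReal = (volume D).toReal * t ^ Fintype.card ι := by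
    rw [hvol, ENNReal.toReal_mul, ENNReal.toReal_ofReal (pow_pos ht0 _).le, mul_comm]
  rw [lcIntPts, ← hvol']
  refine hsand.trans ?_
  -- the frontier of `x₀ +ᵥ t • D`
  set N : ℕ := ⌈t⌉₊ with hN
  have hNpos : 0 < N := Nat.ceil_pos.mpr ht0
  have hNt : t ≤ N := Nat.le_ceil t
  have hN3 : ((N + 1 : ℕ) : ℝ) ≤ 3 * t := by
    have := Nat.ceil_lt_add_one ht0.le
    push_cast
    linarith
  let tn : NNReal := ⟨t, ht0.le⟩
  have hψ : ∀ j, LipschitzOnWith (tn * M) (fun u => x₀ + t • φ j u) (Set.Icc 0 1) := by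
    intro j
    refine LipschitzOnWith.of_dist_le_mul fun u hu u' hu' => ?_
    rw [dist_add_left, dist_smul₀, Real.norm_of_nonneg ht0.le]
    have := (hφ j).dist_le_mul u hu u' hu'
    push_cast
    rw [mul_assoc]
    exact mul_le_mul_of_nonneg_left this ht0.le
  have hcov' : frontier (x₀ +ᵥ (t • D)) ⊆ ⋃ j, (fun u => x₀ + t • φ j u) '' Set.Icc 0 1 := by
    rw [gd_frontier_vadd, lc_frontier_smul ht0.ne']
    rintro y ⟨z, ⟨x, hx, rfl⟩, rfl⟩
    obtain ⟨j, u, hu, rfl⟩ := Set.mem_iUnion.mp (hcov hx)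
    exact Set.mem_iUnion.mpr ⟨j, u, hu, rfl⟩
  have hKN : ((tn * M : NNReal) : ℝ) ≤ (M : ℝ) * N := by
    push_cast
    rw [mul_comm]
    exact mul_le_mul_of_nonneg_left hNt M.coe_nonneg
  have hcard := lc_card_le_of_cover hψ hcov' M.coe_nonneg hNpos hKN
    ((lcBox (0 : ι → ℝ) (‖x₀‖ + t * R₀)).filter
      fun k => (lcCube k ∩ frontier (x₀ +ᵥ (t • D))).Nonempty)
    fun k hk => (Finset.mem_filter.mp hk).2
  have hcard' : ((((lcBox (0 : ι → ℝ) (‖x₀‖ + t * R₀)).filter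
      fun k => (lcCube k ∩ frontier (x₀ +ᵥ (t • D))).Nonempty).card : ℕ) : ℝ)
      ≤ ((m * ((⌈2 * (M : ℝ)⌉₊ + 2) ^ Fintype.card ι * (N + 1) ^ Fintype.card κ) : ℕ) : ℝ) := by
    exact_mod_cast hcard
  refine hcard'.trans ?_
  push_cast
  have hpow : ((N : ℝ) + 1) ^ Fintype.card κ ≤ 3 ^ Fintype.card κ * t ^ Fintype.card κ := by
    rw [← mul_pow]
    have : (N : ℝ) + 1 ≤ 3 * t := by exact_mod_cast hN3
    gcongr
  calc (m : ℝ) * (((⌈2 * (M : ℝ)⌉₊ : ℝ) + 2) ^ Fintype.card ι * ((N : ℝ) + 1) ^ Fintype.card κ)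
      ≤ (m : ℝ) * (((⌈2 * (M : ℝ)⌉₊ : ℝ) + 2) ^ Fintype.card ι
          * (3 ^ Fintype.card κ * t ^ Fintype.card κ)) := by gcongr
    _ = (m : ℝ) * (((⌈2 * (M : ℝ)⌉₊ : ℝ) + 2) ^ Fintype.card ι * 3 ^ Fintype.card κ)
          * t ^ Fintype.card κ := by ring

end Main

section Transport

open Module Bornology

variable {E : Type*} [NormedAddCommGroup E] [NormedSpace ℝ E] [FiniteDimensional ℝ E]
variable {L : Submodule ℤ E} [DiscreteTopology L] [IsZLattice ℝ L]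
variable {ι : Type*} [Fintype ι] (b : Basis ι ℤ L)
variable {κ : Type*} [Fintype κ]

/-- Lattice point counting with a power-saving error term for a coset `y + L` of a general
lattice, volume in the coordinates of a `ℤ`-basis of the lattice. -/
theorem gd_card_smul_inter_sub_le {s : Set E} (hs : IsBounded s) {m : ℕ}
    {φ : Fin m → (κ → ℝ) → E} {M : NNReal}
    (hφ : ∀ j, LipschitzOnWith M (φ j) (Set.Icc 0 1))
    (hcov : frontier s ⊆ ⋃ j, φ j '' Set.Icc 0 1) (y : E) :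
    ∃ C : ℝ, 0 ≤ C ∧ ∀ t : ℝ, 1 ≤ t →
      |(Nat.card ↥(t • s ∩ {x | x - y ∈ L}) : ℝ)
        - (volume ((b.ofZLatticeBasis ℝ L).equivFun '' s)).toReal * t ^ Fintype.card ι|
        ≤ C * t ^ Fintype.card κ := by
  set e := (b.ofZLatticeBasis ℝ L).equivFun with he
  set eL := (b.ofZLatticeBasis ℝ L).equivFunL with heL
  have heq : ∀ x, eL x = e x := fun _ => rfl
  have hD : IsBounded (e '' s) := by
    rw [← NormedSpace.isVonNBounded_iff ℝ] at hs ⊢
    exact hs.image (eL : E →L[ℝ] ι → ℝ)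
  have hψ : ∀ j, LipschitzOnWith (‖(eL : E →L[ℝ] ι → ℝ)‖₊ * M) (fun u => e (φ j u))
      (Set.Icc 0 1) := fun j =>
    ((eL : E →L[ℝ] ι → ℝ).lipschitz.comp_lipschitzOnWith (hφ j))
  have hcov' : frontier (e '' s) ⊆ ⋃ j, (fun u => e (φ j u)) '' Set.Icc 0 1 := by
    have h1 : frontier (e '' s) = e '' frontier s := (eL.toHomeomorph.image_frontier s).symm
    rw [h1]
    rintro _ ⟨x, hx, rfl⟩
    obtain ⟨j, u, hu, rfl⟩ := Set.mem_iUnion.mp (hcov hx)
    exact Set.mem_iUnion.mpr ⟨j, u, hu, rfl⟩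
  refine ⟨((m * ((⌈2 * ((‖(eL : E →L[ℝ] ι → ℝ)‖₊ * M : NNReal) : ℝ)⌉₊ + 2) ^ Fintype.card ι
    * 3 ^ Fintype.card κ) : ℕ) : ℝ), Nat.cast_nonneg _, fun t ht => ?_⟩
  have ht0 : t ≠ 0 := (lt_of_lt_of_le one_pos ht).ne'
  have hcard : Nat.card ↥(t • s ∩ {x | x - y ∈ L})
      = Nat.card ↥((-(e y) +ᵥ (t • (e '' s))) ∩ lcIntPts ι) := by
    refine Nat.card_congr ((e.toEquiv.trans (Equiv.addLeft (-(e y)))).subtypeEquiv fun x => ?_)
    have hx1 : (e.toEquiv.trans (Equiv.addLeft (-(e y)))) x = -(e y) +ᵥ e x := rfl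
    have hx2 : (e.toEquiv.trans (Equiv.addLeft (-(e y)))) x = e (x - y) := by
      rw [hx1, map_sub, vadd_eq_add]
      abel
    rw [Set.mem_inter_iff, Set.mem_inter_iff]
    refine and_congr ?_ ?_
    · rw [hx1, Set.vadd_mem_vadd_set_iff, Set.mem_smul_set_iff_inv_smul_mem₀ ht0,
        Set.mem_smul_set_iff_inv_smul_mem₀ ht0]
      have : t⁻¹ • e x = e (t⁻¹ • x) := (map_smul e t⁻¹ x).symm
      rw [this]
      constructor
      · intro h1
        exact ⟨_, h1, rfl⟩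
      · rintro ⟨z, hz, hxz⟩
        rw [e.injective hxz] at hz
        exact hz
    · rw [hx2, Set.mem_ofPred_eq, lc_mem_lattice_iff b (x - y)]
  rw [hcard]
  exact gd_card_sub_volume_le_explicit hD hψ hcov' (-(e y)) ht

end Transport

section InnerProduct

open Module Bornology

variable {E : Type*} [NormedAddCommGroup E] [InnerProductSpace ℝ E] [FiniteDimensional ℝ E]
  [MeasurableSpace E] [BorelSpace E]
variable (L : Submodule ℤ E) [DiscreteTopology L] [IsZLattice ℝ L]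
variable {κ : Type*} [Fintype κ]

/-- Lattice point counting with a power-saving error term in a Euclidean space, for a coset:
`#(t • s ∩ (y + L)) = (vol s / covol L) t^n + O(t^(card κ))`. -/
theorem gd_card_smul_inter_sub_le' {s : Set E} (hs₁ : IsBounded s) (hs₂ : NullMeasurableSet s)
    {m : ℕ} {φ : Fin m → (κ → ℝ) → E} {M : NNReal}
    (hφ : ∀ j, LipschitzOnWith M (φ j) (Set.Icc 0 1))
    (hcov : frontier s ⊆ ⋃ j, φ j '' Set.Icc 0 1) (y : E) :
    ∃ C : ℝ, 0 ≤ C ∧ ∀ t : ℝ, 1 ≤ t →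
      |(Nat.card ↥(t • s ∩ {x | x - y ∈ L}) : ℝ)
        - volume.real s / ZLattice.covolume L * t ^ finrank ℝ E| ≤ C * t ^ Fintype.card κ := by
  let b := Module.Free.chooseBasis ℤ L
  obtain ⟨C, hC0, hC⟩ := gd_card_smul_inter_sub_le b hs₁ hφ hcov y
  refine ⟨C, hC0, fun t ht => ?_⟩
  have h := hC t ht
  rw [ZLattice.volume_image_eq_volume_div_covolume' L b hs₂, ENNReal.toReal_div,
    ENNReal.toReal_ofReal (ZLattice.covolume_pos L volume).le,
    ← finrank_eq_card_chooseBasisIndex, ZLattice.rank ℝ L] at h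
  exact h

end InnerProduct

/-- GD-a: lattice points of a coset `y + L` in `{x ∈ X | F x ≤ c}`:
`(vol / covol) c + O(c^(1-1/n))`. -/
theorem gd_card_le_sub_le {E : Type*} [NormedAddCommGroup E] [InnerProductSpace ℝ E]
    [FiniteDimensional ℝ E] [MeasurableSpace E] [BorelSpace E] [Nontrivial E]
    (L : Submodule ℤ E) [DiscreteTopology L] [IsZLattice ℝ L] {X : Set E} {F : E → ℝ}
    (hX : ∀ ⦃x⦄ ⦃r : ℝ⦄, x ∈ X → 0 < r → r • x ∈ X)
    (h₁ : ∀ x ⦃r : ℝ⦄, 0 ≤ r → F (r • x) = r ^ Module.finrank ℝ E * (F x))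
    (h₂ : Bornology.IsBounded {x ∈ X | F x ≤ 1}) (h₃ : MeasurableSet {x ∈ X | F x ≤ 1})
    (h₄ : IsLipschitzCovered (Module.finrank ℝ E - 1) (frontier {x ∈ X | F x ≤ 1})) (y : E) :
    ∃ C : ℝ, ∀ c : ℝ, 1 ≤ c →
      |(Nat.card ({x ∈ X | F x ≤ c} ∩ {x | x - y ∈ L} : Set E) : ℝ) -
          volume.real {x ∈ X | F x ≤ 1} / ZLattice.covolume L * c| ≤
        C * c ^ (1 - 1 / (Module.finrank ℝ E : ℝ)) := by
  obtain ⟨m, φ, M, hφ, hcov⟩ := h₄
  obtain ⟨C, -, hC⟩ := gd_card_smul_inter_sub_le' L h₂ h₃.nullMeasurableSet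
    (fun j => (hφ j).lipschitzOnWith) hcov y
  refine ⟨C, fun c hc => ?_⟩
  have hn : 0 < Module.finrank ℝ E := Module.finrank_pos
  have hn' : (Module.finrank ℝ E : ℝ) ≠ 0 := by exact_mod_cast hn.ne'
  have hc0 : 0 ≤ c := le_trans zero_le_one hc
  set t : ℝ := c ^ ((Module.finrank ℝ E : ℝ)⁻¹) with ht
  have ht1 : 1 ≤ t := Real.one_le_rpow hc (by positivity)
  have ht0 : 0 < t := lt_of_lt_of_le one_pos ht1
  have htn : t ^ Module.finrank ℝ E = c := Real.rpow_inv_natCast_pow hc0 hn.ne'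
  have htk : t ^ Fintype.card (Fin (Module.finrank ℝ E - 1))
      = c ^ (1 - 1 / (Module.finrank ℝ E : ℝ)) := by
    rw [Fintype.card_fin, ht, ← Real.rpow_natCast, ← Real.rpow_mul hc0]
    congr 1
    rw [Nat.cast_sub hn, Nat.cast_one]
    field_simp
  have h := hC t ht1
  rw [lc_smul_sublevel hX h₁ ht0, htn, htk] at h
  exact h

end Fermat.Agent.S55
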