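import Mathlib
import Fermat.Agent.S14.ClassCount
import Fermat.Agent.S55.Global.Second.LatticeTranslate

/-!
# S55 / Global / Second, leaf GD-b: integers in a residue class `β₀ + A` lying in the fundamental
cone, of norm `≤ s`, with rate

Generalises `S14.classCount_rate_class`; follows from GD-a (`gd_card_le_sub_le`) exactly as
`classCount_rate_class` follows from `card_le_sub_le`.
-/

set_option autoImplicit false

namespace Fermat.Agent.S55

open NumberField IsDedekindDomain MeasureTheory Ideal Fermat.Agent.S14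
open scoped nonZeroDivisors Real
open Filter InfinitePlace mixedEmbedding euclidean fundamentalCone Submodule Topology
open NumberField.Units

variable (K : Type) [Field K] [NumberField K]

open scoped Classical in
/-- The bijection between the integers of the residue class `β₀ + A` in the fundamental cone of norm
`≤ s` and the points of the coset `y + L` in the corresponding region of the Euclidean mixed
space. -/
theorem gd_rayCount_card (A : (Ideal (𝓞 K))⁰) (β₀ : 𝓞 K) (s : ℝ) :
    Nat.card {β : 𝓞 K // β - β₀ ∈ (A : Ideal (𝓞 K)) ∧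
        mixedEmbedding K (β : K) ∈ fundamentalCone K ∧
        mixedEmbedding.norm (mixedEmbedding K (β : K)) ≤ s} =
      Nat.card ({x | x ∈ (toMixed K) ⁻¹' (fundamentalCone K) ∧
          mixedEmbedding.norm (toMixed K x) ≤ s} ∩
        {x | x - (toMixed K).symm (mixedEmbedding K (β₀ : K)) ∈
          ZLattice.comap ℝ (mixedEmbedding.idealLattice K (FractionalIdeal.mk0 K A))
            (toMixed K).toLinearMap} : Set (euclidean.mixedSpace K)) := by
  have hmem : ∀ β : 𝓞 K, (toMixed K).symm (mixedEmbedding K (β : K)) -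
      (toMixed K).symm (mixedEmbedding K (β₀ : K)) ∈
        ZLattice.comap ℝ (mixedEmbedding.idealLattice K (FractionalIdeal.mk0 K A))
          (toMixed K).toLinearMap ↔ β - β₀ ∈ (A : Ideal (𝓞 K)) := by
    intro β
    rw [ZLattice.comap, Submodule.mem_comap]
    change (toMixed K) ((toMixed K).symm (mixedEmbedding K (β : K)) -
      (toMixed K).symm (mixedEmbedding K (β₀ : K))) ∈ _ ↔ _
    rw [map_sub, ContinuousLinearEquiv.apply_symm_apply, ContinuousLinearEquiv.apply_symm_apply,
      ← map_sub, mem_idealLattice]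
    constructor
    · rintro ⟨z, hz, hzeq⟩
      have hz' : z = ((β : K) - (β₀ : K)) := mixedEmbedding_injective K hzeq
      rw [SetLike.mem_coe, FractionalIdeal.coe_mk0, FractionalIdeal.mem_coeIdeal] at hz
      obtain ⟨w, hw, hwz⟩ := hz
      have : w = β - β₀ := by
        apply RingOfIntegers.coe_injective
        rw [map_sub]
        exact hwz.trans hz'
      rwa [← this]
    · intro h
      refine ⟨(β : K) - (β₀ : K), ?_, rfl⟩
      rw [SetLike.mem_coe, FractionalIdeal.coe_mk0, FractionalIdeal.mem_coeIdeal]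
      exact ⟨β - β₀, h, by simp⟩
  refine Nat.card_congr (Equiv.ofBijective
    (fun β => ⟨(toMixed K).symm (mixedEmbedding K ((β : 𝓞 K) : K)), ?_⟩) ⟨?_, ?_⟩)
  · obtain ⟨β, h1, h2, h3⟩ := β
    refine ⟨⟨?_, ?_⟩, ?_⟩
    · rw [Set.mem_preimage, ContinuousLinearEquiv.apply_symm_apply]
      exact h2
    · rw [ContinuousLinearEquiv.apply_symm_apply]
      exact h3
    · exact (hmem β).mpr h1
  · rintro ⟨β, hβ⟩ ⟨β', hβ'⟩ h
    have h1 := congrArg Subtype.val h
    simp only at h1
    have h2 := mixedEmbedding_injective K ((toMixed K).symm.injective h1)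
    exact Subtype.ext (RingOfIntegers.coe_injective h2)
  · rintro ⟨x, ⟨hx1, hx2⟩, hx3⟩
    rw [Set.mem_ofPred_eq, ZLattice.comap, Submodule.mem_comap] at hx3
    change (toMixed K) (x - (toMixed K).symm (mixedEmbedding K (β₀ : K))) ∈ _ at hx3
    rw [map_sub, ContinuousLinearEquiv.apply_symm_apply, mem_idealLattice] at hx3
    obtain ⟨z, hz, hzeq⟩ := hx3
    rw [SetLike.mem_coe, FractionalIdeal.coe_mk0, FractionalIdeal.mem_coeIdeal] at hz
    obtain ⟨w, hw, rfl⟩ := hz
    have hx : toMixed K x = mixedEmbedding K ((β₀ + w : 𝓞 K) : K) := by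
      have hcoe : ((β₀ + w : 𝓞 K) : K) = (β₀ : K) + algebraMap (𝓞 K) K w := rfl
      rw [hcoe, map_add (mixedEmbedding K), hzeq]
      abel
    refine ⟨⟨β₀ + w, ?_, ?_, ?_⟩, ?_⟩
    · simpa using hw
    · rw [← hx]
      exact hx1
    · rw [← hx]
      exact hx2
    · apply Subtype.ext
      simp only
      rw [← hx, ContinuousLinearEquiv.symm_apply_apply]

open scoped Classical in
/-- GD-b: number of `β ≡ β₀ mod A` in the fundamental cone of norm `≤ s`:
`κ w / N(A) * s + O(s^(1-1/n))`. -/
theorem gd_rayCount (A : (Ideal (𝓞 K))⁰) (β₀ : 𝓞 K) :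
    ∃ B : ℝ, ∀ s : ℝ, 1 ≤ s →
      |(Nat.card {β : 𝓞 K // β - β₀ ∈ (A : Ideal (𝓞 K)) ∧
          mixedEmbedding K (β : K) ∈ fundamentalCone K ∧
          mixedEmbedding.norm (mixedEmbedding K (β : K)) ≤ s} : ℝ) -
        classCountKappa K * torsionOrder K / Ideal.absNorm (A : Ideal (𝓞 K)) * s| ≤
      B * s ^ (1 - 1 / (Module.finrank ℚ K : ℝ)) := by
  have h₁ : ∀ s : ℝ,
    {x | x ∈ toMixed K ⁻¹' fundamentalCone K ∧ mixedEmbedding.norm (toMixed K x) ≤ s} =
      toMixed K ⁻¹' {x | x ∈ fundamentalCone K ∧ mixedEmbedding.norm x ≤ s} := fun _ ↦ rfl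
  have h₂ : {x | x ∈ fundamentalCone K ∧ mixedEmbedding.norm x ≤ 1} = normLeOne K := by ext; simp
  have h₃ : (absNorm A.1 : ℝ) ≠ 0 := (Nat.cast_ne_zero.mpr (absNorm_ne_zero_of_nonZeroDivisors A))
  obtain ⟨B, hB⟩ := gd_card_le_sub_le
    (ZLattice.comap ℝ (mixedEmbedding.idealLattice K (FractionalIdeal.mk0 K A))
      (toMixed K).toLinearMap)
    (F := fun x ↦ mixedEmbedding.norm (toMixed K x)) (X := (toMixed K) ⁻¹' (fundamentalCone K))
    (fun _ _ _ h ↦ by rwa [Set.mem_preimage, map_smul, smul_mem_iff_mem h.ne'])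
    (fun _ _ h ↦ by rw [map_smul, mixedEmbedding.norm_smul, euclidean.finrank, abs_of_nonneg h])
    ((toMixed K).antilipschitz.isBounded_preimage (isBounded_normLeOne K))
    ((toMixed K).continuous.measurable (measurableSet_normLeOne K))
    (by
      rw [h₁, ← (toMixed K).coe_toHomeomorph, ← Homeomorph.preimage_frontier,
        (toMixed K).coe_toHomeomorph, h₂, euclidean.finrank]
      exact (isLipschitzCovered_frontier_normLeOne K).preimage_continuousLinearEquiv (toMixed K))
    ((toMixed K).symm (mixedEmbedding K (β₀ : K)))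
  have hvol : volume.real
      {x | x ∈ (toMixed K) ⁻¹' (fundamentalCone K) ∧ mixedEmbedding.norm (toMixed K x) ≤ 1} /
        ZLattice.covolume (ZLattice.comap ℝ
          (mixedEmbedding.idealLattice K (FractionalIdeal.mk0 K A)) (toMixed K).toLinearMap) =
      classCountKappa K * torsionOrder K / absNorm A.1 := by
    rw [h₁, h₂, MeasureTheory.measureReal_def, (volumePreserving_toMixed K).measure_preimage
      (measurableSet_normLeOne K).nullMeasurableSet, volume_normLeOne, ZLattice.covolume_comap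
      _ _ _ (volumePreserving_toMixed K), covolume_idealLattice, ENNReal.toReal_mul,
      ENNReal.toReal_mul, ENNReal.toReal_pow, ENNReal.toReal_pow, ENNReal.toReal_ofNat,
      ENNReal.coe_toReal, NNReal.coe_real_pi, ENNReal.toReal_ofReal (regulator_pos K).le,
      FractionalIdeal.coe_mk0, FractionalIdeal.coeIdeal_absNorm, Rat.cast_natCast, classCountKappa]
    have hw : (0 : ℝ) < torsionOrder K := Nat.cast_pos.mpr (torsionOrder_pos K)
    have h4 : Real.sqrt |(discr K : ℝ)| ≠ 0 :=
      (Real.sqrt_pos.mpr (abs_pos.mpr (Int.cast_ne_zero.mpr (discr_ne_zero K)))).ne'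
    field_simp
    have h6 : ((1 : ℝ) / 2) ^ nrComplexPlaces K * 2 ^ nrComplexPlaces K = 1 := by
      rw [← mul_pow]; norm_num
    linear_combination (-(π ^ nrComplexPlaces K * regulator K)) * h6
  refine ⟨B, fun s hs => ?_⟩
  have hBs := hB s hs
  rw [← gd_rayCount_card K A β₀ s, hvol, euclidean.finrank] at hBs
  exact hBs

end Fermat.Agent.S55
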