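import Mathlib
import Fermat.Agent.S55.Global.Second.Defs
import Fermat.Agent.S55.Global.Second.RayCount
import Fermat.Agent.S55.Global.Second.ConeSum
import Fermat.Agent.S55.Global.Second.Coprime
import Fermat.Agent.S14.LatticeCount
import Fermat.Agent.S14.ClassCount
import Fermat.Agent.S14.ClassLBound
import Fermat.Agent.S14.PrimeSums
import Fermat.Agent.S14.FirstIneq

/-!
# S55 / GD-d: the L-series of a ray class character that is nontrivial on the principal ideals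
prime to the modulus is bounded on `(1,2)`
-/

set_option autoImplicit false

namespace Fermat.Agent.S55

open NumberField IsDedekindDomain MeasureTheory Fermat.Agent.S14
open NumberField.mixedEmbedding NumberField.mixedEmbedding.fundamentalCone NumberField.Units
open scoped nonZeroDivisors

section psi

variable {K : Type} [Field K] [NumberField K] {m : ℕ} [NeZero m]
variable (𝔪 : Ideal (𝓞 K)) (f : S14.Div K →+ ZMod m)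

/-- The function `β ↦ χ((β))` on the integers. -/
noncomputable def gdPsi (β : 𝓞 K) : ℂ := gdChar K 𝔪 f (Ideal.span {β})

theorem gdPsi_mul (β β' : 𝓞 K) : gdPsi 𝔪 f (β * β') = gdPsi 𝔪 f β * gdPsi 𝔪 f β' := by
  unfold gdPsi
  rw [← Ideal.span_singleton_mul_span_singleton, map_mul]

theorem norm_gdPsi_le (β : 𝓞 K) : ‖gdPsi 𝔪 f β‖ ≤ 1 := norm_gdChar_le 𝔪 f _

theorem gd_isCoprime_span_congr {β β' : 𝓞 K} (h : β - β' ∈ 𝔪)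
    (hβ : IsCoprime (Ideal.span {β}) 𝔪) : IsCoprime (Ideal.span {β'}) 𝔪 := by
  rw [Ideal.isCoprime_iff_sup_eq] at hβ ⊢
  rw [eq_top_iff, ← hβ, sup_le_iff]
  refine ⟨?_, le_sup_right⟩
  rw [Ideal.span_singleton_le_iff_mem]
  have : β = β' + (β - β') := by ring
  rw [this]
  exact Ideal.add_mem _ (Ideal.mem_sup_left (Ideal.mem_span_singleton_self β'))
    (Ideal.mem_sup_right h)

theorem gdPsi_of_isCoprime {β : 𝓞 K} (hβ0 : β ≠ 0) (hβ : IsCoprime (Ideal.span {β}) 𝔪) :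
    gdPsi 𝔪 f β = ZMod.stdAddChar (f (divOf K (β : K))) := by
  have hne : (Ideal.span {β} : Ideal (𝓞 K)) ≠ ⊥ := by simpa using hβ0
  rw [gdPsi, gdChar_apply_of_isCoprime f hβ, divChar_apply_of_ne_bot K f hne,
    idealDiv_span_singleton]

theorem gdPsi_congr (hprin : ∀ x : K, gdOneMod K 𝔪 x → f (divOf K x) = 0) {β β' : 𝓞 K}
    (hβ : β ≠ 0) (hβ' : β' ≠ 0) (h : β - β' ∈ 𝔪) : gdPsi 𝔪 f β = gdPsi 𝔪 f β' := by
  by_cases hc : IsCoprime (Ideal.span {β}) 𝔪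
  · have hc' := gd_isCoprime_span_congr 𝔪 h hc
    rw [gdPsi_of_isCoprime 𝔪 f hβ hc, gdPsi_of_isCoprime 𝔪 f hβ' hc']
    congr 1
    have hβK : (β : K) ≠ 0 := RingOfIntegers.coe_ne_zero_iff.mpr hβ
    have hβ'K : (β' : K) ≠ 0 := RingOfIntegers.coe_ne_zero_iff.mpr hβ'
    have h1 := hprin ((β : K) / (β' : K)) ⟨β, β', hβ, hβ', hc, hc', h, rfl⟩
    rw [div_eq_mul_inv, fi_divOf_mul K hβK (inv_ne_zero hβ'K), fi_divOf_inv, map_add, map_neg,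
      add_neg_eq_zero] at h1
    exact h1
  · have hc' : ¬ IsCoprime (Ideal.span {β'}) 𝔪 := fun h' =>
      hc (gd_isCoprime_span_congr 𝔪 (by simpa using 𝔪.neg_mem h) h')
    rw [gdPsi, gdPsi, gdChar_apply_of_not_isCoprime f hc, gdChar_apply_of_not_isCoprime f hc']

/-- Nonzero representatives of the residue classes modulo `𝔪 ≠ ⊥`. -/
theorem gd_exists_rep (h𝔪 : 𝔪 ≠ ⊥) (r : 𝓞 K ⧸ 𝔪) :
    ∃ β : 𝓞 K, β ≠ 0 ∧ Ideal.Quotient.mk 𝔪 β = r := by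
  obtain ⟨β, rfl⟩ := Ideal.Quotient.mk_surjective r
  by_cases hβ : β = 0
  · obtain ⟨μ, hμ, hμ0⟩ := Submodule.exists_mem_ne_zero_of_ne_bot h𝔪
    refine ⟨μ, hμ0, ?_⟩
    rw [hβ, map_zero, Ideal.Quotient.eq_zero_iff_mem]
    exact hμ
  · exact ⟨β, hβ, rfl⟩

/-- A system of nonzero representatives. -/
noncomputable def gdRep (h𝔪 : 𝔪 ≠ ⊥) (r : 𝓞 K ⧸ 𝔪) : 𝓞 K := (gd_exists_rep 𝔪 h𝔪 r).choose

theorem gdRep_ne_zero (h𝔪 : 𝔪 ≠ ⊥) (r : 𝓞 K ⧸ 𝔪) : gdRep 𝔪 h𝔪 r ≠ 0 :=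
  (gd_exists_rep 𝔪 h𝔪 r).choose_spec.1

theorem mk_gdRep (h𝔪 : 𝔪 ≠ ⊥) (r : 𝓞 K ⧸ 𝔪) : Ideal.Quotient.mk 𝔪 (gdRep 𝔪 h𝔪 r) = r :=
  (gd_exists_rep 𝔪 h𝔪 r).choose_spec.2

theorem gdPsi_eq_gdRep (hprin : ∀ x : K, gdOneMod K 𝔪 x → f (divOf K x) = 0) (h𝔪 : 𝔪 ≠ ⊥)
    {β : 𝓞 K} (hβ : β ≠ 0) : gdPsi 𝔪 f β = gdPsi 𝔪 f (gdRep 𝔪 h𝔪 (Ideal.Quotient.mk 𝔪 β)) := by
  refine gdPsi_congr 𝔪 f hprin hβ (gdRep_ne_zero 𝔪 h𝔪 _) ?_
  rw [← Ideal.Quotient.eq_zero_iff_mem, map_sub, mk_gdRep, sub_self]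

/-- The sum of `ψ` over the residue classes vanishes when `ψ` is nontrivial. -/
theorem gd_sum_gdPsi_gdRep (hprin : ∀ x : K, gdOneMod K 𝔪 x → f (divOf K x) = 0) (h𝔪 : 𝔪 ≠ ⊥)
    [Fintype (𝓞 K ⧸ 𝔪)]
    (hf : ∃ β : 𝓞 K, β ≠ 0 ∧ IsCoprime (Ideal.span {β}) 𝔪 ∧ f (divOf K (β : K)) ≠ 0) :
    ∑ r : 𝓞 K ⧸ 𝔪, gdPsi 𝔪 f (gdRep 𝔪 h𝔪 r) = 0 := by
  obtain ⟨β₁, hβ₁0, hβ₁c, hβ₁f⟩ := hf
  -- `ψ β₁ ≠ 1`
  have hne : gdPsi 𝔪 f β₁ ≠ 1 := by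
    rw [gdPsi_of_isCoprime 𝔪 f hβ₁0 hβ₁c]
    intro h1
    apply hβ₁f
    have h2 : ZMod.stdAddChar (f (divOf K (β₁ : K))) = ZMod.stdAddChar (0 : ZMod m) := by
      rw [h1, AddChar.map_zero_eq_one]
    exact ZMod.injective_stdAddChar h2
  -- `β₁` is a unit modulo `𝔪`
  have hunit : IsUnit (Ideal.Quotient.mk 𝔪 β₁) := by
    rw [Ideal.isCoprime_iff_exists] at hβ₁c
    obtain ⟨i, hi, j, hj, hij⟩ := hβ₁c
    obtain ⟨c, rfl⟩ := Ideal.mem_span_singleton'.mp hi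
    refine IsUnit.of_mul_eq_one_right (Ideal.Quotient.mk 𝔪 c) ?_
    rw [← map_mul, ← map_one (Ideal.Quotient.mk 𝔪), ← hij, map_add, map_mul,
      Ideal.Quotient.eq_zero_iff_mem.mpr hj, add_zero]
  obtain ⟨u, hu⟩ := hunit
  have hsum : ∑ r : 𝓞 K ⧸ 𝔪, gdPsi 𝔪 f (gdRep 𝔪 h𝔪 ((u : 𝓞 K ⧸ 𝔪) * r)) =
      ∑ r : 𝓞 K ⧸ 𝔪, gdPsi 𝔪 f (gdRep 𝔪 h𝔪 r) :=
    Equiv.sum_comp (Units.mulLeft u) (fun r => gdPsi 𝔪 f (gdRep 𝔪 h𝔪 r))
  have hterm : ∀ r : 𝓞 K ⧸ 𝔪, gdPsi 𝔪 f (gdRep 𝔪 h𝔪 ((u : 𝓞 K ⧸ 𝔪) * r)) =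
      gdPsi 𝔪 f β₁ * gdPsi 𝔪 f (gdRep 𝔪 h𝔪 r) := by
    intro r
    rw [← gdPsi_mul]
    refine gdPsi_congr 𝔪 f hprin (gdRep_ne_zero 𝔪 h𝔪 _)
      (mul_ne_zero hβ₁0 (gdRep_ne_zero 𝔪 h𝔪 r)) ?_
    rw [← Ideal.Quotient.eq_zero_iff_mem, map_sub, mk_gdRep, map_mul, mk_gdRep, hu, sub_self]
  simp_rw [hterm] at hsum
  rw [← Finset.mul_sum] at hsum
  have h3 : (gdPsi 𝔪 f β₁ - 1) * ∑ r : 𝓞 K ⧸ 𝔪, gdPsi 𝔪 f (gdRep 𝔪 h𝔪 r) = 0 := by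
    rw [sub_mul, one_mul]
    exact sub_eq_zero.mpr hsum
  rcases mul_eq_zero.mp h3 with h4 | h4
  · exact absurd (sub_eq_zero.mp h4) hne
  · exact h4

end psi

section classSum

variable {K : Type} [Field K] [NumberField K]

open Ideal Submodule

theorem gd_finite_class (C : ClassGroup (𝓞 K)) (s : ℝ) :
    Finite {I : (Ideal (𝓞 K))⁰ // (absNorm (I : Ideal (𝓞 K)) : ℝ) ≤ s ∧ ClassGroup.mk0 I = C} := by
  have h : {I : (Ideal (𝓞 K))⁰ | (absNorm (I : Ideal (𝓞 K)) : ℝ) ≤ s ∧ ClassGroup.mk0 I = C}.Finite :=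
    (Ideal.finite_setOfPred_absNorm_le₀ (S := 𝓞 K) ⌊s⌋₊).subset fun I hI => by
      rcases le_or_gt 0 s with hs | hs
      · exact (Nat.le_floor_iff hs).mpr hI.1
      · exact absurd (hI.1.trans_lt hs) (not_lt.mpr (Nat.cast_nonneg _))
  exact h.to_subtype

/-- Multiplication by `J ∈ C⁻¹` identifies the ideals of norm `≤ s` in the class `C` with the
principal ideals divisible by `J` of norm `≤ s N(J)`; sums of multiplicative functions. -/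
theorem gd_finsum_class_eq (g : Ideal (𝓞 K) →*₀ ℂ) {C : ClassGroup (𝓞 K)} {J : (Ideal (𝓞 K))⁰}
    (hJ : ClassGroup.mk0 J = C⁻¹) (s : ℝ) :
    g (J : Ideal (𝓞 K)) *
      ∑ᶠ I : {I : (Ideal (𝓞 K))⁰ // (absNorm (I : Ideal (𝓞 K)) : ℝ) ≤ s ∧ ClassGroup.mk0 I = C},
        g (I : Ideal (𝓞 K)) =
    ∑ᶠ I : {I : (Ideal (𝓞 K))⁰ // (J : Ideal (𝓞 K)) ∣ I ∧ IsPrincipal (I : Ideal (𝓞 K)) ∧
        (absNorm (I : Ideal (𝓞 K)) : ℝ) ≤ s * absNorm (J : Ideal (𝓞 K))},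
      g (I : Ideal (𝓞 K)) := by
  have hJpos : (0 : ℝ) < absNorm (J : Ideal (𝓞 K)) :=
    Nat.cast_pos.mpr (absNorm_pos_of_nonZeroDivisors J)
  haveI := gd_finite_class C s
  rw [mul_finsum]
  -- the bijection `I ↦ J * I`
  let e : {I : (Ideal (𝓞 K))⁰ // (absNorm (I : Ideal (𝓞 K)) : ℝ) ≤ s ∧ ClassGroup.mk0 I = C} →
      {I : (Ideal (𝓞 K))⁰ // (J : Ideal (𝓞 K)) ∣ I ∧ IsPrincipal (I : Ideal (𝓞 K)) ∧
        (absNorm (I : Ideal (𝓞 K)) : ℝ) ≤ s * absNorm (J : Ideal (𝓞 K))} := fun I =>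
    ⟨J * I.1, by
      refine ⟨?_, ?_, ?_⟩
      · rw [Submonoid.coe_mul]
        exact Dvd.intro _ rfl
      · rw [← ClassGroup.mk0_eq_one_iff (SetLike.coe_mem _)]
        have : (⟨((J * I.1 : (Ideal (𝓞 K))⁰) : Ideal (𝓞 K)), SetLike.coe_mem _⟩ : (Ideal (𝓞 K))⁰)
            = J * I.1 := rfl
        rw [this, map_mul, hJ, I.2.2, inv_mul_cancel]
      · rw [Submonoid.coe_mul, map_mul, Nat.cast_mul, mul_comm]
        exact mul_le_mul_of_nonneg_right I.2.1 hJpos.le⟩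
  have he : ∀ I, ((e I).1 : Ideal (𝓞 K)) = (J : Ideal (𝓞 K)) * (I.1 : Ideal (𝓞 K)) := fun I => rfl
  refine finsum_eq_of_bijective e ⟨?_, ?_⟩ (fun I => by rw [he, map_mul])
  · intro I₁ I₂ h
    have h1 : J * I₁.1 = J * I₂.1 := congrArg Subtype.val h
    exact Subtype.ext (mul_left_cancel h1)
  · rintro ⟨I', hdvd, hprinc, hnorm⟩
    obtain ⟨I'', hI''⟩ := hdvd
    have hI''0 : I'' ∈ (Ideal (𝓞 K))⁰ := by
      rw [mem_nonZeroDivisors_iff_ne_zero]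
      rintro rfl
      rw [mul_zero] at hI''
      exact (mem_nonZeroDivisors_iff_ne_zero.mp I'.2) hI''
    have hI'eq : I' = J * ⟨I'', hI''0⟩ := Subtype.ext hI''
    refine ⟨⟨⟨I'', hI''0⟩, ?_, ?_⟩, ?_⟩
    · rw [hI'', map_mul, Nat.cast_mul, mul_comm] at hnorm
      exact le_of_mul_le_mul_right hnorm hJpos
    · have h1 : ClassGroup.mk0 I' = 1 := (ClassGroup.mk0_eq_one_iff I'.2).mpr hprinc
      rw [hI'eq, map_mul, hJ, inv_mul_eq_one] at h1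
      exact h1.symm
    · exact Subtype.ext hI'eq.symm

end classSum

section residues

variable {K : Type} [Field K] [NumberField K] {m : ℕ} [NeZero m]
variable (𝔪 : Ideal (𝓞 K)) (f : S14.Div K →+ ZMod m)

theorem gd_ne_zero_of_mem_cone {β : 𝓞 K} (h : mixedEmbedding K (β : K) ∈ fundamentalCone K) :
    β ≠ 0 := by
  rintro rfl
  have := norm_pos_of_mem h
  simp at this

/-- Decomposition of the sum of `ψ` over the cone points of `J` according to residues mod `𝔪`. -/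
theorem gd_cone_sum_eq (hprin : ∀ x : K, gdOneMod K 𝔪 x → f (divOf K x) = 0) (h𝔪 : 𝔪 ≠ ⊥)
    [Fintype (𝓞 K ⧸ 𝔪)] (J : (Ideal (𝓞 K))⁰) (hJ : IsCoprime (J : Ideal (𝓞 K)) 𝔪) :
    ∃ βr : (𝓞 K ⧸ 𝔪) → 𝓞 K, ∀ t : ℝ,
      ∑ᶠ β : {β : 𝓞 K // β ∈ (J : Ideal (𝓞 K)) ∧ mixedEmbedding K (β : K) ∈ fundamentalCone K ∧
          mixedEmbedding.norm (mixedEmbedding K (β : K)) ≤ t}, gdPsi 𝔪 f β =
      ∑ r : 𝓞 K ⧸ 𝔪, gdPsi 𝔪 f (gdRep 𝔪 h𝔪 r) *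
        (Nat.card {β : 𝓞 K // β - βr r ∈ (J : Ideal (𝓞 K)) * 𝔪 ∧
          mixedEmbedding K (β : K) ∈ fundamentalCone K ∧
          mixedEmbedding.norm (mixedEmbedding K (β : K)) ≤ t} : ℂ) := by
  classical
  rw [Ideal.isCoprime_iff_exists] at hJ
  obtain ⟨j, hj, μ, hμ, hjμ⟩ := hJ
  have hJ' : IsCoprime (J : Ideal (𝓞 K)) 𝔪 := Ideal.isCoprime_iff_exists.mpr ⟨j, hj, μ, hμ, hjμ⟩
  have hmkj : Ideal.Quotient.mk 𝔪 j = 1 := by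
    rw [← map_one (Ideal.Quotient.mk 𝔪), ← hjμ, map_add, Ideal.Quotient.eq_zero_iff_mem.mpr hμ,
      add_zero]
  refine ⟨fun r => j * gdRep 𝔪 h𝔪 r, fun t => ?_⟩
  haveI := gd_finite_cone K J t
  haveI : Fintype {β : 𝓞 K // β ∈ (J : Ideal (𝓞 K)) ∧
      mixedEmbedding K (β : K) ∈ fundamentalCone K ∧
      mixedEmbedding.norm (mixedEmbedding K (β : K)) ≤ t} := Fintype.ofFinite _
  rw [finsum_eq_sum_of_fintype,
    ← Finset.sum_fiberwise Finset.univ (fun β : {β : 𝓞 K // β ∈ (J : Ideal (𝓞 K)) ∧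
      mixedEmbedding K (β : K) ∈ fundamentalCone K ∧
      mixedEmbedding.norm (mixedEmbedding K (β : K)) ≤ t} => Ideal.Quotient.mk 𝔪 (β : 𝓞 K))]
  refine Finset.sum_congr rfl fun r _ => ?_
  have h1 : ∀ β ∈ Finset.univ.filter (fun β : {β : 𝓞 K // β ∈ (J : Ideal (𝓞 K)) ∧
      mixedEmbedding K (β : K) ∈ fundamentalCone K ∧
      mixedEmbedding.norm (mixedEmbedding K (β : K)) ≤ t} => Ideal.Quotient.mk 𝔪 (β : 𝓞 K) = r),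
      gdPsi 𝔪 f β = gdPsi 𝔪 f (gdRep 𝔪 h𝔪 r) := by
    intro β hβ
    rw [Finset.mem_filter] at hβ
    rw [gdPsi_eq_gdRep 𝔪 f hprin h𝔪 (gd_ne_zero_of_mem_cone β.2.2.1), hβ.2]
  rw [Finset.sum_congr rfl h1, Finset.sum_const, nsmul_eq_mul, mul_comm]
  congr 2
  rw [← Fintype.card_subtype, ← Nat.card_eq_fintype_card]
  refine Nat.card_congr ((Equiv.subtypeSubtypeEquivSubtypeInter
    (fun β : 𝓞 K => β ∈ (J : Ideal (𝓞 K)) ∧ mixedEmbedding K (β : K) ∈ fundamentalCone K ∧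
      mixedEmbedding.norm (mixedEmbedding K (β : K)) ≤ t)
    (fun β : 𝓞 K => Ideal.Quotient.mk 𝔪 β = r)).trans
    (Equiv.subtypeEquivRight fun β => ?_))
  rw [Ideal.mul_eq_inf_of_isCoprime hJ', Ideal.mem_inf]
  have hjr : j * gdRep 𝔪 h𝔪 r ∈ (J : Ideal (𝓞 K)) := Ideal.mul_mem_right _ _ hj
  have hmk : Ideal.Quotient.mk 𝔪 (j * gdRep 𝔪 h𝔪 r) = r := by
    rw [map_mul, hmkj, one_mul, mk_gdRep]
  constructor
  · rintro ⟨⟨hβJ, hc, hn⟩, hr⟩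
    refine ⟨⟨Ideal.sub_mem _ hβJ hjr, ?_⟩, hc, hn⟩
    rw [← Ideal.Quotient.eq_zero_iff_mem, map_sub, hr, hmk, sub_self]
  · rintro ⟨⟨h1, h2⟩, hc, hn⟩
    refine ⟨⟨?_, hc, hn⟩, ?_⟩
    · have := Ideal.add_mem _ h1 hjr
      simpa using this
    · rw [← Ideal.Quotient.eq_zero_iff_mem, map_sub, hmk, sub_eq_zero] at h2
      exact h2

theorem norm_divChar_eq_one {I : Ideal (𝓞 K)} (hI : I ≠ ⊥) : ‖divChar K f I‖ = 1 := by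
  rw [divChar_apply_of_ne_bot K f hI, ZMod.stdAddChar_apply, Circle.norm_coe]

open Ideal in
/-- The partial sums of `χ` over the ideals of one class are `O(s^(1-1/n))`. -/
theorem gd_class_sum_le (hprin : ∀ x : K, gdOneMod K 𝔪 x → f (divOf K x) = 0) (h𝔪 : 𝔪 ≠ ⊥)
    (hf : ∃ β : 𝓞 K, β ≠ 0 ∧ IsCoprime (Ideal.span {β}) 𝔪 ∧ f (divOf K (β : K)) ≠ 0)
    (C : ClassGroup (𝓞 K)) :
    ∃ B : ℝ, ∀ s : ℝ, 1 ≤ s →
      ‖∑ᶠ I : {I : (Ideal (𝓞 K))⁰ // (absNorm (I : Ideal (𝓞 K)) : ℝ) ≤ s ∧ ClassGroup.mk0 I = C},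
        gdChar K 𝔪 f (I : Ideal (𝓞 K))‖ ≤ B * s ^ (1 - 1 / (Module.finrank ℚ K : ℝ)) := by
  classical
  obtain ⟨J, hJC, hJcop⟩ := gd_exists_mk0_eq_isCoprime K 𝔪 h𝔪 C⁻¹
  haveI : Finite (𝓞 K ⧸ 𝔪) := Ideal.finiteQuotientOfFreeOfNeBot 𝔪 h𝔪
  haveI : Fintype (𝓞 K ⧸ 𝔪) := Fintype.ofFinite _
  obtain ⟨βr, hβr⟩ := gd_cone_sum_eq 𝔪 f hprin h𝔪 J hJcop
  set 𝔪' : (Ideal (𝓞 K))⁰ := ⟨𝔪, mem_nonZeroDivisors_iff_ne_zero.mpr h𝔪⟩ with h𝔪'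
  set A : (Ideal (𝓞 K))⁰ := J * 𝔪' with hA
  have hAcoe : (A : Ideal (𝓞 K)) = (J : Ideal (𝓞 K)) * 𝔪 := rfl
  choose Br hBr using fun r => gd_rayCount K A (βr r)
  set θ : ℝ := 1 - 1 / (Module.finrank ℚ K : ℝ) with hθ
  have hw : (0 : ℝ) < torsionOrder K := Nat.cast_pos.mpr (torsionOrder_pos K)
  have hNJ : (1 : ℝ) ≤ absNorm (J : Ideal (𝓞 K)) := by
    exact_mod_cast Nat.one_le_iff_ne_zero.mpr (absNorm_ne_zero_of_nonZeroDivisors J)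
  have hJne : (J : Ideal (𝓞 K)) ≠ ⊥ := mem_nonZeroDivisors_iff_ne_zero.mp J.2
  have hχJ : ‖gdChar K 𝔪 f (J : Ideal (𝓞 K))‖ = 1 := by
    rw [gdChar_apply_of_isCoprime f hJcop, norm_divChar_eq_one f hJne]
  refine ⟨(∑ r, Br r) * (absNorm (J : Ideal (𝓞 K)) : ℝ) ^ θ / torsionOrder K, fun s hs => ?_⟩
  have hs0 : (0 : ℝ) ≤ s := zero_le_one.trans hs
  set t : ℝ := s * absNorm (J : Ideal (𝓞 K)) with ht
  have ht1 : 1 ≤ t := by nlinarith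
  set S := ∑ᶠ I : {I : (Ideal (𝓞 K))⁰ // (absNorm (I : Ideal (𝓞 K)) : ℝ) ≤ s ∧
    ClassGroup.mk0 I = C}, gdChar K 𝔪 f (I : Ideal (𝓞 K)) with hS
  have h1 := gd_finsum_class_eq (gdChar K 𝔪 f) (by rw [hJC] : ClassGroup.mk0 J = C⁻¹) s
  have h2 := gd_sum_principal K J t (gdChar K 𝔪 f)
  have h3 := hβr t
  change (∑ᶠ β : {β : 𝓞 K // β ∈ (J : Ideal (𝓞 K)) ∧
      mixedEmbedding K (β : K) ∈ fundamentalCone K ∧
      mixedEmbedding.norm (mixedEmbedding K (β : K)) ≤ t},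
      gdChar K 𝔪 f (Ideal.span {(β : 𝓞 K)})) = _ at h3
  rw [← h1, h3] at h2
  -- subtract the main term
  set κ' : ℝ := classCountKappa K * torsionOrder K / absNorm (A : Ideal (𝓞 K)) * t with hκ'
  have h4 : ∑ r : 𝓞 K ⧸ 𝔪, gdPsi 𝔪 f (gdRep 𝔪 h𝔪 r) *
      (Nat.card {β : 𝓞 K // β - βr r ∈ (J : Ideal (𝓞 K)) * 𝔪 ∧
          mixedEmbedding K (β : K) ∈ fundamentalCone K ∧
          mixedEmbedding.norm (mixedEmbedding K (β : K)) ≤ t} : ℂ) =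
      ∑ r : 𝓞 K ⧸ 𝔪, gdPsi 𝔪 f (gdRep 𝔪 h𝔪 r) *
        (((Nat.card {β : 𝓞 K // β - βr r ∈ (J : Ideal (𝓞 K)) * 𝔪 ∧
          mixedEmbedding K (β : K) ∈ fundamentalCone K ∧
          mixedEmbedding.norm (mixedEmbedding K (β : K)) ≤ t} : ℝ) - κ' : ℝ) : ℂ) := by
    have h0 : ∑ r : 𝓞 K ⧸ 𝔪, gdPsi 𝔪 f (gdRep 𝔪 h𝔪 r) * ((κ' : ℝ) : ℂ) = 0 := by
      rw [← Finset.sum_mul, gd_sum_gdPsi_gdRep 𝔪 f hprin h𝔪 hf, zero_mul]
    rw [← sub_zero (∑ r : 𝓞 K ⧸ 𝔪, gdPsi 𝔪 f (gdRep 𝔪 h𝔪 r) * _), ← h0,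
      ← Finset.sum_sub_distrib]
    refine Finset.sum_congr rfl fun r _ => ?_
    push_cast
    ring
  rw [h4] at h2
  have h5 : ‖(torsionOrder K : ℂ) * (gdChar K 𝔪 f (J : Ideal (𝓞 K)) * S)‖ =
      torsionOrder K * ‖S‖ := by
    rw [norm_mul, norm_mul, hχJ, one_mul, Complex.norm_natCast]
  have h6 : ‖∑ r : 𝓞 K ⧸ 𝔪, gdPsi 𝔪 f (gdRep 𝔪 h𝔪 r) *
        (((Nat.card {β : 𝓞 K // β - βr r ∈ (J : Ideal (𝓞 K)) * 𝔪 ∧
          mixedEmbedding K (β : K) ∈ fundamentalCone K ∧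
          mixedEmbedding.norm (mixedEmbedding K (β : K)) ≤ t} : ℝ) - κ' : ℝ) : ℂ)‖ ≤
      ∑ r : 𝓞 K ⧸ 𝔪, Br r * t ^ θ := by
    refine (norm_sum_le _ _).trans (Finset.sum_le_sum fun r _ => ?_)
    rw [norm_mul, Complex.norm_real, Real.norm_eq_abs]
    have h7 := hBr r t ht1
    rw [hAcoe] at h7
    calc ‖gdPsi 𝔪 f (gdRep 𝔪 h𝔪 r)‖ * |_ - κ'| ≤ 1 * |_ - κ'| := by
          gcongr
          exact norm_gdPsi_le 𝔪 f _
      _ = |_ - κ'| := one_mul _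
      _ ≤ Br r * t ^ θ := h7
  rw [h2] at h5
  rw [h5] at h6
  rw [div_mul_eq_mul_div, le_div_iff₀ hw, mul_comm]
  refine h6.trans (le_of_eq ?_)
  rw [← Finset.sum_mul, ht, Real.mul_rpow hs0 (Nat.cast_nonneg _)]
  ring

end residues

section main

variable {K : Type} [Field K] [NumberField K] {m : ℕ} [NeZero m]
variable (𝔪 : Ideal (𝓞 K)) (f : S14.Div K →+ ZMod m)

open Ideal in
/-- The partial sums of the coefficients of `χ` are `O(N^(1-1/n))`. -/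
theorem gd_norm_sum_idealCoeff_le (hprin : ∀ x : K, gdOneMod K 𝔪 x → f (divOf K x) = 0)
    (h𝔪 : 𝔪 ≠ ⊥)
    (hf : ∃ β : 𝓞 K, β ≠ 0 ∧ IsCoprime (Ideal.span {β}) 𝔪 ∧ f (divOf K (β : K)) ≠ 0) :
    ∃ B : ℝ, 0 ≤ B ∧ ∀ N : ℕ, 1 ≤ N →
      ‖∑ k ∈ Finset.Icc 1 N, idealCoeff K (gdChar K 𝔪 f) k‖ ≤
        B * (N : ℝ) ^ (1 - 1 / (Module.finrank ℚ K : ℝ)) := by
  classical
  choose Bc hBc using gd_class_sum_le 𝔪 f hprin h𝔪 hf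
  refine ⟨∑ C, |Bc C|, Finset.sum_nonneg fun _ _ => abs_nonneg _, fun N hN => ?_⟩
  have hN1 : (1 : ℝ) ≤ (N : ℝ) := by exact_mod_cast hN
  rw [clb_sum_idealCoeff,
    ← Finset.sum_fiberwise (clb_idealsLE K N) (fun I : (Ideal (𝓞 K))⁰ => ClassGroup.mk0 I)]
  rw [Finset.sum_mul]
  refine (norm_sum_le _ _).trans (Finset.sum_le_sum fun C _ => ?_)
  have hfin := gd_finite_class (K := K) C (N : ℝ)
  haveI : Fintype {I : (Ideal (𝓞 K))⁰ // (absNorm (I : Ideal (𝓞 K)) : ℝ) ≤ (N : ℝ) ∧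
      ClassGroup.mk0 I = C} := Fintype.ofFinite _
  have h1 : ∑ I ∈ (clb_idealsLE K N).filter (fun I : (Ideal (𝓞 K))⁰ => ClassGroup.mk0 I = C),
      gdChar K 𝔪 f (I : Ideal (𝓞 K)) =
      ∑ᶠ I : {I : (Ideal (𝓞 K))⁰ // (absNorm (I : Ideal (𝓞 K)) : ℝ) ≤ (N : ℝ) ∧
        ClassGroup.mk0 I = C}, gdChar K 𝔪 f (I : Ideal (𝓞 K)) := by
    rw [finsum_eq_sum_of_fintype]
    refine Finset.sum_subtype _ (fun I => ?_) _
    rw [Finset.mem_filter, clb_mem_idealsLE, Nat.cast_le]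
  rw [h1]
  refine (hBc C (N : ℝ) hN1).trans ?_
  gcongr
  exact le_abs_self _

/-- Absolute convergence of the L-series of a bounded function on ideals, for `s > 1`. -/
theorem gd_lseriesSummable {F : Ideal (𝓞 K) → ℂ} (hF : ∀ I, ‖F I‖ ≤ 1) {s : ℝ} (hs : 1 < s) :
    LSeriesSummable (idealCoeff K F) (s : ℂ) := by
  classical
  obtain ⟨κ, C, _, hrate'⟩ := classCount_rate K
  have hrate : clb_Rate K κ C (1 - 1 / (Module.finrank ℚ K : ℝ)) := hrate'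
  have hθ : 1 - 1 / (Module.finrank ℚ K : ℝ) ≤ 1 := by
    have : (0 : ℝ) ≤ 1 / (Module.finrank ℚ K : ℝ) := by positivity
    linarith
  refine LSeriesSummable_of_sum_norm_bigO (r := 1) ?_ zero_le_one (by simpa using hs)
  refine Asymptotics.IsBigO.of_bound ((Fintype.card (ClassGroup (𝓞 K)) : ℝ) * (|κ| + C)) ?_
  filter_upwards [Filter.eventually_ge_atTop 1] with N hN
  rw [Real.rpow_one, Real.norm_of_nonneg (Nat.cast_nonneg N),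
    Real.norm_of_nonneg (Finset.sum_nonneg fun _ _ => norm_nonneg _)]
  refine le_trans ?_ (clb_card_idealsLE_le hθ hrate hN)
  have hcard : (clb_idealsLE K N).card =
      ∑ k ∈ Finset.Icc 1 N, ((clb_idealsLE K N).filter
        (fun I : (Ideal (𝓞 K))⁰ => Ideal.absNorm (I : Ideal (𝓞 K)) = k)).card :=
    Finset.card_eq_sum_card_fiberwise
      (f := fun I : (Ideal (𝓞 K))⁰ => Ideal.absNorm (I : Ideal (𝓞 K)))
      (t := Finset.Icc 1 N) (fun I hI => by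
        rw [Finset.mem_coe, Finset.mem_Icc]
        exact ⟨clb_one_le_absNorm I, clb_mem_idealsLE.mp hI⟩)
  rw [hcard, Nat.cast_sum]
  refine Finset.sum_le_sum fun k hk => ?_
  rw [Finset.mem_Icc] at hk
  rw [clb_idealCoeff_eq _ hk.1 hk.2]
  calc ‖∑ I ∈ (clb_idealsLE K N).filter
          (fun I : (Ideal (𝓞 K))⁰ => Ideal.absNorm (I : Ideal (𝓞 K)) = k),
          F (I : Ideal (𝓞 K))‖
      ≤ ∑ I ∈ (clb_idealsLE K N).filter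
          (fun I : (Ideal (𝓞 K))⁰ => Ideal.absNorm (I : Ideal (𝓞 K)) = k),
          ‖F (I : Ideal (𝓞 K))‖ := norm_sum_le _ _
    _ ≤ ∑ _I ∈ (clb_idealsLE K N).filter
          (fun I : (Ideal (𝓞 K))⁰ => Ideal.absNorm (I : Ideal (𝓞 K)) = k), (1 : ℝ) :=
        Finset.sum_le_sum fun I _ => hF _
    _ = _ := by rw [Finset.sum_const, nsmul_eq_mul, mul_one]

/-- (GD-d) The L-series of a ray class character that is nontrivial on the principal ideals prime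
to the modulus is bounded on `(1,2)`. -/
theorem gd_norm_LSeries_gdChar_le' (h𝔪 : 𝔪 ≠ ⊥)
    (hprin : ∀ x : K, gdOneMod K 𝔪 x → f (divOf K x) = 0)
    (hf : ∃ β : 𝓞 K, β ≠ 0 ∧ IsCoprime (Ideal.span {β}) 𝔪 ∧ f (divOf K (β : K)) ≠ 0) :
    ∃ M : ℝ, ∀ s : ℝ, 1 < s → s < 2 →
      ‖LSeries (idealCoeff K (gdChar K 𝔪 f)) (s : ℂ)‖ ≤ M := by
  obtain ⟨B, hB0, hB⟩ := gd_norm_sum_idealCoeff_le 𝔪 f hprin h𝔪 hf
  have hn : (1 : ℝ) ≤ (Module.finrank ℚ K : ℝ) := by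
    exact_mod_cast Module.finrank_pos (R := ℚ) (M := K)
  have hθ0 : (0 : ℝ) ≤ 1 - 1 / (Module.finrank ℚ K : ℝ) := by
    rw [sub_nonneg, div_le_one (by linarith)]
    exact hn
  have hθ1 : 1 - 1 / (Module.finrank ℚ K : ℝ) < 1 := by
    have : 0 < 1 / (Module.finrank ℚ K : ℝ) := by positivity
    linarith
  exact ⟨_, fun s hs1 hs2 => clb_abel_bound _ hθ0 hθ1 hB0 hB hs1 hs2
    (gd_lseriesSummable (norm_gdChar_le 𝔪 f) hs1)⟩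

end main

/-- (GD-d) The L-series of a ray class character that is nontrivial on the principal ideals prime
to the modulus is bounded on `(1,2)` — exact statement of `Spec.lean`. -/
theorem gd_norm_LSeries_gdChar_le (K : Type) [Field K] [NumberField K] {m : ℕ} [NeZero m]
    (𝔪 : Ideal (𝓞 K)) (h𝔪 : 𝔪 ≠ ⊥)
    (f : S14.Div K →+ ZMod m) (hprin : ∀ x : K, gdOneMod K 𝔪 x → f (divOf K x) = 0)
    (hf : ∃ β : 𝓞 K, β ≠ 0 ∧ IsCoprime (Ideal.span {β}) 𝔪 ∧ f (divOf K (β : K)) ≠ 0) :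
    ∃ M : ℝ, ∀ s : ℝ, 1 < s → s < 2 →
      ‖LSeries (idealCoeff K (gdChar K 𝔪 f)) (s : ℂ)‖ ≤ M :=
  gd_norm_LSeries_gdChar_le' 𝔪 f h𝔪 hprin hf

end Fermat.Agent.S55
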