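import Mathlib
import Fermat.Agent.S55.Global.Second.Defs
import Fermat.Agent.S55.Global.Second.Coprime
import Fermat.Agent.S55.Global.Second.RayLBound
import Fermat.Agent.S14.PrimeSums
import Fermat.Agent.S14.FirstIneq

/-!
# S55 / Global / Second: GD-e — the prime sum of a nontrivial ray class character

`gd_primeSum_cos_le`: generalised (Z2).  For `f : Div K →+ ZMod m` killing the principal divisors
of the `x ≡ 1 mod× 𝔪` and not vanishing on the divisors prime to `𝔪`, the sum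
`∑_v cos (2π f(v)/m) N(v)^(-s)` is bounded above on `(1,2)`.

Two cases.  If `f` kills `div β` for all integers `β` prime to `𝔪`, modify `f` on the finitely many
places dividing `𝔪` into a class group character (`S14.fi_modify`) and use `S14.primeSum_cos_le`.
Otherwise the L-series of `gdChar K 𝔪 f` is bounded (GD-d) and the logarithm of the Euler product
gives the bound (`S14.abs_log_norm_LSeries_sub_le`).
-/

set_option autoImplicit false

namespace Fermat.Agent.S55

open NumberField IsDedekindDomain Fermat.Agent.S14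

/-- Comparison of two sums which agree (up to `≤`) off a finite set. -/
theorem gde_tsum_le_tsum_add_card {V : Type*} (S : Finset V) (a b : V → ℝ) (C : ℝ)
    (ha : Summable a) (hb : Summable b) (hoff : ∀ v, v ∉ S → a v ≤ b v)
    (hon : ∀ v, v ∈ S → a v ≤ b v + C) :
    ∑' v, a v ≤ ∑' v, b v + S.card * C := by
  classical
  have hc : HasSum (fun v => if v ∈ S then C else 0) (∑ v ∈ S, if v ∈ S then C else 0) :=
    hasSum_sum_of_ne_finset_zero fun v hv => if_neg hv
  have hcsum : (∑ v ∈ S, if v ∈ S then C else 0) = S.card * C := by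
    rw [Finset.sum_ite_mem, Finset.inter_self, Finset.sum_const, nsmul_eq_mul]
  have hle : ∀ v, a v ≤ b v + if v ∈ S then C else 0 := by
    intro v
    by_cases hv : v ∈ S
    · rw [if_pos hv]; exact hon v hv
    · rw [if_neg hv, add_zero]; exact hoff v hv
  have h1 := Summable.tsum_le_tsum hle ha (hb.add hc.summable)
  rw [hb.tsum_add hc.summable, hc.tsum_eq, hcsum] at h1
  exact h1

variable (K : Type) [Field K] [NumberField K]

/-- The set of places dividing a nonzero ideal is finite. -/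
theorem gde_finite_le (𝔪 : Ideal (𝓞 K)) (h𝔪 : 𝔪 ≠ ⊥) :
    {v : HeightOneSpectrum (𝓞 K) | 𝔪 ≤ v.asIdeal}.Finite := by
  have h := Ideal.finite_factors (R := 𝓞 K) (I := 𝔪) h𝔪
  refine h.subset fun v hv => ?_
  exact Ideal.dvd_iff_le.mpr hv

variable {K}

/-- A prime ideal is coprime to `𝔪` iff it does not contain `𝔪`. -/
theorem gde_isCoprime_asIdeal_iff (𝔪 : Ideal (𝓞 K)) (v : HeightOneSpectrum (𝓞 K)) :
    IsCoprime v.asIdeal 𝔪 ↔ ¬ 𝔪 ≤ v.asIdeal := by
  rw [Ideal.isCoprime_iff_sup_eq]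
  constructor
  · intro h hle
    rw [sup_eq_left.mpr hle] at h
    exact v.isPrime.ne_top h
  · intro h
    have hmax : v.asIdeal.IsMaximal := v.isMaximal
    by_contra hne
    have h1 : v.asIdeal ⊔ 𝔪 = v.asIdeal := hmax.eq_of_le hne le_sup_left |>.symm
    exact h (h1 ▸ le_sup_right)

theorem gde_gdChar_asIdeal_re_of_not_le (𝔪 : Ideal (𝓞 K)) {m : ℕ} [NeZero m] (f : S14.Div K →+ ZMod m)
    (v : HeightOneSpectrum (𝓞 K)) (hv : ¬ 𝔪 ≤ v.asIdeal) :
    (gdChar K 𝔪 f v.asIdeal).re =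
      Real.cos (2 * Real.pi * ((f (Finsupp.single v 1)).val : ℝ) / (m : ℝ)) := by
  rw [gdChar_apply_of_isCoprime f ((gde_isCoprime_asIdeal_iff 𝔪 v).mpr hv), re_divChar_asIdeal]

theorem gde_gdChar_asIdeal_of_le (𝔪 : Ideal (𝓞 K)) {m : ℕ} [NeZero m] (f : S14.Div K →+ ZMod m)
    (v : HeightOneSpectrum (𝓞 K)) (hv : 𝔪 ≤ v.asIdeal) :
    gdChar K 𝔪 f v.asIdeal = 0 :=
  gdChar_apply_of_not_isCoprime f fun h => (gde_isCoprime_asIdeal_iff 𝔪 v).mp h hv

/-- The general term of the prime sum is bounded by `N(v)^(-s)`. -/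
theorem gde_abs_cos_mul_nvPow_le (x : ℝ) (v : HeightOneSpectrum (𝓞 K)) (s : ℝ) :
    |Real.cos x * nvPow K v s| ≤ nvPow K v s := by
  rw [abs_mul, abs_of_nonneg (fi_nvPow_nonneg K v s)]
  exact mul_le_of_le_one_left (fi_nvPow_nonneg K v s) (Real.abs_cos_le_one x)

theorem gde_summable_cos_mul_nvPow (x : HeightOneSpectrum (𝓞 K) → ℝ) {s : ℝ} (hs : 1 < s) :
    Summable fun v : HeightOneSpectrum (𝓞 K) => Real.cos (x v) * nvPow K v s := by
  refine Summable.of_norm_bounded (primeSum_summable K hs) fun v => ?_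
  rw [Real.norm_eq_abs]
  exact gde_abs_cos_mul_nvPow_le (x v) v s

theorem gde_summable_re_mul_nvPow (F : Ideal (𝓞 K) →*₀ ℂ) (hF : ∀ I, ‖F I‖ ≤ 1) {s : ℝ}
    (hs : 1 < s) :
    Summable fun v : HeightOneSpectrum (𝓞 K) => (F v.asIdeal).re * nvPow K v s := by
  refine Summable.of_norm_bounded (primeSum_summable K hs) fun v => ?_
  rw [norm_mul, Real.norm_of_nonneg (fi_nvPow_nonneg K v s), Real.norm_eq_abs]
  exact mul_le_of_le_one_left (fi_nvPow_nonneg K v s) ((Complex.abs_re_le_norm _).trans (hF _))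

variable (K)

/-- GD-e: the prime sum of a nontrivial ray class character is bounded above on `(1,2)`. -/
theorem gd_primeSum_cos_le {m : ℕ} [NeZero m] (𝔪 : Ideal (𝓞 K)) (h𝔪 : 𝔪 ≠ ⊥)
    (f : S14.Div K →+ ZMod m) (hprin : ∀ x : K, gdOneMod K 𝔪 x → f (divOf K x) = 0)
    (hf : ∃ D : S14.Div K, gdPrimeTo K 𝔪 D ∧ f D ≠ 0) :
    ∃ M : ℝ, ∀ s : ℝ, 1 < s → s < 2 →
      (∑' v : HeightOneSpectrum (𝓞 K),
        Real.cos (2 * Real.pi * ((f (Finsupp.single v 1)).val : ℝ) / (m : ℝ)) * nvPow K v s) ≤ M := by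
  classical
  set S : Finset (HeightOneSpectrum (𝓞 K)) := (gde_finite_le K 𝔪 h𝔪).toFinset with hS
  have hmemS : ∀ v : HeightOneSpectrum (𝓞 K), v ∈ S ↔ 𝔪 ≤ v.asIdeal := fun v => by
    rw [hS, Set.Finite.mem_toFinset]; exact Iff.rfl
  by_cases hB : ∀ β : 𝓞 K, β ≠ 0 → IsCoprime (Ideal.span {β}) 𝔪 → f (divOf K (β : K)) = 0
  · -- `f` is a class group character away from `S`
    have hrec : ∀ x : K, x ≠ 0 → (∀ v ∈ S, divOf K x v = 0) → f (divOf K x) = 0 := by
      intro x hx hxS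
      obtain ⟨a, b, ha, hb, hac, hbc, rfl⟩ := gd_exists_div_isCoprime K 𝔪 h𝔪 x hx
        fun v hv => hxS v ((hmemS v).mpr hv)
      have ha' : (a : K) ≠ 0 := RingOfIntegers.coe_ne_zero_iff.mpr ha
      have hb' : (b : K) ≠ 0 := RingOfIntegers.coe_ne_zero_iff.mpr hb
      rw [div_eq_mul_inv, fi_divOf_mul K ha' (inv_ne_zero hb'), fi_divOf_inv, map_add, map_neg,
        hB a ha hac, hB b hb hbc, neg_zero, add_zero]
    obtain ⟨f', hf'prin, hf'eq⟩ := fi_modify K f S hrec
    have hf'ne : f' ≠ 0 := by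
      obtain ⟨D, hD, hfD⟩ := hf
      intro h0
      apply hfD
      rw [← hf'eq D fun v hv => hD v ((hmemS v).mp hv), h0, AddMonoidHom.zero_apply]
    obtain ⟨M', hM'⟩ := primeSum_cos_le f' hf'prin hf'ne
    refine ⟨M' + S.card * 2, fun s hs1 hs2 => ?_⟩
    have hs0 : (0 : ℝ) ≤ s := by linarith
    refine (gde_tsum_le_tsum_add_card S _ _ 2 (gde_summable_cos_mul_nvPow _ hs1)
      (gde_summable_cos_mul_nvPow _ hs1) (fun v hv => ?_) (fun v _ => ?_)).trans
      (add_le_add_left (hM' s hs1 hs2) _)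
    · -- off `S` the two characters agree
      have h1 : f' (Finsupp.single v 1) = f (Finsupp.single v 1) := by
        apply hf'eq
        intro w hw
        rw [Finsupp.single_apply, if_neg]
        rintro rfl
        exact hv hw
      rw [h1]
    · have h1 := gde_abs_cos_mul_nvPow_le
        (2 * Real.pi * ((f (Finsupp.single v 1)).val : ℝ) / (m : ℝ)) v s
      have h2 := gde_abs_cos_mul_nvPow_le
        (2 * Real.pi * ((f' (Finsupp.single v 1)).val : ℝ) / (m : ℝ)) v s
      have h3 := fi_nvPow_le_one K v hs0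
      have h4 := (abs_le.mp h1).2
      have h5 := (abs_le.mp h2).1
      linarith
  · -- the ray class character is nontrivial on the principal ideals prime to `𝔪`
    push Not at hB
    obtain ⟨M, hM⟩ := gd_norm_LSeries_gdChar_le K 𝔪 h𝔪 f hprin hB
    refine ⟨Real.log (max M 1) + (∑' v : HeightOneSpectrum (𝓞 K), nvPow K v 2) + S.card * 1,
      fun s hs1 hs2 => ?_⟩
    have hs0 : (0 : ℝ) ≤ s := by linarith
    have h1 := abs_log_norm_LSeries_sub_le K (gdChar K 𝔪 f) (norm_gdChar_le 𝔪 f) hs1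
    have h2 := primeSums_log_norm_le (hM s hs1 hs2)
    have h3 := (abs_le.mp h1).1
    have h4 : (∑' v : HeightOneSpectrum (𝓞 K), (gdChar K 𝔪 f v.asIdeal).re * nvPow K v s) ≤
        Real.log (max M 1) + ∑' v : HeightOneSpectrum (𝓞 K), nvPow K v 2 := by linarith
    refine (gde_tsum_le_tsum_add_card S _ _ 1 (gde_summable_cos_mul_nvPow _ hs1)
      (gde_summable_re_mul_nvPow (gdChar K 𝔪 f) (norm_gdChar_le 𝔪 f) hs1) (fun v hv => ?_)
      (fun v hv => ?_)).trans (add_le_add_left h4 _)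
    · rw [gde_gdChar_asIdeal_re_of_not_le 𝔪 f v fun h => hv ((hmemS v).mpr h)]
    · rw [gde_gdChar_asIdeal_of_le 𝔪 f v ((hmemS v).mp hv), Complex.zero_re, zero_mul, zero_add]
      have h5 := gde_abs_cos_mul_nvPow_le
        (2 * Real.pi * ((f (Finsupp.single v 1)).val : ℝ) / (m : ℝ)) v s
      exact (le_abs_self _).trans (h5.trans (fi_nvPow_le_one K v hs0))

end Fermat.Agent.S55
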