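import Mathlib
import Fermat.Agent.S55.Global.Second.Defs
import Fermat.Agent.S55.Global.Second.Coprime
import Fermat.Agent.S55.Global.Second.RayPrimeSum
import Fermat.Agent.S14.PrimeSums
import Fermat.Agent.S14.FirstIneq

/-!
# S55 / Global / Second: GD-f — the second inequality

`gd_second_inequality`: for an extension `F/K` of number fields of prime degree `p` and a nonzero
ideal `𝔪` of `𝓞 K`, the group of divisors of `K` prime to `𝔪` modulo the principal divisors of the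
`x ≡ 1 mod× 𝔪` and the norms of the divisors of `F` prime to `𝔪` is cyclic (of order `1` or `p`).

The proof is the density argument of `S14.first_inequality`, run with two independent characters
`g₀`, `g₁` of the quotient: summing the bounds of GD-e over the `p² - 1` nontrivial combinations
`a g₀ + b g₁` shows that the places where both vanish have density at most `1/p²`, while the places
of degree one of `F` force a density at least `1/p`.
-/

set_option autoImplicit false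

namespace Fermat.Agent.S55

open NumberField IsDedekindDomain Fermat.Agent.S14

section OneMod

variable {K : Type} [Field K] [NumberField K]

theorem gdf_oneMod_one (𝔪 : Ideal (𝓞 K)) : gdOneMod K 𝔪 1 := by
  refine ⟨1, 1, one_ne_zero, one_ne_zero, ?_, ?_, ?_, ?_⟩
  · rw [Ideal.isCoprime_iff_sup_eq, Ideal.span_singleton_one, top_sup_eq]
  · rw [Ideal.isCoprime_iff_sup_eq, Ideal.span_singleton_one, top_sup_eq]
  · rw [sub_self]; exact 𝔪.zero_mem
  · simp

omit [NumberField K] in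
theorem gdf_oneMod_ne_zero {𝔪 : Ideal (𝓞 K)} {x : K} (hx : gdOneMod K 𝔪 x) : x ≠ 0 := by
  obtain ⟨a, b, ha, hb, -, -, -, rfl⟩ := hx
  exact div_ne_zero (RingOfIntegers.coe_ne_zero_iff.mpr ha) (RingOfIntegers.coe_ne_zero_iff.mpr hb)

omit [NumberField K] in
theorem gdf_oneMod_mul {𝔪 : Ideal (𝓞 K)} {x y : K} (hx : gdOneMod K 𝔪 x)
    (hy : gdOneMod K 𝔪 y) : gdOneMod K 𝔪 (x * y) := by
  obtain ⟨a, b, ha, hb, hac, hbc, hab, rfl⟩ := hx
  obtain ⟨c, d, hc, hd, hcc, hdc, hcd, rfl⟩ := hy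
  refine ⟨a * c, b * d, mul_ne_zero ha hc, mul_ne_zero hb hd, ?_, ?_, ?_, ?_⟩
  · rw [← Ideal.span_singleton_mul_span_singleton]
    exact hac.mul_left hcc
  · rw [← Ideal.span_singleton_mul_span_singleton]
    exact hbc.mul_left hdc
  · have h1 : a * c - b * d = a * (c - d) + (a - b) * d := by ring
    rw [h1]
    exact 𝔪.add_mem (𝔪.mul_mem_left _ hcd) (𝔪.mul_mem_right _ hab)
  · rw [div_mul_div_comm]
    push_cast
    rfl

omit [NumberField K] in
theorem gdf_oneMod_inv {𝔪 : Ideal (𝓞 K)} {x : K} (hx : gdOneMod K 𝔪 x) :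
    gdOneMod K 𝔪 x⁻¹ := by
  obtain ⟨a, b, ha, hb, hac, hbc, hab, rfl⟩ := hx
  refine ⟨b, a, hb, ha, hbc, hac, ?_, ?_⟩
  · have h1 : b - a = -(a - b) := by ring
    rw [h1]
    exact 𝔪.neg_mem hab
  · rw [inv_div]

/-- An integer prime to `𝔪` has order zero at the places dividing `𝔪`. -/
theorem gdf_divOf_eq_zero_of_isCoprime {𝔪 : Ideal (𝓞 K)} {a : 𝓞 K} (ha : a ≠ 0)
    (hc : IsCoprime (Ideal.span {a}) 𝔪) (v : HeightOneSpectrum (𝓞 K)) (hv : 𝔪 ≤ v.asIdeal) :
    divOf K (a : K) v = 0 := by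
  have hnot : a ∉ v.asIdeal := by
    intro h
    have h1 : Ideal.span {a} ⊔ 𝔪 ≤ v.asIdeal :=
      sup_le ((Ideal.span_singleton_le_iff_mem _).mpr h) hv
    rw [Ideal.isCoprime_iff_sup_eq.mp hc] at h1
    exact v.isPrime.ne_top (top_le_iff.mp h1)
  have h1 : ¬ (1 : ℤ) ≤ divOf K (a : K) v := by
    intro h
    apply hnot
    have := (fi_le_divOf_iff K ha v 1).mp (by simpa using h)
    simpa using this
  have h0 : (0 : ℤ) ≤ divOf K (a : K) v := by
    have := (fi_le_divOf_iff K ha v 0).mpr (by simp)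
    simpa using this
  omega

/-- The principal divisor of an `x ≡ 1 mod× 𝔪` is prime to `𝔪`. -/
theorem gdf_primeTo_divOf {𝔪 : Ideal (𝓞 K)} {x : K} (hx : gdOneMod K 𝔪 x) :
    gdPrimeTo K 𝔪 (divOf K x) := by
  obtain ⟨a, b, ha, hb, hac, hbc, -, rfl⟩ := hx
  intro v hv
  have ha' : (a : K) ≠ 0 := RingOfIntegers.coe_ne_zero_iff.mpr ha
  have hb' : (b : K) ≠ 0 := RingOfIntegers.coe_ne_zero_iff.mpr hb
  rw [div_eq_mul_inv, fi_divOf_mul K ha' (inv_ne_zero hb'), fi_divOf_inv, Finsupp.add_apply,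
    Finsupp.neg_apply, gdf_divOf_eq_zero_of_isCoprime ha hac v hv,
    gdf_divOf_eq_zero_of_isCoprime hb hbc v hv, neg_zero, add_zero]

theorem gdf_primeTo_single {𝔪 : Ideal (𝓞 K)} (v : HeightOneSpectrum (𝓞 K))
    (hv : ¬ 𝔪 ≤ v.asIdeal) (n : ℤ) : gdPrimeTo K 𝔪 (Finsupp.single v n) := by
  classical
  intro w hw
  rw [Finsupp.single_apply, if_neg]
  rintro rfl
  exact hv hw

theorem gdf_primeTo_sub_nsmul {𝔪 : Ideal (𝓞 K)} {D D₀ : S14.Div K} (hD : gdPrimeTo K 𝔪 D)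
    (hD₀ : gdPrimeTo K 𝔪 D₀) (k : ℕ) : gdPrimeTo K 𝔪 (D - k • D₀) := by
  intro v hv
  rw [Finsupp.sub_apply, Finsupp.smul_apply, hD v hv, hD₀ v hv, smul_zero, sub_zero]

end OneMod

section Subgroup

variable (K : Type) [Field K] [NumberField K] (F : Type) [Field F] [NumberField F] [Algebra K F]

variable {K F} in
/-- The norm of a divisor prime to `𝔪 𝓞_F` is prime to `𝔪`. -/
theorem gdf_primeTo_normDiv {𝔪 : Ideal (𝓞 K)} {E : S14.Div F}
    (hE : gdPrimeTo F (𝔪.map (algebraMap (𝓞 K) (𝓞 F))) E) : gdPrimeTo K 𝔪 (normDiv K F E) := by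
  classical
  intro v hv
  have key : normDiv K F E = ∑ w ∈ E.support, normDiv K F (Finsupp.single w (E w)) := by
    rw [← map_sum]
    congr 1
    exact (Finsupp.sum_single E).symm
  rw [key, Finsupp.finsetSum_apply]
  refine Finset.sum_eq_zero fun w _ => ?_
  rw [normDiv_single, Finsupp.single_apply]
  split_ifs with h
  · have hw : 𝔪.map (algebraMap (𝓞 K) (𝓞 F)) ≤ w.asIdeal := by
      rw [Ideal.map_le_iff_le_comap]
      have h1 : (placeBelow K F w).asIdeal = w.asIdeal.comap (algebraMap (𝓞 K) (𝓞 F)) := rfl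
      rw [← h1, h]
      exact hv
    rw [hE w hw, mul_zero]
  · rfl

/-- The subgroup of the divisors `div x + N(E) + t` with `x ≡ 1 mod× 𝔪`, `E` prime to `𝔪 𝓞_F` and `t`
supported on the places dividing `𝔪`. -/
noncomputable def gdf_H (𝔪 : Ideal (𝓞 K)) : AddSubgroup (S14.Div K) where
  carrier := {d | ∃ (x : K) (E : S14.Div F) (t : S14.Div K), gdOneMod K 𝔪 x ∧
    gdPrimeTo F (𝔪.map (algebraMap (𝓞 K) (𝓞 F))) E ∧
    (∀ v : HeightOneSpectrum (𝓞 K), ¬ 𝔪 ≤ v.asIdeal → t v = 0) ∧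
    d = divOf K x + normDiv K F E + t}
  zero_mem' := ⟨1, 0, 0, gdf_oneMod_one 𝔪, fun _ _ => rfl, fun _ _ => rfl, by
    rw [fi_divOf_one, map_zero, add_zero, add_zero]⟩
  add_mem' := by
    rintro _ _ ⟨x, E, t, hx, hE, ht, rfl⟩ ⟨y, E', t', hy, hE', ht', rfl⟩
    refine ⟨x * y, E + E', t + t', gdf_oneMod_mul hx hy, ?_, ?_, ?_⟩
    · intro w hw
      rw [Finsupp.add_apply, hE w hw, hE' w hw, add_zero]
    · intro v hv
      rw [Finsupp.add_apply, ht v hv, ht' v hv, add_zero]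
    · rw [fi_divOf_mul K (gdf_oneMod_ne_zero hx) (gdf_oneMod_ne_zero hy), map_add]
      abel
  neg_mem' := by
    rintro _ ⟨x, E, t, hx, hE, ht, rfl⟩
    refine ⟨x⁻¹, -E, -t, gdf_oneMod_inv hx, ?_, ?_, ?_⟩
    · intro w hw
      rw [Finsupp.neg_apply, hE w hw, neg_zero]
    · intro v hv
      rw [Finsupp.neg_apply, ht v hv, neg_zero]
    · rw [fi_divOf_inv, map_neg]
      abel

variable {K F}

theorem gdf_divOf_mem_H {𝔪 : Ideal (𝓞 K)} {x : K} (hx : gdOneMod K 𝔪 x) :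
    divOf K x ∈ gdf_H K F 𝔪 :=
  ⟨x, 0, 0, hx, fun _ _ => rfl, fun _ _ => rfl, by rw [map_zero, add_zero, add_zero]⟩

/-- A divisor prime to `𝔪` lying in `gdf_H` is `div x + N(E)`. -/
theorem gdf_exists_of_mem_H {𝔪 : Ideal (𝓞 K)} {D : S14.Div K} (hD : gdPrimeTo K 𝔪 D)
    (hDH : D ∈ gdf_H K F 𝔪) :
    ∃ (x : K) (E : S14.Div F), gdOneMod K 𝔪 x ∧
      gdPrimeTo F (𝔪.map (algebraMap (𝓞 K) (𝓞 F))) E ∧ D = divOf K x + normDiv K F E := by
  obtain ⟨x, E, t, hx, hE, ht, hDeq⟩ := hDH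
  refine ⟨x, E, hx, hE, ?_⟩
  have ht0 : t = 0 := by
    ext v
    by_cases hv : 𝔪 ≤ v.asIdeal
    · have h1 := hD v hv
      rw [hDeq, Finsupp.add_apply, Finsupp.add_apply, gdf_primeTo_divOf hx v hv,
        gdf_primeTo_normDiv hE v hv, zero_add, zero_add] at h1
      rw [h1, Finsupp.zero_apply]
    · rw [ht v hv, Finsupp.zero_apply]
  rw [hDeq, ht0, add_zero]

theorem gdf_nsmul_mem_H {p : ℕ} (hdeg : Module.finrank K F = p) (𝔪 : Ideal (𝓞 K))
    (D : S14.Div K) : p • D ∈ gdf_H K F 𝔪 := by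
  classical
  have hsum : D.filter (fun v => 𝔪 ≤ v.asIdeal) + D.filter (fun v => ¬ 𝔪 ≤ v.asIdeal) = D :=
    Finsupp.filter_add_filter_not D _
  have hD' : gdPrimeTo K 𝔪 (D.filter (fun v => ¬ 𝔪 ≤ v.asIdeal)) := fun v hv =>
    Finsupp.filter_apply_neg _ _ (not_not.mpr hv)
  obtain ⟨E, hE, hEq⟩ := gd_nsmul_eq_normDiv K (F := F) 𝔪 _ hD'
  rw [hdeg] at hEq
  refine ⟨1, E, p • D.filter (fun v => 𝔪 ≤ v.asIdeal), gdf_oneMod_one 𝔪, hE, ?_, ?_⟩
  · intro v hv
    rw [Finsupp.smul_apply,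
      Finsupp.filter_apply_neg (fun v : HeightOneSpectrum (𝓞 K) => 𝔪 ≤ v.asIdeal) D hv, smul_zero]
  · rw [fi_divOf_one, zero_add, ← hEq, ← smul_add, add_comm, hsum]

end Subgroup

section CharSum

/-- Orthogonality for the characters of `(ℤ/p)²`, real part. -/
theorem gdf_sum_cos_two {p : ℕ} [Fact p.Prime] (x y : ZMod p) :
    ∑ ab : ZMod p × ZMod p,
        Real.cos (2 * Real.pi * ((ab.1 * x + ab.2 * y).val : ℝ) / (p : ℝ)) =
      if x = 0 ∧ y = 0 then (p : ℝ) ^ 2 else 0 := by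
  rw [Fintype.sum_prod_type]
  simp_rw [fi_sum_cos_affine]
  by_cases hy : y = 0
  · simp only [hy, if_true, and_true]
    rw [← Finset.mul_sum]
    have h1 : ∀ a : ZMod p, Real.cos (2 * Real.pi * ((a * x).val : ℝ) / (p : ℝ)) =
        Real.cos (2 * Real.pi * (((0 : ZMod p) + a * x).val : ℝ) / (p : ℝ)) := fun a => by
      rw [zero_add]
    simp_rw [h1, fi_sum_cos_affine]
    by_cases hx : x = 0
    · rw [if_pos hx, if_pos hx, ZMod.val_zero, Nat.cast_zero, mul_zero, zero_div, Real.cos_zero]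
      ring
    · rw [if_neg hx, if_neg hx, mul_zero]
  · simp only [hy, if_false, and_false, Finset.sum_const_zero]

end CharSum

section Analytic

variable {K : Type} [Field K] [NumberField K] {F : Type} [Field F] [NumberField F] [Algebra K F]
variable {p : ℕ} [Fact p.Prime]

open scoped Classical in
/-- Summing the bounds of GD-e over the characters `a g₀ + b g₁`. -/
theorem gdf_upper (𝔪 : Ideal (𝓞 K)) (h𝔪 : 𝔪 ≠ ⊥) (g₀ g₁ : S14.Div K →+ ZMod p)
    (hg₀ : ∀ x : K, gdOneMod K 𝔪 x → g₀ (divOf K x) = 0)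
    (hg₁ : ∀ x : K, gdOneMod K 𝔪 x → g₁ (divOf K x) = 0)
    (D₀ D₂ : S14.Div K) (hD₀ : gdPrimeTo K 𝔪 D₀) (hD₂ : gdPrimeTo K 𝔪 D₂)
    (h00 : g₀ D₀ ≠ 0) (h02 : g₀ D₂ = 0) (h12 : g₁ D₂ ≠ 0) :
    ∃ M : ℝ, ∀ s : ℝ, 1 < s → s < 2 →
      ∑' v : HeightOneSpectrum (𝓞 K),
        (if g₀ (Finsupp.single v 1) = 0 ∧ g₁ (Finsupp.single v 1) = 0 then (p : ℝ) ^ 2 else 0) *
          nvPow K v s ≤ Real.log (1 / (s - 1)) + M := by
  classical
  have : NeZero p := ⟨(Fact.out : p.Prime).ne_zero⟩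
  let f : ZMod p × ZMod p → (S14.Div K →+ ZMod p) := fun ab =>
    (AddMonoidHom.mulLeft ab.1).comp g₀ + (AddMonoidHom.mulLeft ab.2).comp g₁
  have hf_apply : ∀ ab d, f ab d = ab.1 * g₀ d + ab.2 * g₁ d := fun ab d => rfl
  have hfprin : ∀ ab (x : K), gdOneMod K 𝔪 x → f ab (divOf K x) = 0 := by
    intro ab x hx
    rw [hf_apply, hg₀ x hx, hg₁ x hx, mul_zero, mul_zero, add_zero]
  have hfne : ∀ ab : ZMod p × ZMod p, ab ≠ 0 → ∃ D, gdPrimeTo K 𝔪 D ∧ f ab D ≠ 0 := by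
    intro ab hab
    by_cases hb : ab.2 = 0
    · have ha : ab.1 ≠ 0 := fun h => hab (Prod.ext h hb)
      refine ⟨D₀, hD₀, ?_⟩
      rw [hf_apply, hb, zero_mul, add_zero]
      exact mul_ne_zero ha h00
    · refine ⟨D₂, hD₂, ?_⟩
      rw [hf_apply, h02, mul_zero, zero_add]
      exact mul_ne_zero hb h12
  obtain ⟨M0, hM0⟩ := primeSum_sub_log_bounded K
  have hex : ∀ ab : ZMod p × ZMod p, ∃ M : ℝ, ∀ s : ℝ, 1 < s → s < 2 →
      ∑' v : HeightOneSpectrum (𝓞 K),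
        Real.cos (2 * Real.pi * ((f ab (Finsupp.single v 1)).val : ℝ) / (p : ℝ)) * nvPow K v s ≤
      (if ab = 0 then Real.log (1 / (s - 1)) else 0) + M := by
    intro ab
    by_cases hab : ab = 0
    · refine ⟨M0, fun s hs1 hs2 => ?_⟩
      rw [if_pos hab]
      have h1 : ∀ v : HeightOneSpectrum (𝓞 K),
          Real.cos (2 * Real.pi * ((f ab (Finsupp.single v 1)).val : ℝ) / (p : ℝ)) * nvPow K v s =
            nvPow K v s := by
        intro v
        rw [hf_apply, hab, Prod.fst_zero, Prod.snd_zero, zero_mul, zero_mul, add_zero,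
          ZMod.val_zero, Nat.cast_zero, mul_zero, zero_div, Real.cos_zero, one_mul]
      simp_rw [h1]
      have := (abs_le.mp (hM0 s hs1 hs2)).2
      linarith
    · obtain ⟨M, hM⟩ := gd_primeSum_cos_le K 𝔪 h𝔪 (f ab) (hfprin ab) (hfne ab hab)
      refine ⟨M, fun s hs1 hs2 => ?_⟩
      rw [if_neg hab, zero_add]
      exact hM s hs1 hs2
  choose M hM using hex
  refine ⟨∑ ab, M ab, fun s hs1 hs2 => ?_⟩
  have hsum : ∀ ab, Summable fun v : HeightOneSpectrum (𝓞 K) =>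
      Real.cos (2 * Real.pi * ((f ab (Finsupp.single v 1)).val : ℝ) / (p : ℝ)) * nvPow K v s :=
    fun ab => gde_summable_cos_mul_nvPow _ hs1
  calc ∑' v : HeightOneSpectrum (𝓞 K),
        (if g₀ (Finsupp.single v 1) = 0 ∧ g₁ (Finsupp.single v 1) = 0 then (p : ℝ) ^ 2 else 0) *
          nvPow K v s
      = ∑' v : HeightOneSpectrum (𝓞 K), ∑ ab : ZMod p × ZMod p,
          Real.cos (2 * Real.pi * ((f ab (Finsupp.single v 1)).val : ℝ) / (p : ℝ)) *
            nvPow K v s := by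
        congr 1
        ext v
        rw [← Finset.sum_mul, ← gdf_sum_cos_two]
        rfl
    _ = ∑ ab : ZMod p × ZMod p, ∑' v : HeightOneSpectrum (𝓞 K),
          Real.cos (2 * Real.pi * ((f ab (Finsupp.single v 1)).val : ℝ) / (p : ℝ)) *
            nvPow K v s := Summable.tsum_finsetSum fun ab _ => hsum ab
    _ ≤ ∑ ab : ZMod p × ZMod p, ((if ab = 0 then Real.log (1 / (s - 1)) else 0) + M ab) :=
        Finset.sum_le_sum fun ab _ => hM ab s hs1 hs2
    _ = Real.log (1 / (s - 1)) + ∑ ab, M ab := by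
        rw [Finset.sum_add_distrib, Finset.sum_ite_eq' Finset.univ (0 : ZMod p × ZMod p)
          (fun _ => Real.log (1 / (s - 1))), if_pos (Finset.mem_univ _)]

open scoped Classical in
/-- The prime sum of `F` is at most `p` times the part of the prime sum of `K` over the places
dividing `𝔪` or where both characters vanish, up to the places of `F` not of degree one. -/
theorem gdf_lower (hdeg : Module.finrank K F = p) (𝔪 : Ideal (𝓞 K))
    (g₀ g₁ : S14.Div K →+ ZMod p) (hg₀ : ∀ d ∈ gdf_H K F 𝔪, g₀ d = 0)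
    (hg₁ : ∀ d ∈ gdf_H K F 𝔪, g₁ d = 0) {s : ℝ} (hs : 1 < s) :
    ∑' w : HeightOneSpectrum (𝓞 F), nvPow F w s ≤
      p * ∑' v : HeightOneSpectrum (𝓞 K),
        (if 𝔪 ≤ v.asIdeal ∨
            (g₀ (Finsupp.single v 1) = 0 ∧ g₁ (Finsupp.single v 1) = 0) then
          nvPow K v s else 0) +
      ∑' w : HeightOneSpectrum (𝓞 F),
        Set.indicator {w | ¬ IsGoodPlace F ∅ w} (fun w => nvPow F w s) w := by
  classical
  set G : HeightOneSpectrum (𝓞 K) → ℝ := fun v =>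
    if 𝔪 ≤ v.asIdeal ∨ (g₀ (Finsupp.single v 1) = 0 ∧ g₁ (Finsupp.single v 1) = 0) then
      nvPow K v s else 0 with hG
  have hG0 : ∀ v, 0 ≤ G v := by
    intro v
    simp only [hG]
    split_ifs
    · exact fi_nvPow_nonneg K v s
    · exact le_rfl
  have hGsum : Summable G := by
    refine Summable.of_norm_bounded (primeSum_summable K hs) (fun v => ?_)
    rw [Real.norm_eq_abs, abs_of_nonneg (hG0 v)]
    simp only [hG]
    split_ifs
    · exact le_rfl
    · exact fi_nvPow_nonneg K v s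
  have hIsum : Summable fun w : HeightOneSpectrum (𝓞 F) =>
      Set.indicator {w | ¬ IsGoodPlace F ∅ w} (fun w => nvPow F w s) w :=
    (primeSum_summable F hs).indicator _
  have hI0 : ∀ w : HeightOneSpectrum (𝓞 F),
      0 ≤ Set.indicator {w | ¬ IsGoodPlace F ∅ w} (fun w => nvPow F w s) w :=
    fun w => Set.indicator_nonneg (fun w _ => fi_nvPow_nonneg F w s) w
  have hgood : ∀ w : HeightOneSpectrum (𝓞 F), IsGoodPlace F ∅ w →
      nvPow F w s = G (placeBelow K F w) := by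
    intro w hw
    have h1 := absNorm_eq_pow_inertiaDeg K F w
    have hf : w.asIdeal.inertiaDeg (𝓞 K) = 1 := by
      have := hw.1
      rw [h1] at this
      exact Nat.Prime.eq_one_of_pow this
    rw [hf, pow_one] at h1
    have hcond : 𝔪 ≤ (placeBelow K F w).asIdeal ∨
        (g₀ (Finsupp.single (placeBelow K F w) 1) = 0 ∧
          g₁ (Finsupp.single (placeBelow K F w) 1) = 0) := by
      by_cases hm : 𝔪 ≤ (placeBelow K F w).asIdeal
      · exact Or.inl hm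
      · right
        have hw' : ¬ 𝔪.map (algebraMap (𝓞 K) (𝓞 F)) ≤ w.asIdeal :=
          fun h => hm (Ideal.map_le_iff_le_comap.mp h)
        have hmem : Finsupp.single (placeBelow K F w) 1 ∈ gdf_H K F 𝔪 := by
          refine ⟨1, Finsupp.single w 1, 0, gdf_oneMod_one 𝔪, gdf_primeTo_single w hw' 1,
            fun _ _ => rfl, ?_⟩
          rw [fi_divOf_one, zero_add, add_zero, normDiv_single, hf, Nat.cast_one, mul_one]
        exact ⟨hg₀ _ hmem, hg₁ _ hmem⟩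
    simp only [hG]
    rw [if_pos hcond]
    simp only [nvPow, h1]
  refine Real.tsum_le_of_sum_le (fun w => fi_nvPow_nonneg F w s) (fun W => ?_)
  rw [← Finset.sum_filter_add_sum_filter_not W (fun w => IsGoodPlace F ∅ w)]
  refine add_le_add ?_ ?_
  · calc ∑ w ∈ W.filter (fun w => IsGoodPlace F ∅ w), nvPow F w s
        = ∑ w ∈ W.filter (fun w => IsGoodPlace F ∅ w), G (placeBelow K F w) :=
          Finset.sum_congr rfl fun w hw => hgood w (Finset.mem_filter.mp hw).2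
      _ ≤ p * ∑' v, G v :=
          fi_sum_le_mul_tsum (placeBelow K F) p
            (fun W' v => hdeg ▸ fi_card_fiber_le W' v) G hG0 hGsum _
  · calc ∑ w ∈ W.filter (fun w => ¬ IsGoodPlace F ∅ w), nvPow F w s
        = ∑ w ∈ W.filter (fun w => ¬ IsGoodPlace F ∅ w),
            Set.indicator {w | ¬ IsGoodPlace F ∅ w} (fun w => nvPow F w s) w :=
          Finset.sum_congr rfl fun w hw => by
            rw [Set.indicator_of_mem]
            exact (Finset.mem_filter.mp hw).2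
      _ ≤ ∑' w : HeightOneSpectrum (𝓞 F),
            Set.indicator {w | ¬ IsGoodPlace F ∅ w} (fun w => nvPow F w s) w :=
          hIsum.sum_le_tsum _ fun w _ => hI0 w

/-- The quotient of the divisors prime to `𝔪` by `gdf_H` has no two independent characters. -/
theorem gdf_no_two_characters (hdeg : Module.finrank K F = p) (𝔪 : Ideal (𝓞 K)) (h𝔪 : 𝔪 ≠ ⊥)
    (g₀ g₁ : S14.Div K →+ ZMod p) (hg₀ : ∀ d ∈ gdf_H K F 𝔪, g₀ d = 0)
    (hg₁ : ∀ d ∈ gdf_H K F 𝔪, g₁ d = 0)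
    (D₀ D₂ : S14.Div K) (hD₀ : gdPrimeTo K 𝔪 D₀) (hD₂ : gdPrimeTo K 𝔪 D₂)
    (h00 : g₀ D₀ ≠ 0) (h02 : g₀ D₂ = 0) (h12 : g₁ D₂ ≠ 0) : False := by
  classical
  have hp : p.Prime := Fact.out
  have hp2 : (2 : ℝ) ≤ p := by exact_mod_cast hp.two_le
  have hp0 : (0 : ℝ) ≤ p := by linarith
  obtain ⟨M1, hM1⟩ := gdf_upper 𝔪 h𝔪 g₀ g₁ (fun x hx => hg₀ _ (gdf_divOf_mem_H hx))
    (fun x hx => hg₁ _ (gdf_divOf_mem_H hx)) D₀ D₂ hD₀ hD₂ h00 h02 h12
  obtain ⟨M3, hM3⟩ := primeSum_not_good_le F ∅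
  obtain ⟨M0, hM0⟩ := primeSum_sub_log_bounded F
  set S : Finset (HeightOneSpectrum (𝓞 K)) := (gde_finite_le K 𝔪 h𝔪).toFinset with hS
  have hmemS : ∀ v : HeightOneSpectrum (𝓞 K), v ∈ S ↔ 𝔪 ≤ v.asIdeal := fun v => by
    rw [hS, Set.Finite.mem_toFinset]; exact Iff.rfl
  set B : ℝ := M1 + S.card * (p : ℝ) ^ 2 + p * M3 + p * M0 with hB
  set s : ℝ := 1 + Real.exp (-(|B| + 1)) with hs
  have hs1 : 1 < s := by
    rw [hs]
    linarith [Real.exp_pos (-(|B| + 1))]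
  have hs2 : s < 2 := by
    have : Real.exp (-(|B| + 1)) < 1 := by
      rw [Real.exp_lt_one_iff]
      linarith [abs_nonneg B]
    rw [hs]
    linarith
  have hs0 : (0 : ℝ) ≤ s := by linarith
  have hlog : Real.log (1 / (s - 1)) = |B| + 1 := by
    rw [hs, add_sub_cancel_left, one_div, ← Real.exp_neg, neg_neg, Real.log_exp]
  set G : HeightOneSpectrum (𝓞 K) → ℝ := fun v =>
    if 𝔪 ≤ v.asIdeal ∨ (g₀ (Finsupp.single v 1) = 0 ∧ g₁ (Finsupp.single v 1) = 0) then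
      nvPow K v s else 0 with hG
  set c : HeightOneSpectrum (𝓞 K) → ℝ := fun v =>
    if g₀ (Finsupp.single v 1) = 0 ∧ g₁ (Finsupp.single v 1) = 0 then (p : ℝ) ^ 2 else 0 with hc
  have hN := primeSum_summable K hs1
  have hG0 : ∀ v, 0 ≤ G v := by
    intro v
    simp only [hG]
    split_ifs
    · exact fi_nvPow_nonneg K v s
    · exact le_rfl
  have hGle : ∀ v, G v ≤ nvPow K v s := by
    intro v
    simp only [hG]
    split_ifs
    · exact le_rfl
    · exact fi_nvPow_nonneg K v s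
  have hc0 : ∀ v, 0 ≤ c v := by
    intro v
    simp only [hc]
    split_ifs
    · positivity
    · exact le_rfl
  have hcle : ∀ v, c v ≤ (p : ℝ) ^ 2 := by
    intro v
    simp only [hc]
    split_ifs
    · exact le_rfl
    · positivity
  have hsumG0 : Summable G := by
    refine Summable.of_norm_bounded hN fun v => ?_
    rw [Real.norm_eq_abs, abs_of_nonneg (hG0 v)]
    exact hGle v
  have hsumG : Summable fun v => (p : ℝ) ^ 2 * G v := hsumG0.mul_left _
  have hsumc : Summable fun v => c v * nvPow K v s := by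
    refine Summable.of_norm_bounded (hN.mul_left ((p : ℝ) ^ 2)) fun v => ?_
    rw [Real.norm_eq_abs, abs_of_nonneg (mul_nonneg (hc0 v) (fi_nvPow_nonneg K v s))]
    exact mul_le_mul_of_nonneg_right (hcle v) (fi_nvPow_nonneg K v s)
  have hup : ∑' v, (p : ℝ) ^ 2 * G v ≤ ∑' v, c v * nvPow K v s + S.card * (p : ℝ) ^ 2 := by
    refine gde_tsum_le_tsum_add_card S _ _ _ hsumG hsumc (fun v hv => ?_) (fun v hv => ?_)
    · have hv' : ¬ 𝔪 ≤ v.asIdeal := fun h => hv ((hmemS v).mpr h)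
      simp only [hG, hc]
      by_cases hgv : g₀ (Finsupp.single v 1) = 0 ∧ g₁ (Finsupp.single v 1) = 0
      · rw [if_pos (Or.inr hgv), if_pos hgv]
      · rw [if_neg (by tauto), if_neg hgv, mul_zero, zero_mul]
    · have h1 := hGle v
      have h2 := fi_nvPow_le_one K v hs0
      have h3 := mul_nonneg (hc0 v) (fi_nvPow_nonneg K v s)
      have h4 : (p : ℝ) ^ 2 * G v ≤ (p : ℝ) ^ 2 * 1 :=
        mul_le_mul_of_nonneg_left (h1.trans h2) (by positivity)
      linarith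
  rw [tsum_mul_left] at hup
  have h1 := gdf_lower hdeg 𝔪 g₀ g₁ hg₀ hg₁ hs1
  have h2 := (abs_le.mp (hM0 s hs1 hs2)).1
  have h3 := hM3 s hs1 hs2
  have h4 := hM1 s hs1 hs2
  rw [hlog] at h2 h4
  -- the three quantities
  set T : ℝ := ∑' v, G v with hT
  set P : ℝ := ∑' w : HeightOneSpectrum (𝓞 F), nvPow F w s with hP
  have h5 : (p : ℝ) * P ≤ (p : ℝ) * ((p : ℝ) * T + M3) :=
    mul_le_mul_of_nonneg_left (h1.trans (add_le_add le_rfl h3)) hp0
  have h6 : (p : ℝ) * (|B| + 1 - M0) ≤ (p : ℝ) * P :=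
    mul_le_mul_of_nonneg_left (by linarith) hp0
  have h7 : B ≤ |B| := le_abs_self B
  have h8 : (|B| + 1) * 2 ≤ (|B| + 1) * p :=
    mul_le_mul_of_nonneg_left hp2 (by linarith [abs_nonneg B])
  have h9 : (p : ℝ) * ((p : ℝ) * T + M3) = (p : ℝ) ^ 2 * T + p * M3 := by ring
  have h10 : (p : ℝ) * (|B| + 1 - M0) = (|B| + 1) * p - p * M0 := by ring
  rw [h9] at h5
  rw [h10] at h6
  linarith

end Analytic

variable (K : Type) [Field K] [NumberField K]

/-- GD-f: the second inequality. -/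
theorem gd_second_inequality {p : ℕ} [Fact p.Prime] {F : Type} [Field F] [NumberField F]
    [Algebra K F] (hdeg : Module.finrank K F = p) (𝔪 : Ideal (𝓞 K)) (h𝔪 : 𝔪 ≠ ⊥) :
    ∃ D₀ : S14.Div K, gdPrimeTo K 𝔪 D₀ ∧ ∀ D : S14.Div K, gdPrimeTo K 𝔪 D →
      ∃ (k : ℕ) (x : K) (E : S14.Div F), gdOneMod K 𝔪 x ∧
        gdPrimeTo F (𝔪.map (algebraMap (𝓞 K) (𝓞 F))) E ∧
        D = k • D₀ + divOf K x + normDiv K F E := by
  classical
  have hp : p.Prime := Fact.out
  have : NeZero p := ⟨hp.ne_zero⟩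
  by_cases hall : ∀ D : S14.Div K, gdPrimeTo K 𝔪 D → D ∈ gdf_H K F 𝔪
  · refine ⟨0, fun _ _ => rfl, fun D hD => ?_⟩
    obtain ⟨x, E, hx, hE, hDeq⟩ := gdf_exists_of_mem_H hD (hall D hD)
    exact ⟨0, x, E, hx, hE, by rw [zero_smul, zero_add]; exact hDeq⟩
  · push Not at hall
    obtain ⟨D₀, hD₀, hD₀H⟩ := hall
    refine ⟨D₀, hD₀, fun D hD => ?_⟩
    obtain ⟨g₀, hg₀H, hg₀D⟩ :=
      fi_exists_character (gdf_H K F 𝔪) (gdf_nsmul_mem_H hdeg 𝔪) hD₀H
    set k : ℕ := (g₀ D / g₀ D₀).val with hk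
    have hD₂ : gdPrimeTo K 𝔪 (D - k • D₀) := gdf_primeTo_sub_nsmul hD hD₀ k
    have h02 : g₀ (D - k • D₀) = 0 := by
      rw [map_sub, map_nsmul, nsmul_eq_mul, hk, ZMod.natCast_zmod_val,
        div_mul_cancel₀ _ hg₀D, sub_self]
    have hD₂H : D - k • D₀ ∈ gdf_H K F 𝔪 := by
      by_contra hD₂H
      obtain ⟨g₁, hg₁H, hg₁D⟩ :=
        fi_exists_character (gdf_H K F 𝔪) (gdf_nsmul_mem_H hdeg 𝔪) hD₂H
      exact gdf_no_two_characters hdeg 𝔪 h𝔪 g₀ g₁ hg₀H hg₁H D₀ (D - k • D₀) hD₀ hD₂ hg₀D h02 hg₁D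
    obtain ⟨x, E, hx, hE, hDeq⟩ := gdf_exists_of_mem_H hD₂ hD₂H
    refine ⟨k, x, E, hx, hE, ?_⟩
    rw [add_assoc, ← hDeq, add_sub_cancel]

end Fermat.Agent.S55
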