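import Mathlib
import Fermat.Agent.S55.Global.Second.Defs
import Fermat.Agent.S55.Global.Second.LatticeTranslate
import Fermat.Agent.S55.Global.Second.RayCount
import Fermat.Agent.S55.Global.Second.ConeSum
import Fermat.Agent.S55.Global.Second.Coprime
import Fermat.Agent.S55.Global.Second.RayLBound
import Fermat.Agent.S55.Global.Second.RayPrimeSum
import Fermat.Agent.S55.Global.Second.SecondIneq
import Fermat.Agent.S14.LatticeCount
import Fermat.Agent.S14.ClassCount
import Fermat.Agent.S14.ClassLBound
import Fermat.Agent.S14.PrimeSums
import Fermat.Agent.S14.FirstIneq

/-!
# S55 / Global / Second (package GD): the second inequality, analytic route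

ALL leaves GD-a .. GD-f are REAL theorems (files `LatticeTranslate`, `RayCount`, `ConeSum`,
`Coprime`, `RayLBound`, `RayPrimeSum`, `SecondIneq`, imported above, same names and statements as
in the former spec).  This file is a pure import shim.
-/
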