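import Mathlib
import Fermat.Agent.S14.AmbigClasses
import Fermat.Agent.S14.NormDiv
import Fermat.Agent.S14.DivClass
import Fermat.Agent.S55.Global.Defs

/-!
# S55 / GD-T side lemma: for a Galois extension `F / K` of number fields, the extension to `F` of
the norm of an ideal (divisor) of `F` is the product of its Galois conjugates

* `gdn_map_relNorm` : `(N_{F/K} I) 𝓞_F = ∏_σ σ(I)` for integral ideals;
* `gd_extFrac_normDiv` : `extFrac (divUnit K (normDiv K F E)) = ∏_σ fracAut σ (divUnit F E)`.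
-/

set_option autoImplicit false

namespace Fermat.Agent.S55

open NumberField IsDedekindDomain Fermat.Agent.S14
open scoped nonZeroDivisors

variable {K F : Type*} [Field K] [NumberField K] [Field F] [NumberField F] [Algebra K F]

/-- The integral norm, extended back to `𝓞 F`, is the product of the conjugates. -/
theorem gdn_algebraMap_intNorm [IsGalois K F] (x : 𝓞 F) :
    algebraMap (𝓞 K) (𝓞 F) (Algebra.intNorm (𝓞 K) (𝓞 F) x) = ∏ σ : F ≃ₐ[K] F, intAut σ x := by
  apply FaithfulSMul.algebraMap_injective (𝓞 F) F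
  rw [← IsScalarTower.algebraMap_apply, IsScalarTower.algebraMap_apply (𝓞 K) K F,
    Algebra.algebraMap_intNorm (L := F), Algebra.norm_eq_prod_automorphisms, map_prod]
  exact Finset.prod_congr rfl fun σ _ => (algebraMap_intAut σ x).symm

theorem gdn_absNorm_map_intAut (σ : F ≃ₐ[K] F) (I : Ideal (𝓞 F)) :
    Ideal.absNorm (I.map (intAut σ)) = Ideal.absNorm I := by
  rw [Ideal.absNorm_apply, Ideal.absNorm_apply, Submodule.cardQuot_apply, Submodule.cardQuot_apply]
  exact (Nat.card_congr (Ideal.quotientEquiv I (I.map (intAut σ)) (intAut σ) rfl).toEquiv).symm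

theorem gdn_eq_of_le_of_absNorm_eq {I J : Ideal (𝓞 F)} (hle : I ≤ J) (hI : I ≠ ⊥)
    (h : Ideal.absNorm I = Ideal.absNorm J) : I = J := by
  obtain ⟨M, rfl⟩ := Ideal.dvd_iff_le.mpr hle
  have hJ0 : Ideal.absNorm J ≠ 0 := by
    rw [Ne, Ideal.absNorm_eq_zero_iff]
    rintro rfl
    exact hI (by simp)
  rw [map_mul] at h
  have hM : Ideal.absNorm M = 1 := by
    have := mul_left_cancel₀ hJ0 (h.trans (mul_one _).symm)
    exact this
  rw [Ideal.absNorm_eq_one_iff] at hM
  rw [hM, Ideal.mul_top]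

/-- For a Galois extension, the norm of an ideal, extended back, is the product of the
conjugates. -/
theorem gdn_map_relNorm [IsGalois K F] (I : Ideal (𝓞 F)) :
    (Ideal.relNorm (𝓞 K) I).map (algebraMap (𝓞 K) (𝓞 F)) =
      ∏ σ : F ≃ₐ[K] F, I.map (intAut σ) := by
  classical
  by_cases hI : I = ⊥
  · subst hI
    rw [Ideal.relNorm_bot, Ideal.map_bot]
    symm
    rw [← Ideal.zero_eq_bot, Finset.prod_eq_zero_iff]
    exact ⟨1, Finset.mem_univ _, by simp⟩
  have hle : (Ideal.relNorm (𝓞 K) I).map (algebraMap (𝓞 K) (𝓞 F)) ≤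
      ∏ σ : F ≃ₐ[K] F, I.map (intAut σ) := by
    rw [Ideal.relNorm_apply, Ideal.map_span, Ideal.span_le]
    rintro _ ⟨_, ⟨x, hx, rfl⟩, rfl⟩
    rw [SetLike.mem_coe, gdn_algebraMap_intNorm]
    exact Ideal.prod_mem_prod fun σ _ => Ideal.mem_map_of_mem _ hx
  refine gdn_eq_of_le_of_absNorm_eq hle ?_ ?_
  · rw [Ne, Ideal.map_eq_bot_iff_of_injective (FaithfulSMul.algebraMap_injective (𝓞 K) (𝓞 F)),
      Ideal.relNorm_eq_bot_iff]
    exact hI
  · rw [Ideal.absNorm_algebraMap, Ideal.absNorm_relNorm, map_prod,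
      Finset.prod_congr rfl (fun σ _ => gdn_absNorm_map_intAut σ I), Finset.prod_const,
      Finset.card_univ, ← Nat.card_eq_fintype_card, IsGalois.card_aut_eq_finrank,
      IsFractionRing.finrank_eq (𝓞 K) K (𝓞 F) F]

end Fermat.Agent.S55

namespace Fermat.Agent.S55

open NumberField IsDedekindDomain Fermat.Agent.S14
open scoped nonZeroDivisors

variable {K F : Type} [Field K] [NumberField K] [Field F] [NumberField F] [Algebra K F]

/-- The case of a single place. -/
theorem gdn_extFrac_normDiv_single [IsGalois K F] (w : HeightOneSpectrum (𝓞 F)) :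
    extFrac K F (Additive.toMul (divUnit K (normDiv K F (Finsupp.single w 1)))) =
      ∏ σ : F ≃ₐ[K] F, fracAut σ (Additive.toMul (divUnit F (Finsupp.single w 1))) := by
  apply Units.ext
  rw [normDiv_single_one, divUnit_single, divUnit_single, one_zsmul, toMul_ofMul,
    natCast_zsmul, toMul_nsmul, toMul_ofMul, map_pow, Units.val_pow_eq_pow_val, coe_extFrac,
    Units.coe_prod]
  simp only [coe_fracAut, FractionalIdeal.coe_mk0, fracAut_coeIdeal_aux]
  rw [FractionalIdeal.extendedHom_coeIdeal_eq_map, ← FractionalIdeal.coeIdeal_pow]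
  have hprod : (∏ σ : F ≃ₐ[K] F,
      ((Ideal.map (intAut σ) (placeIdeal F w : Ideal (𝓞 F)) : Ideal (𝓞 F)) :
        FractionalIdeal (𝓞 F)⁰ F)) =
      ((∏ σ : F ≃ₐ[K] F, Ideal.map (intAut σ) (placeIdeal F w : Ideal (𝓞 F)) : Ideal (𝓞 F)) :
        FractionalIdeal (𝓞 F)⁰ F) :=
    (map_prod (FractionalIdeal.coeIdealHom (𝓞 F)⁰ F) _ _).symm
  rw [hprod]
  congr 1
  rw [← gdn_map_relNorm]
  show _ = Ideal.map (algebraMap (𝓞 K) (𝓞 F)) (Ideal.relNorm (𝓞 K) w.asIdeal)
  rw [relNorm_place, Ideal.map_pow]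
  rfl

/-- **Side lemma for GD-T**: for a Galois extension `F / K`, the ideal of the norm of a divisor
`E` of `F`, extended to `F`, is the product of the Galois conjugates of the ideal of `E`. -/
theorem gd_extFrac_normDiv [IsGalois K F] (E : S14.Div F) :
    extFrac K F (Additive.toMul (divUnit K (normDiv K F E))) =
      ∏ σ : F ≃ₐ[K] F, fracAut σ (Additive.toMul (divUnit F E)) := by
  induction E using Finsupp.induction_linear with
  | zero => simp
  | add E₁ E₂ h₁ h₂ =>
    rw [map_add, map_add, toMul_add, map_mul, h₁, h₂, map_add, toMul_add,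
      ← Finset.prod_mul_distrib]
    exact Finset.prod_congr rfl fun σ _ => (map_mul (fracAut σ) _ _).symm
  | single w n =>
    have hw : (Finsupp.single w n : S14.Div F) = n • Finsupp.single w 1 := by
      rw [Finsupp.smul_single, smul_eq_mul, mul_one]
    rw [hw, map_zsmul, map_zsmul, toMul_zsmul, map_zpow, gdn_extFrac_normDiv_single, map_zsmul,
      toMul_zsmul, ← Finset.prod_zpow]
    exact Finset.prod_congr rfl fun σ _ => (map_zpow (fracAut σ) _ _).symm

/-- The same statement in the language of `Global/Defs.lean` (`GlI F` with the `Gal(F/K)`-action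
`glIAction`). -/
theorem gd_extFrac_normDiv_smul [IsGalois K F] (E : S14.Div F) :
    (extFrac K F (Additive.toMul (divUnit K (normDiv K F E))) : GlI F) =
      ∏ σ : F ≃ₐ[K] F, σ • (Additive.toMul (divUnit F E) : GlI F) :=
  gd_extFrac_normDiv E

end Fermat.Agent.S55
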