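import Mathlib
import Fermat.Agent.S55.Global.Second.Spec
import Fermat.Agent.S55.Global.Second.NormExt
import Fermat.Agent.S14.NormDiv

/-!
# S55 / GD: the second inequality in index form for cyclic extensions of degree `p ^ k`

`gdPrimeToGroup K 𝔪` = divisors prime to `𝔪`; `gdNormGroup K F 𝔪` = `{div x + N E}` with
`x ≡ 1 mod× 𝔪`, `E` prime to `𝔪`.  From `gd_second_inequality` (degree `p`) by induction along
the tower of a cyclic extension of degree `p ^ k`: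

`gd_relIndex_cyclic : (gdNormGroup K L 𝔪).relIndex (gdPrimeToGroup K 𝔪) ≠ 0 ∧ … ≤ p ^ k`.
-/

set_option autoImplicit false
set_option linter.unusedSectionVars false
set_option linter.style.haveILetI false

namespace Fermat.Agent.S55

open NumberField IsDedekindDomain Fermat.Agent.S14
open scoped nonZeroDivisors

section Closure

variable {K : Type} [Field K] [NumberField K]

theorem gdOneMod_one (𝔪 : Ideal (𝓞 K)) : gdOneMod K 𝔪 1 := by
  have h1 : IsCoprime (Ideal.span {(1 : 𝓞 K)}) 𝔪 := by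
    rw [Ideal.span_singleton_one, ← Ideal.one_eq_top]
    exact isCoprime_one_left
  refine ⟨1, 1, one_ne_zero, one_ne_zero, h1, h1, ?_, ?_⟩
  · rw [sub_self]
    exact 𝔪.zero_mem
  · rw [show ((1 : 𝓞 K) : K) = 1 from map_one (algebraMap (𝓞 K) K), div_one]

theorem gdOneMod.mul {𝔪 : Ideal (𝓞 K)} {x y : K} (hx : gdOneMod K 𝔪 x) (hy : gdOneMod K 𝔪 y) :
    gdOneMod K 𝔪 (x * y) := by
  obtain ⟨a, b, ha, hb, hac, hbc, hab, rfl⟩ := hx
  obtain ⟨c, d, hc, hd, hcc, hdc, hcd, rfl⟩ := hy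
  refine ⟨a * c, b * d, mul_ne_zero ha hc, mul_ne_zero hb hd, ?_, ?_, ?_, ?_⟩
  · rw [← Ideal.span_singleton_mul_span_singleton]
    exact hac.mul_left hcc
  · rw [← Ideal.span_singleton_mul_span_singleton]
    exact hbc.mul_left hdc
  · have : a * c - b * d = a * (c - d) + (a - b) * d := by ring
    rw [this]
    exact 𝔪.add_mem (𝔪.mul_mem_left _ hcd) (𝔪.mul_mem_right _ hab)
  · push_cast
    rw [div_mul_div_comm]

theorem gdOneMod.inv {𝔪 : Ideal (𝓞 K)} {x : K} (hx : gdOneMod K 𝔪 x) : gdOneMod K 𝔪 x⁻¹ := by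
  obtain ⟨a, b, ha, hb, hac, hbc, hab, rfl⟩ := hx
  refine ⟨b, a, hb, ha, hbc, hac, ?_, by rw [inv_div]⟩
  have : b - a = -(a - b) := by ring
  rw [this]
  exact 𝔪.neg_mem hab

theorem gdOneMod.ne_zero {𝔪 : Ideal (𝓞 K)} {x : K} (h : gdOneMod K 𝔪 x) : x ≠ 0 := by
  obtain ⟨a, b, ha, hb, -, -, -, rfl⟩ := h
  exact div_ne_zero (RingOfIntegers.coe_ne_zero_iff.mpr ha) (RingOfIntegers.coe_ne_zero_iff.mpr hb)

theorem gd_divOf_eq_zero_of_isCoprime {𝔪 : Ideal (𝓞 K)} {a : 𝓞 K} (ha : a ≠ 0)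
    (hac : IsCoprime (Ideal.span {a}) 𝔪) {v : HeightOneSpectrum (𝓞 K)} (hv : 𝔪 ≤ v.asIdeal) :
    divOf K (a : K) v = 0 := by
  rw [(divOf_algebraMap_nonneg a ha v).2]
  intro hav
  rw [Ideal.isCoprime_iff_sup_eq] at hac
  have : (⊤ : Ideal (𝓞 K)) ≤ v.asIdeal := by
    rw [← hac]
    exact sup_le ((Ideal.span_singleton_le_iff_mem _).mpr hav) hv
  exact v.isPrime.ne_top (top_le_iff.mp this)

theorem gdPrimeTo_divOf {𝔪 : Ideal (𝓞 K)} {x : K} (hx : gdOneMod K 𝔪 x) :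
    gdPrimeTo K 𝔪 (divOf K x) := by
  obtain ⟨a, b, ha, hb, hac, hbc, -, rfl⟩ := hx
  intro v hv
  have haK : (a : K) ≠ 0 := RingOfIntegers.coe_ne_zero_iff.mpr ha
  have hbK : (b : K) ≠ 0 := RingOfIntegers.coe_ne_zero_iff.mpr hb
  rw [div_eq_mul_inv, fi_divOf_mul K haK (inv_ne_zero hbK), fi_divOf_inv, Finsupp.add_apply,
    Finsupp.neg_apply, gd_divOf_eq_zero_of_isCoprime ha hac hv,
    gd_divOf_eq_zero_of_isCoprime hb hbc hv]
  simp

theorem gdPrimeTo.add {𝔪 : Ideal (𝓞 K)} {D E : S14.Div K} (hD : gdPrimeTo K 𝔪 D)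
    (hE : gdPrimeTo K 𝔪 E) : gdPrimeTo K 𝔪 (D + E) := fun v hv => by
  rw [Finsupp.add_apply, hD v hv, hE v hv, add_zero]

theorem gdPrimeTo.neg {𝔪 : Ideal (𝓞 K)} {D : S14.Div K} (hD : gdPrimeTo K 𝔪 D) :
    gdPrimeTo K 𝔪 (-D) := fun v hv => by
  rw [Finsupp.neg_apply, hD v hv, neg_zero]

theorem gdPrimeTo_zero (𝔪 : Ideal (𝓞 K)) : gdPrimeTo K 𝔪 0 := fun _ _ => rfl

end Closure

section NormPrimeTo

variable {K F : Type} [Field K] [NumberField K] [Field F] [NumberField F] [Algebra K F]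

theorem gd_normDiv_single (w : HeightOneSpectrum (𝓞 F)) (n : ℤ) :
    normDiv K F (Finsupp.single w n) =
      Finsupp.single (placeBelow K F w) (((w.asIdeal.inertiaDeg (𝓞 K) : ℕ) : ℤ) * n) := by
  simp [normDiv]

theorem gd_map_le_of_le_placeBelow {𝔪 : Ideal (𝓞 K)} {w : HeightOneSpectrum (𝓞 F)}
    (h : 𝔪 ≤ (placeBelow K F w).asIdeal) : 𝔪.map (algebraMap (𝓞 K) (𝓞 F)) ≤ w.asIdeal :=
  Ideal.map_le_iff_le_comap.mpr h

/-- The norm of a divisor prime to `𝔪 𝓞_F` is prime to `𝔪`. -/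
theorem gdPrimeTo_normDiv {𝔪 : Ideal (𝓞 K)} {E : S14.Div F}
    (hE : gdPrimeTo F (𝔪.map (algebraMap (𝓞 K) (𝓞 F))) E) : gdPrimeTo K 𝔪 (normDiv K F E) := by
  classical
  intro v hv
  conv_lhs => rw [← Finsupp.sum_single E]
  rw [Finsupp.sum, map_sum, Finsupp.finsetSum_apply]
  refine Finset.sum_eq_zero fun w hw => ?_
  rw [gd_normDiv_single, Finsupp.single_apply, if_neg]
  rintro rfl
  exact (Finsupp.mem_support_iff.mp hw) (hE w (gd_map_le_of_le_placeBelow hv))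

end NormPrimeTo

section Groups

variable (K : Type) [Field K] [NumberField K]

/-- The group of divisors prime to `𝔪`. -/
def gdPrimeToGroup (𝔪 : Ideal (𝓞 K)) : AddSubgroup (S14.Div K) where
  carrier := {D | gdPrimeTo K 𝔪 D}
  zero_mem' := gdPrimeTo_zero 𝔪
  add_mem' := fun hD hE => gdPrimeTo.add hD hE
  neg_mem' := fun hD => gdPrimeTo.neg hD

variable (F : Type) [Field F] [NumberField F] [Algebra K F]

/-- The group of the divisors `div x + N E`, `x ≡ 1 mod× 𝔪`, `E` prime to `𝔪 𝓞_F`. -/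
def gdNormGroup (𝔪 : Ideal (𝓞 K)) : AddSubgroup (S14.Div K) where
  carrier := {D | ∃ (x : K) (E : S14.Div F), gdOneMod K 𝔪 x ∧
    gdPrimeTo F (𝔪.map (algebraMap (𝓞 K) (𝓞 F))) E ∧ D = divOf K x + normDiv K F E}
  zero_mem' := ⟨1, 0, gdOneMod_one 𝔪, gdPrimeTo_zero _, by rw [fi_divOf_one, map_zero, add_zero]⟩
  add_mem' := by
    rintro _ _ ⟨x, E, hx, hE, rfl⟩ ⟨y, E', hy, hE', rfl⟩
    refine ⟨x * y, E + E', hx.mul hy, hE.add hE', ?_⟩
    rw [fi_divOf_mul K hx.ne_zero hy.ne_zero, map_add]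
    abel
  neg_mem' := by
    rintro _ ⟨x, E, hx, hE, rfl⟩
    refine ⟨x⁻¹, -E, hx.inv, hE.neg, ?_⟩
    rw [fi_divOf_inv, map_neg]
    abel

variable {K F}

theorem mem_gdPrimeToGroup {𝔪 : Ideal (𝓞 K)} {D : S14.Div K} :
    D ∈ gdPrimeToGroup K 𝔪 ↔ gdPrimeTo K 𝔪 D := Iff.rfl

theorem mem_gdNormGroup {𝔪 : Ideal (𝓞 K)} {D : S14.Div K} :
    D ∈ gdNormGroup K F 𝔪 ↔ ∃ (x : K) (E : S14.Div F), gdOneMod K 𝔪 x ∧
      gdPrimeTo F (𝔪.map (algebraMap (𝓞 K) (𝓞 F))) E ∧ D = divOf K x + normDiv K F E := Iff.rfl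

theorem gdNormGroup_le_gdPrimeToGroup (𝔪 : Ideal (𝓞 K)) :
    gdNormGroup K F 𝔪 ≤ gdPrimeToGroup K 𝔪 := by
  rintro _ ⟨x, E, hx, hE, rfl⟩
  exact (gdPrimeTo_divOf hx).add (gdPrimeTo_normDiv hE)

/-- Abstract: a subgroup `B ≤ A` such that `A` is generated modulo `B` by one element `D₀` with
`p • D₀ ∈ B` has index at most `p` in `A`. -/
theorem gd_relIndex_le_of_generator {G : Type*} [AddCommGroup G] (A B : AddSubgroup G) {p : ℕ}
    (hp : 0 < p) (D₀ : G) (hD₀ : D₀ ∈ A) (hpD : p • D₀ ∈ B)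
    (h : ∀ D ∈ A, ∃ k : ℕ, ∃ b ∈ B, D = k • D₀ + b) :
    B.relIndex A ≠ 0 ∧ B.relIndex A ≤ p := by
  haveI : NeZero p := ⟨hp.ne'⟩
  set Q := A ⧸ B.addSubgroupOf A with hQ
  let d₀ : Q := QuotientAddGroup.mk ⟨D₀, hD₀⟩
  have hpd : p • d₀ = 0 := by
    rw [← QuotientAddGroup.mk_nsmul, QuotientAddGroup.eq_zero_iff]
    exact hpD
  let f : Fin p → Q := fun k => (k : ℕ) • d₀
  have hf : Function.Surjective f := by
    intro q
    induction q using QuotientAddGroup.induction_on with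
    | H D =>
      obtain ⟨k, b, hb, hD⟩ := h D.1 D.2
      refine ⟨⟨k % p, Nat.mod_lt _ hp⟩, ?_⟩
      have hbA : b ∈ A := by
        have : b = D.1 - k • D₀ := by rw [hD]; abel
        rw [this]
        exact A.sub_mem D.2 (A.nsmul_mem hD₀ k)
      have h1 : (QuotientAddGroup.mk D : Q) = k • d₀ := by
        have : D = k • (⟨D₀, hD₀⟩ : A) + ⟨b, hbA⟩ := Subtype.ext (by simpa using hD)
        rw [this, QuotientAddGroup.mk_add, QuotientAddGroup.mk_nsmul]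
        have hb0 : (QuotientAddGroup.mk (⟨b, hbA⟩ : A) : Q) = 0 :=
          (QuotientAddGroup.eq_zero_iff _).mpr hb
        rw [hb0, add_zero]
      show (k % p) • d₀ = _
      rw [h1]
      conv_rhs => rw [← Nat.mod_add_div k p]
      rw [add_nsmul, mul_comm, mul_nsmul', hpd, nsmul_zero, add_zero]
  haveI : Finite Q := Finite.of_surjective f hf
  refine ⟨AddSubgroup.index_ne_zero_of_finite, ?_⟩
  have := Nat.card_le_card_of_surjective f hf
  rwa [Nat.card_fin] at this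

/-- The index form of the second inequality in degree `p`. -/
theorem gd_relIndex_le_of_prime {p : ℕ} [Fact p.Prime] {K F : Type} [Field K] [NumberField K]
    [Field F] [NumberField F] [Algebra K F] (hdeg : Module.finrank K F = p) (𝔪 : Ideal (𝓞 K))
    (h𝔪 : 𝔪 ≠ ⊥) :
    (gdNormGroup K F 𝔪).relIndex (gdPrimeToGroup K 𝔪) ≠ 0 ∧
      (gdNormGroup K F 𝔪).relIndex (gdPrimeToGroup K 𝔪) ≤ p := by
  obtain ⟨D₀, hD₀, hD⟩ := gd_second_inequality K (F := F) hdeg 𝔪 h𝔪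
  refine gd_relIndex_le_of_generator _ _ (Fact.out : p.Prime).pos D₀ hD₀ ?_ ?_
  · obtain ⟨E, hE, hEq⟩ := gd_nsmul_eq_normDiv K (F := F) 𝔪 D₀ hD₀
    rw [hdeg] at hEq
    exact ⟨1, E, gdOneMod_one 𝔪, hE, by rw [fi_divOf_one, zero_add, hEq]⟩
  · intro D hDA
    obtain ⟨k, x, E, hx, hE, rfl⟩ := hD D hDA
    exact ⟨k, divOf K x + normDiv K F E, ⟨x, E, hx, hE, rfl⟩, by abel⟩

/-- Abstract: comparison of indices along a homomorphism. -/
theorem gd_relIndex_le_of_map {G G' : Type*} [AddCommGroup G] [AddCommGroup G'] (φ : G' →+ G)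
    (A' B' : AddSubgroup G') (B C : AddSubgroup G)
    (hφA : ∀ a ∈ A', φ a ∈ C) (hφB : ∀ b ∈ B', b ∈ A' → φ b ∈ B)
    (hsurj : ∀ c ∈ C, ∃ b ∈ B, ∃ a ∈ A', c = b + φ a)
    (hfin : B'.relIndex A' ≠ 0) :
    B.relIndex C ≠ 0 ∧ B.relIndex C ≤ B'.relIndex A' := by
  haveI : (B'.addSubgroupOf A').FiniteIndex := ⟨hfin⟩
  let ψ₀ : A' →+ C ⧸ B.addSubgroupOf C :=
    (QuotientAddGroup.mk' (B.addSubgroupOf C)).comp
      ((φ.comp A'.subtype).codRestrict C (fun a => hφA a.1 a.2))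
  have hker : ∀ x ∈ B'.addSubgroupOf A', ψ₀ x = 0 := by
    intro x hx
    show (QuotientAddGroup.mk _ : C ⧸ B.addSubgroupOf C) = 0
    rw [QuotientAddGroup.eq_zero_iff]
    exact hφB x.1 hx x.2
  let ψ : A' ⧸ B'.addSubgroupOf A' →+ C ⧸ B.addSubgroupOf C :=
    QuotientAddGroup.lift (B'.addSubgroupOf A') ψ₀ hker
  have hψ : Function.Surjective ψ := by
    intro q
    induction q using QuotientAddGroup.induction_on with
    | H c =>
      obtain ⟨b, hb, a, ha, hc⟩ := hsurj c.1 c.2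
      refine ⟨QuotientAddGroup.mk ⟨a, ha⟩, ?_⟩
      show (QuotientAddGroup.mk _ : C ⧸ B.addSubgroupOf C) = QuotientAddGroup.mk c
      rw [QuotientAddGroup.eq]
      show -(φ a) + c.1 ∈ B
      rw [hc]
      have : -(φ a) + (b + φ a) = b := by abel
      rw [this]
      exact hb
  haveI : Finite (A' ⧸ B'.addSubgroupOf A') := AddSubgroup.finite_quotient_of_finiteIndex
  haveI : Finite (C ⧸ B.addSubgroupOf C) := Finite.of_surjective ψ hψ
  exact ⟨AddSubgroup.index_ne_zero_of_finite, Nat.card_le_card_of_surjective ψ hψ⟩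

end Groups

section NormOneMod

variable {K M : Type} [Field K] [NumberField K] [Field M] [NumberField M] [Algebra K M]

theorem gd_intAut_mem_map {𝔪 : Ideal (𝓞 K)} (σ : M ≃ₐ[K] M) {x : 𝓞 M}
    (hx : x ∈ 𝔪.map (algebraMap (𝓞 K) (𝓞 M))) :
    intAut σ x ∈ 𝔪.map (algebraMap (𝓞 K) (𝓞 M)) := by
  have h := Ideal.mem_map_of_mem (intAut σ) hx
  rwa [map_intAut, invId_map_map_algebraMap] at h

variable [IsGalois K M]

theorem gd_intNorm_sub_intNorm_mem {𝔪 : Ideal (𝓞 K)} {a b : 𝓞 M}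
    (hab : a - b ∈ 𝔪.map (algebraMap (𝓞 K) (𝓞 M))) :
    Algebra.intNorm (𝓞 K) (𝓞 M) a - Algebra.intNorm (𝓞 K) (𝓞 M) b ∈ 𝔪 := by
  rw [← Ideal.comap_map_eq_self_of_faithfullyFlat (B := 𝓞 M) 𝔪, Ideal.mem_comap, map_sub,
    gdn_algebraMap_intNorm, gdn_algebraMap_intNorm, ← Ideal.Quotient.eq, map_prod, map_prod]
  refine Finset.prod_congr rfl fun σ _ => ?_
  rw [Ideal.Quotient.eq, ← map_sub]
  exact gd_intAut_mem_map σ hab

theorem gd_isCoprime_intNorm {𝔪 : Ideal (𝓞 K)} {a : 𝓞 M}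
    (ha : IsCoprime (Ideal.span {a}) (𝔪.map (algebraMap (𝓞 K) (𝓞 M)))) :
    IsCoprime (Ideal.span {Algebra.intNorm (𝓞 K) (𝓞 M) a}) 𝔪 := by
  rw [Ideal.isCoprime_iff_exists] at ha ⊢
  obtain ⟨i, hi, m, hm, him⟩ := ha
  obtain ⟨c, rfl⟩ := Ideal.mem_span_singleton'.mp hi
  have h1 : c * a - 1 ∈ 𝔪.map (algebraMap (𝓞 K) (𝓞 M)) := by
    have : c * a - 1 = -m := by rw [← him]; ring
    rw [this]
    exact neg_mem hm
  have h2 := gd_intNorm_sub_intNorm_mem h1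
  rw [map_mul, map_one] at h2
  refine ⟨Algebra.intNorm (𝓞 K) (𝓞 M) c * Algebra.intNorm (𝓞 K) (𝓞 M) a,
    Ideal.mem_span_singleton'.mpr ⟨_, rfl⟩,
    1 - Algebra.intNorm (𝓞 K) (𝓞 M) c * Algebra.intNorm (𝓞 K) (𝓞 M) a, ?_, by ring⟩
  have : 1 - Algebra.intNorm (𝓞 K) (𝓞 M) c * Algebra.intNorm (𝓞 K) (𝓞 M) a =
      -(Algebra.intNorm (𝓞 K) (𝓞 M) c * Algebra.intNorm (𝓞 K) (𝓞 M) a - 1) := by ring
  rw [this]
  exact 𝔪.neg_mem h2

/-- The norm of an element `≡ 1 mod× 𝔪 𝓞_M` is `≡ 1 mod× 𝔪` (Galois case). -/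
theorem gdOneMod_norm {𝔪 : Ideal (𝓞 K)} {y : M}
    (hy : gdOneMod M (𝔪.map (algebraMap (𝓞 K) (𝓞 M))) y) : gdOneMod K 𝔪 (Algebra.norm K y) := by
  obtain ⟨a, b, ha, hb, hac, hbc, hab, rfl⟩ := hy
  refine ⟨Algebra.intNorm (𝓞 K) (𝓞 M) a, Algebra.intNorm (𝓞 K) (𝓞 M) b, ?_, ?_,
    gd_isCoprime_intNorm hac, gd_isCoprime_intNorm hbc, gd_intNorm_sub_intNorm_mem hab, ?_⟩
  · rwa [Ne, Algebra.intNorm_eq_zero]
  · rwa [Ne, Algebra.intNorm_eq_zero]
  · rw [div_eq_mul_inv, map_mul, Algebra.norm_inv, ← div_eq_mul_inv]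
    congr 1
    · exact (Algebra.algebraMap_intNorm (A := 𝓞 K) (K := K) (L := M) (B := 𝓞 M) a).symm
    · exact (Algebra.algebraMap_intNorm (A := 𝓞 K) (K := K) (L := M) (B := 𝓞 M) b).symm

end NormOneMod

section Tower

variable {K M L : Type} [Field K] [NumberField K] [Field M] [NumberField M] [Field L]
  [NumberField L] [Algebra K M] [Algebra M L] [Algebra K L] [IsScalarTower K M L]

theorem gd_map_map_eq (𝔪 : Ideal (𝓞 K)) :
    (𝔪.map (algebraMap (𝓞 K) (𝓞 M))).map (algebraMap (𝓞 M) (𝓞 L)) =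
      𝔪.map (algebraMap (𝓞 K) (𝓞 L)) := by
  rw [Ideal.map_map, ← IsScalarTower.algebraMap_eq]

variable [IsGalois K M]

/-- The tower step for the index of the norm group. -/
theorem gd_relIndex_tower (𝔪 : Ideal (𝓞 K))
    (h1 : (gdNormGroup K M 𝔪).relIndex (gdPrimeToGroup K 𝔪) ≠ 0)
    (h2 : (gdNormGroup M L (𝔪.map (algebraMap (𝓞 K) (𝓞 M)))).relIndex
      (gdPrimeToGroup M (𝔪.map (algebraMap (𝓞 K) (𝓞 M)))) ≠ 0) :
    (gdNormGroup K L 𝔪).relIndex (gdPrimeToGroup K 𝔪) ≠ 0 ∧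
      (gdNormGroup K L 𝔪).relIndex (gdPrimeToGroup K 𝔪) ≤
        (gdNormGroup K M 𝔪).relIndex (gdPrimeToGroup K 𝔪) *
          (gdNormGroup M L (𝔪.map (algebraMap (𝓞 K) (𝓞 M)))).relIndex
            (gdPrimeToGroup M (𝔪.map (algebraMap (𝓞 K) (𝓞 M)))) := by
  set 𝔪₁ := 𝔪.map (algebraMap (𝓞 K) (𝓞 M)) with h𝔪₁
  have hBLBM : gdNormGroup K L 𝔪 ≤ gdNormGroup K M 𝔪 := by
    rintro _ ⟨x, E, hx, hE, rfl⟩
    refine ⟨x, normDiv M L E, hx, ?_, by rw [normDiv_normDiv]⟩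
    apply gdPrimeTo_normDiv
    rwa [gd_map_map_eq]
  have hBMA := gdNormGroup_le_gdPrimeToGroup (K := K) (F := M) 𝔪
  have key := gd_relIndex_le_of_map (normDiv K M) (gdPrimeToGroup M 𝔪₁) (gdNormGroup M L 𝔪₁)
    (gdNormGroup K L 𝔪) (gdNormGroup K M 𝔪) ?_ ?_ ?_ h2
  · rw [← AddSubgroup.relIndex_mul_relIndex _ _ _ hBLBM hBMA]
    refine ⟨mul_ne_zero key.1 h1, ?_⟩
    rw [mul_comm]
    exact Nat.mul_le_mul_left _ key.2
  · intro a ha
    exact ⟨1, a, gdOneMod_one 𝔪, ha, by rw [fi_divOf_one, zero_add]⟩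
  · rintro _ ⟨y, E, hy, hE, rfl⟩ -
    refine ⟨Algebra.norm K y, E, gdOneMod_norm hy, ?_, ?_⟩
    · rwa [gd_map_map_eq] at hE
    · rw [map_add, normDiv_divOf y hy.ne_zero, normDiv_normDiv]
  · rintro _ ⟨x, E, hx, hE, rfl⟩
    refine ⟨divOf K x, ⟨x, 0, hx, gdPrimeTo_zero _, by rw [map_zero, add_zero]⟩, E, hE, rfl⟩

end Tower

section Cyclic

/-- In a cyclic group of order `p ^ (k+1)` there is a subgroup of order `p ^ k`. -/
theorem gd_exists_subgroup_card {G : Type*} [Group G] [IsCyclic G] {p k : ℕ} (hp : p.Prime)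
    (hG : Nat.card G = p ^ (k + 1)) : ∃ H : Subgroup G, Nat.card H = p ^ k := by
  obtain ⟨g, hg⟩ := IsCyclic.exists_generator (α := G)
  refine ⟨Subgroup.zpowers (g ^ p), ?_⟩
  have hord : orderOf g = p ^ (k + 1) := by
    rw [orderOf_eq_card_of_forall_mem_zpowers hg, hG]
  rw [Nat.card_zpowers, orderOf_pow' g hp.ne_zero, hord]
  have : (p ^ (k + 1)).gcd p = p := Nat.gcd_eq_right (dvd_pow_self p (Nat.succ_ne_zero k))
  rw [this, pow_succ, Nat.mul_div_cancel _ hp.pos]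

/-- **Second inequality, index form, cyclic extensions of degree `p ^ k`.** -/
theorem gd_relIndex_cyclic {p : ℕ} [Fact p.Prime] (k : ℕ) :
    ∀ (K L : Type) [Field K] [NumberField K] [Field L] [NumberField L] [Algebra K L]
      [IsGalois K L] [IsCyclic (L ≃ₐ[K] L)], Module.finrank K L = p ^ k →
      ∀ 𝔪 : Ideal (𝓞 K), 𝔪 ≠ ⊥ →
        (gdNormGroup K L 𝔪).relIndex (gdPrimeToGroup K 𝔪) ≠ 0 ∧
          (gdNormGroup K L 𝔪).relIndex (gdPrimeToGroup K 𝔪) ≤ p ^ k := by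
  induction k with
  | zero =>
    intro K L _ _ _ _ _ _ _ hdeg 𝔪 h𝔪
    have h1 : (gdNormGroup K L 𝔪).relIndex (gdPrimeToGroup K 𝔪) = 1 := by
      rw [AddSubgroup.relIndex_eq_one]
      intro D hD
      obtain ⟨E, hE, hEq⟩ := gd_nsmul_eq_normDiv K (F := L) 𝔪 D hD
      rw [hdeg, pow_zero, one_nsmul] at hEq
      exact ⟨1, E, gdOneMod_one 𝔪, hE, by rw [fi_divOf_one, zero_add, hEq]⟩
    rw [h1]
    exact ⟨one_ne_zero, by simp⟩
  | succ k ih =>
    intro K L _ _ _ _ _ _ _ hdeg 𝔪 h𝔪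
    have hp : p.Prime := Fact.out
    have hG : Nat.card (L ≃ₐ[K] L) = p ^ (k + 1) := by
      rw [IsGalois.card_aut_eq_finrank, hdeg]
    obtain ⟨H, hH⟩ := gd_exists_subgroup_card hp hG
    haveI : H.Normal := by
      letI : CommGroup (L ≃ₐ[K] L) := IsCyclic.commGroup
      exact inferInstance
    set M : IntermediateField K L := IntermediateField.fixedField H with hM
    haveI : IsGalois K M := IsGalois.of_fixedField_normal_subgroup H
    have hML : Module.finrank M L = p ^ k := by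
      rw [hM, IntermediateField.finrank_fixedField_eq_card, hH]
    have hKM : Module.finrank K M = p := by
      have h := Module.finrank_mul_finrank K M L
      rw [hdeg, hML, pow_succ'] at h
      exact Nat.eq_of_mul_eq_mul_right (pow_pos hp.pos k) h
    haveI : IsCyclic (L ≃ₐ[M] L) :=
      isCyclic_of_surjective (IntermediateField.fixingSubgroupEquiv M : M.fixingSubgroup →* _)
        (IntermediateField.fixingSubgroupEquiv M).surjective
    have hp' := gd_relIndex_le_of_prime hKM 𝔪 h𝔪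
    have h𝔪₁ : 𝔪.map (algebraMap (𝓞 K) (𝓞 M)) ≠ ⊥ := gd_map_ne_bot K M 𝔪 h𝔪
    have hIH := ih M L hML _ h𝔪₁
    have ht := gd_relIndex_tower (K := K) (M := M) (L := L) 𝔪 hp'.1 hIH.1
    refine ⟨ht.1, ht.2.trans ?_⟩
    rw [pow_succ']
    exact Nat.mul_le_mul hp'.2 hIH.2

end Cyclic

end Fermat.Agent.S55
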