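import Mathlib
import Fermat.Agent.S55.Global.Defs
import Fermat.Agent.S55.Global.Second.Defs

/-!
# S55 / GD-T: definitions for the idele class form of the second inequality
-/

set_option autoImplicit false

namespace Fermat.Agent.S55

open NumberField

/-- The modulus `(N^M)`, `N = ∏_{q ∈ S} q`. -/
noncomputable def gdtModulus (S : Finset Nat.Primes) (K : Type) [Field K] [NumberField K] (M : ℕ) :
    Ideal (𝓞 K) :=
  Ideal.span {(((∏ q ∈ S, ((q : Nat.Primes) : ℕ)) ^ M : ℕ) : 𝓞 K)}

end Fermat.Agent.S55
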