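import Mathlib
import Fermat.Agent.S55.Global.Second.IdeleDefs
import Fermat.Agent.S14.DivClass

/-!
# S55 / GD-TI: ideals and divisors — the six dictionary lemmas of section GD-TI of
`Global/Second/IdeleSpec.lean` (`GlI K` ↔ `S14.Div K`, `GlAbove` ↔ the modulus `(N^M)`).
-/

set_option autoImplicit false

namespace Fermat.Agent.S55

open NumberField IsDedekindDomain Fermat.Agent.S14
open scoped nonZeroDivisors

/-- Every invertible fractional ideal is the ideal of a divisor. -/
theorem gdt_exists_divUnit_eq (K : Type) [Field K] [NumberField K] (I : GlI K) :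
    ∃ D : S14.Div K, I = Additive.toMul (divUnit K D) := by
  refine ⟨divOfIdeal K (I : FractionalIdeal (𝓞 K)⁰ K), ?_⟩
  apply Units.ext
  exact (divIdeal_divOfIdeal K (Units.ne_zero I)).symm

/-- The principal fractional ideal of `x` is the ideal of `divOf x`. -/
theorem gdt_toPrincipalIdeal_eq (K : Type) [Field K] [NumberField K] (x : Kˣ) :
    glDiagI K x = Additive.toMul (divUnit K (divOf K (x : K))) := by
  apply Units.ext
  show ((toPrincipalIdeal (𝓞 K) K x : (FractionalIdeal (𝓞 K)⁰ K)ˣ) : FractionalIdeal (𝓞 K)⁰ K)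
    = divIdeal K (divOf K (x : K))
  rw [divOf_eq_divOfIdeal,
    divIdeal_divOfIdeal K (FractionalIdeal.spanSingleton_ne_zero_iff.mpr x.ne_zero),
    coe_toPrincipalIdeal]

/-- The ideal of a divisor supported on the places above `S` lies in `glIdealsOn`. -/
theorem gdt_divUnit_mem_glIdealsOn (S : Finset Nat.Primes) (K : Type) [Field K] [NumberField K]
    (D : S14.Div K) (hD : ∀ v : HeightOneSpectrum (𝓞 K), ¬ GlAbove S K v → D v = 0) :
    Additive.toMul (divUnit K D) ∈ glIdealsOn S K := by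
  intro v hv
  show FractionalIdeal.count K v (divIdeal K D) = 0
  rw [count_divIdeal, hD v hv]

theorem gdt_natCast_mem_iff (S : Finset Nat.Primes) (R : Type*) [CommRing R] {M : ℕ} (hM : 0 < M)
    (P : Ideal R) [P.IsPrime] :
    (((∏ q ∈ S, ((q : Nat.Primes) : ℕ)) ^ M : ℕ) : R) ∈ P ↔
      ∃ q ∈ S, (((q : Nat.Primes) : ℕ) : R) ∈ P := by
  rw [Nat.cast_pow, Nat.cast_prod]
  constructor
  · intro h
    have h1 := Ideal.IsPrime.mem_of_pow_mem (inferInstance : P.IsPrime) M h
    obtain ⟨q, hq, hqP⟩ := Ideal.IsPrime.prod_mem_iff.1 h1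
    exact ⟨q, hq, hqP⟩
  · rintro ⟨q, hq, hqP⟩
    apply Ideal.pow_mem_of_mem _ _ _ hM
    exact Ideal.IsPrime.prod_mem_iff.2 ⟨q, hq, hqP⟩

/-- A place is above `S` iff it divides the modulus `(N^M)`, `M > 0`. -/
theorem gdt_glAbove_iff (S : Finset Nat.Primes) (K : Type) [Field K] [NumberField K] {M : ℕ}
    (hM : 0 < M) (v : HeightOneSpectrum (𝓞 K)) :
    GlAbove S K v ↔ gdtModulus S K M ≤ v.asIdeal := by
  have : v.asIdeal.IsPrime := v.isPrime
  rw [gdtModulus, Ideal.span_singleton_le_iff_mem, gdt_natCast_mem_iff S (𝓞 K) hM v.asIdeal]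
  rfl

/-- Places of `F` dividing the extended modulus are above `S`. -/
theorem gdt_glAbove_of_map_le (S : Finset Nat.Primes) {K F : Type} [Field K] [NumberField K]
    [Field F] [NumberField F] [Algebra K F] {M : ℕ} (hM : 0 < M) (w : HeightOneSpectrum (𝓞 F)) :
    GlAbove S F w ↔ (gdtModulus S K M).map (algebraMap (𝓞 K) (𝓞 F)) ≤ w.asIdeal := by
  have : w.asIdeal.IsPrime := w.isPrime
  rw [gdtModulus, Ideal.map_span, Set.image_singleton, map_natCast,
    Ideal.span_singleton_le_iff_mem, gdt_natCast_mem_iff S (𝓞 F) hM w.asIdeal]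
  rfl

theorem gdt_modulus_ne_bot (S : Finset Nat.Primes) (K : Type) [Field K] [NumberField K] (M : ℕ) :
    gdtModulus S K M ≠ ⊥ := by
  rw [gdtModulus, Ne, Ideal.span_singleton_eq_bot, Nat.cast_eq_zero]
  apply pow_ne_zero
  exact Finset.prod_ne_zero_iff.2 (fun q _ => q.2.ne_zero)

end Fermat.Agent.S55
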