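import Fermat.Agent.S55.Global.Second.Idele

/-!
# S55 / GD-T: shim.  All statements formerly in this file are now real theorems with the same
names and statements: `gdt_exists_modulus` (`IdeleJ.lean`), `gdt_exists_divUnit_eq`,
`gdt_toPrincipalIdeal_eq`, `gdt_divUnit_mem_glIdealsOn`, `gdt_glAbove_iff`,
`gdt_glAbove_of_map_le`, `gdt_modulus_ne_bot` (`IdeleI.lean`), `gd_idele_second_inequality`
(`Idele.lean`).
-/
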