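import Fermat.Agent.S55.Global.Second.IdeleDefs
import Fermat.Agent.S55.LG.Tensor
import Fermat.Agent.S55.LG.Approx
import Fermat.Agent.S55.LG.Place
import Fermat.Agent.S55.LG.Dense
import Fermat.Agent.S55.LocalKummerIndex

/-!
# S55 / GD-TJ: the `S`-component of the ideles: `J_S(K) = Kˣ · J_S(K)^p`, and elements `≡ 1 mod× (N^M)`
are `p`-th powers in `J_S(K)`.
-/

set_option autoImplicit false

namespace Fermat.Agent.S55

open NumberField IsDedekindDomain IsLocalRing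
open scoped TensorProduct nonZeroDivisors

section LocalPow

variable (q : ℕ) [Fact q.Prime] (E : Type) [Field E] [Algebra ℚ_[q] E] [FiniteDimensional ℚ_[q] E]

/-- In a local field, the elements close to `1` are `p`-th powers. -/
theorem gdt_local_pow {p : ℕ} (hp : p.Prime) :
    ∃ ε : ℝ, 0 < ε ∧ ∀ x : E, spectralNorm ℚ_[q] E (x - 1) < ε → ∃ z : E, z ^ p = x := by
  obtain ⟨c, hc, -⟩ := lki_exists_span_eq q E p hp.ne_zero
  obtain ⟨π, hπ⟩ := exists_isLfUniformizer q E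
  have hπ0 : π ≠ 0 := IsLfUniformizer.ne_zero q E hπ
  have hπpos : 0 < spectralNorm ℚ_[q] E π :=
    spectralNorm_zero_lt hπ0 (Algebra.IsAlgebraic.isAlgebraic π)
  have hπle : spectralNorm ℚ_[q] E π ≤ 1 := lro_uniformizer_mem q E hπ
  have hr : 1 ≤ c + 1 := Nat.le_add_left 1 c
  have hrc : c < (c + 1) * (p - 1) := by
    have : 1 ≤ p - 1 := Nat.le_sub_one_of_lt hp.one_lt
    calc c < c + 1 := Nat.lt_succ_self c
      _ = (c + 1) * 1 := (mul_one _).symm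
      _ ≤ (c + 1) * (p - 1) := Nat.mul_le_mul_left _ this
  refine ⟨spectralNorm ℚ_[q] E π ^ (c + 1 + c), pow_pos hπpos _, fun x hx => ?_⟩
  by_cases hx1 : x = 1
  · exact ⟨1, by rw [hx1, one_pow]⟩
  have hy0 : x - 1 ≠ 0 := sub_ne_zero.mpr hx1
  have hyord : ((c + 1 + c : ℕ) : ℤ) ≤ lfOrd q E (x - 1) :=
    (lro_le_lfOrd_iff q E hπ (x - 1) hy0 _).mpr hx.le
  have hyint : x - 1 ∈ lfInt q E := by
    rw [mem_lfInt_iff]
    exact hx.le.trans (pow_le_one₀ hπpos.le hπle)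
  set y : lfInt q E := ⟨x - 1, hyint⟩ with hy
  have hy0' : y ≠ 0 := fun h => hy0 (congrArg Subtype.val h)
  have hymem : y ∈ maximalIdeal (lfInt q E) ^ (c + 1 + c) :=
    (mem_maximalIdeal_pow_lfInt_iff q E y hy0' _).mpr hyord
  have hymem1 : y ∈ maximalIdeal (lfInt q E) := by
    have := Ideal.pow_le_pow_right (I := maximalIdeal (lfInt q E))
      (by omega : 1 ≤ c + 1 + c) hymem
    simpa using this
  obtain ⟨w, hw⟩ := lki_isUnit_one_add hymem1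
  have hwU : w ∈ lkiU (lfInt q E) (c + 1 + c) := by
    rw [mem_lkiU_iff, hw, add_sub_cancel_left]
    exact hymem
  obtain ⟨v, -, hv⟩ := lki_pow_surj hp hc hr hrc w hwU
  refine ⟨((v : lfInt q E) : E), ?_⟩
  have h1 : (((v ^ p : (lfInt q E)ˣ) : lfInt q E) : E) = ((w : lfInt q E) : E) := by rw [hv]
  rw [Units.val_pow_eq_pow_val] at h1
  have h2 : (((v : lfInt q E) ^ p : lfInt q E) : E) = ((v : lfInt q E) : E) ^ p := rfl
  rw [← h2, h1, hw]
  show (1 : E) + (x - 1) = x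
  ring

end LocalPow

section Decomp

variable (S : Finset Nat.Primes) (K : Type) [Field K] [NumberField K]

/-- `K ⊗ ∏_{q ∈ S} ℚ_q ≅ ∏_{q ∈ S} ∏_{v ∣ q} K_v`. -/
theorem gdt_exists_equiv :
    ∃ Ψ : GlFS S K ≃+* (∀ q : S, ∀ v : LgPlacesOver ((q : Nat.Primes) : ℕ) K,
        lgField ((q : Nat.Primes) : ℕ) (lgEmbOf ((q : Nat.Primes) : ℕ) v)),
      ∀ (x : K) (a : GlAS S) (q : S) (v : LgPlacesOver ((q : Nat.Primes) : ℕ) K),
        Ψ (x ⊗ₜ[ℚ] a) q v =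
          algebraMap ℚ_[((q : Nat.Primes) : ℕ)] (lgField ((q : Nat.Primes) : ℕ)
            (lgEmbOf ((q : Nat.Primes) : ℕ) v)) (a q) *
          lgEmb ((q : Nat.Primes) : ℕ) (lgEmbOf ((q : Nat.Primes) : ℕ) v) x := by
  classical
  choose e he using fun q : S => lg_exists_tensorEquiv ((q : Nat.Primes) : ℕ) (K := K)
  refine ⟨(Algebra.TensorProduct.piRight ℚ ℚ K
    (fun q : S => ℚ_[((q : Nat.Primes) : ℕ)])).toRingEquiv.trans (RingEquiv.piCongrRight e), ?_⟩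
  intro x a q v
  exact he q x (a q) v

/-- The product of the local fields above `S`. -/
abbrev GdtProd : Type :=
  ∀ q : S, ∀ v : LgPlacesOver ((q : Nat.Primes) : ℕ) K,
    lgField ((q : Nat.Primes) : ℕ) (lgEmbOf ((q : Nat.Primes) : ℕ) v)

variable {S K}

/-- An `S`-idele all of whose local components are close to `1` is a `p`-th power. -/
theorem gdt_exists_pow_of_close (Ψ : GlFS S K ≃+* GdtProd S K) {p : ℕ} (hp : p.Prime) :
    ∃ ε : ∀ q : S, LgPlacesOver ((q : Nat.Primes) : ℕ) K → ℝ, (∀ q v, 0 < ε q v) ∧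
      ∀ t : GlJ S K, (∀ (q : S) (v : LgPlacesOver ((q : Nat.Primes) : ℕ) K),
        spectralNorm ℚ_[((q : Nat.Primes) : ℕ)]
          (lgField ((q : Nat.Primes) : ℕ) (lgEmbOf ((q : Nat.Primes) : ℕ) v))
          (Ψ (t : GlFS S K) q v - 1) < ε q v) → ∃ u : GlJ S K, t = u ^ p := by
  choose ε hε0 hε using fun (q : S) (v : LgPlacesOver ((q : Nat.Primes) : ℕ) K) =>
    gdt_local_pow ((q : Nat.Primes) : ℕ)
      (lgField ((q : Nat.Primes) : ℕ) (lgEmbOf ((q : Nat.Primes) : ℕ) v)) hp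
  refine ⟨ε, hε0, fun t ht => ?_⟩
  choose z hz using fun (q : S) (v : LgPlacesOver ((q : Nat.Primes) : ℕ) K) =>
    hε q v _ (ht q v)
  -- the components of `t` are nonzero
  have hne : ∀ q v, Ψ (t : GlFS S K) q v ≠ 0 := by
    intro q v h0
    have h1 : Ψ (t : GlFS S K) * Ψ ((t⁻¹ : GlJ S K) : GlFS S K) = 1 := by
      rw [← map_mul, Units.mul_inv, map_one]
    have h2 := congrFun (congrFun h1 q) v
    rw [Pi.mul_apply, Pi.mul_apply, h0, zero_mul] at h2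
    exact zero_ne_one h2
  have hz0 : ∀ q v, z q v ≠ 0 := by
    intro q v h0
    apply hne q v
    rw [← hz q v, h0, zero_pow hp.ne_zero]
  set zz : GdtProd S K := fun q v => z q v with hzz
  set zi : GdtProd S K := fun q v => (z q v)⁻¹ with hzi
  have hmul : Ψ.symm zz * Ψ.symm zi = 1 := by
    rw [← map_mul, ← map_one Ψ.symm]
    congr 1
    funext q v
    exact mul_inv_cancel₀ (hz0 q v)
  refine ⟨Units.mkOfMulEqOne _ _ hmul, ?_⟩
  apply Units.ext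
  rw [Units.val_pow_eq_pow_val, Units.val_mkOfMulEqOne]
  apply Ψ.injective
  rw [map_pow, RingEquiv.apply_symm_apply]
  funext q v
  exact (hz q v).symm

end Decomp

section Estimate

variable (q : ℕ) [Fact q.Prime] {K : Type} [Field K] [NumberField K] (i : K →+* PadicAlgCl q)

theorem gdt_norm_natCast_le_one (n : ℕ) : ‖i ((n : ℕ) : K)‖ ≤ 1 := by
  have := lg_norm_le_one q i ((n : ℕ) : 𝓞 K)
  simpa using this

/-- An element `≡ 1 mod× (N^M)` with `q ∣ N` is `q`-adically close to `1`. -/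
theorem gdt_norm_sub_one_le {N M : ℕ} (hqN : q ∣ N) (hM : 0 < M) {β : K}
    (hβ : gdOneMod K (Ideal.span {((N ^ M : ℕ) : 𝓞 K)}) β) :
    ‖i β - 1‖ ≤ ‖((q : ℕ) : PadicAlgCl q)‖ ^ M := by
  obtain ⟨a, b, -, hb0, -, hbcop, hab, rfl⟩ := hβ
  have hbK : (b : K) ≠ 0 := RingOfIntegers.coe_ne_zero_iff.mpr hb0
  -- `‖i N‖ ≤ ‖q‖`
  have hN : ‖i ((N : ℕ) : K)‖ ≤ ‖((q : ℕ) : PadicAlgCl q)‖ := by
    obtain ⟨N', rfl⟩ := hqN
    rw [Nat.cast_mul, map_mul, norm_mul, map_natCast]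
    exact mul_le_of_le_one_right (norm_nonneg _) (gdt_norm_natCast_le_one q i N')
  -- `N^M` lies in the place
  have hNmem : ((N ^ M : ℕ) : 𝓞 K) ∈ lgIdeal q i := by
    obtain ⟨N', rfl⟩ := hqN
    have : ((((q * N') ^ M : ℕ)) : 𝓞 K) = ((q : ℕ) : 𝓞 K) * (((N' : ℕ) : 𝓞 K) * ((q * N' : ℕ) : 𝓞 K) ^ (M - 1)) := by
      obtain ⟨M', rfl⟩ : ∃ M', M = M' + 1 := ⟨M - 1, by omega⟩
      push_cast
      ring
    rw [this]
    exact Ideal.mul_mem_right _ _ (natCast_mem_lgIdeal q i)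
  -- `b` is a unit at the place
  have hbnorm : ‖i (b : K)‖ = 1 := by
    refine lgdense_norm_eq_one_of_notMem q i fun hbmem => ?_
    rw [Ideal.isCoprime_iff_sup_eq] at hbcop
    have hle : Ideal.span {b} ⊔ Ideal.span {((N ^ M : ℕ) : 𝓞 K)} ≤ lgIdeal q i :=
      sup_le ((Ideal.span_singleton_le_iff_mem _).mpr hbmem)
        ((Ideal.span_singleton_le_iff_mem _).mpr hNmem)
    rw [hbcop, top_le_iff] at hle
    exact (lgIdeal_isPrime q i).ne_top hle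
  -- `a - b` is small
  obtain ⟨c, hc⟩ := Ideal.mem_span_singleton'.mp hab
  have habn : ‖i ((a : K) - (b : K))‖ ≤ ‖((q : ℕ) : PadicAlgCl q)‖ ^ M := by
    have h1 : (a : K) - (b : K) = (c : K) * ((N : ℕ) : K) ^ M := by
      have := congrArg (fun t : 𝓞 K => (t : K)) hc
      simp only [map_mul, map_sub, map_natCast, Nat.cast_pow, map_pow] at this
      rw [← this]
    rw [h1, map_mul, map_pow, norm_mul, norm_pow]
    calc ‖i (c : K)‖ * ‖i ((N : ℕ) : K)‖ ^ M ≤ 1 * ‖((q : ℕ) : PadicAlgCl q)‖ ^ M := by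
          gcongr
          exact lg_norm_le_one q i c
      _ = _ := one_mul _
  have h2 : i ((a : K) / (b : K)) - 1 = i ((a : K) - (b : K)) / i (b : K) := by
    rw [map_div₀, map_sub, sub_div, div_self ((map_ne_zero i).mpr hbK)]
  rw [h2, norm_div, hbnorm, div_one]
  exact habn

end Estimate

section Main

variable (S : Finset Nat.Primes) (K : Type) [Field K] [NumberField K]

theorem gdt_coe_glDiagJ (α : Kˣ) :
    ((glDiagJ S K α : GlJ S K) : GlFS S K) = (α : K) ⊗ₜ[ℚ] (1 : GlAS S) := rfl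

theorem gdt_one_apply (q : S) : (1 : GlAS S) q = 1 := rfl

variable {S K}

theorem gdt_equiv_glDiagJ (Ψ : GlFS S K ≃+* GdtProd S K)
    (hΨ : ∀ (x : K) (a : GlAS S) (q : S) (v : LgPlacesOver ((q : Nat.Primes) : ℕ) K),
        Ψ (x ⊗ₜ[ℚ] a) q v =
          algebraMap ℚ_[((q : Nat.Primes) : ℕ)] (lgField ((q : Nat.Primes) : ℕ)
            (lgEmbOf ((q : Nat.Primes) : ℕ) v)) (a q) *
          lgEmb ((q : Nat.Primes) : ℕ) (lgEmbOf ((q : Nat.Primes) : ℕ) v) x)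
    (α : Kˣ) (q : S) (v : LgPlacesOver ((q : Nat.Primes) : ℕ) K) :
    Ψ ((glDiagJ S K α : GlJ S K) : GlFS S K) q v =
      lgEmb ((q : Nat.Primes) : ℕ) (lgEmbOf ((q : Nat.Primes) : ℕ) v) (α : K) := by
  rw [gdt_coe_glDiagJ, hΨ, gdt_one_apply, map_one, one_mul]

/-- (ii): elements `≡ 1 mod× (N^M)` are `p`-th powers in `J_S(K)`. -/
theorem gdt_pow_of_oneMod (Ψ : GlFS S K ≃+* GdtProd S K)
    (hΨ : ∀ (x : K) (a : GlAS S) (q : S) (v : LgPlacesOver ((q : Nat.Primes) : ℕ) K),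
        Ψ (x ⊗ₜ[ℚ] a) q v =
          algebraMap ℚ_[((q : Nat.Primes) : ℕ)] (lgField ((q : Nat.Primes) : ℕ)
            (lgEmbOf ((q : Nat.Primes) : ℕ) v)) (a q) *
          lgEmb ((q : Nat.Primes) : ℕ) (lgEmbOf ((q : Nat.Primes) : ℕ) v) x)
    {p : ℕ} (ε : ∀ q : S, LgPlacesOver ((q : Nat.Primes) : ℕ) K → ℝ)
    (hε : ∀ t : GlJ S K, (∀ (q : S) (v : LgPlacesOver ((q : Nat.Primes) : ℕ) K),
        spectralNorm ℚ_[((q : Nat.Primes) : ℕ)]
          (lgField ((q : Nat.Primes) : ℕ) (lgEmbOf ((q : Nat.Primes) : ℕ) v))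
          (Ψ (t : GlFS S K) q v - 1) < ε q v) → ∃ u : GlJ S K, t = u ^ p)
    {M : ℕ} (hM : 0 < M)
    (hMε : ∀ (q : S) (v : LgPlacesOver ((q : Nat.Primes) : ℕ) K),
      ‖((((q : Nat.Primes) : ℕ) : ℕ) : PadicAlgCl ((q : Nat.Primes) : ℕ))‖ ^ M < ε q v)
    (β : Kˣ) (hβ : gdOneMod K (gdtModulus S K M) (β : K)) :
    ∃ u : GlJ S K, glDiagJ S K β = u ^ p := by
  refine hε _ fun q v => ?_
  rw [gdt_equiv_glDiagJ Ψ hΨ]
  have h1 : lgEmb ((q : Nat.Primes) : ℕ) (lgEmbOf ((q : Nat.Primes) : ℕ) v) (β : K) - 1 =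
      lgEmb ((q : Nat.Primes) : ℕ) (lgEmbOf ((q : Nat.Primes) : ℕ) v) ((β : K) - 1) := by
    rw [map_sub, map_one]
  rw [h1, lgp_spectralNorm_lgEmb, map_sub, map_one]
  refine lt_of_le_of_lt ?_ (hMε q v)
  refine gdt_norm_sub_one_le ((q : Nat.Primes) : ℕ) _ (N := ∏ q' ∈ S, ((q' : Nat.Primes) : ℕ))
    ?_ hM hβ
  exact Finset.dvd_prod_of_mem (fun q' : Nat.Primes => (q' : ℕ)) q.2

theorem gdt_equiv_unit_ne_zero (Ψ : GlFS S K ≃+* GdtProd S K) (t : GlJ S K) (q : S)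
    (v : LgPlacesOver ((q : Nat.Primes) : ℕ) K) : Ψ (t : GlFS S K) q v ≠ 0 := by
  intro h0
  have h1 : Ψ (t : GlFS S K) * Ψ ((t⁻¹ : GlJ S K) : GlFS S K) = 1 := by
    rw [← map_mul, Units.mul_inv, map_one]
  have h2 := congrFun (congrFun h1 q) v
  rw [Pi.mul_apply, Pi.mul_apply, h0, zero_mul] at h2
  exact zero_ne_one h2

theorem gdt_equiv_inv (Ψ : GlFS S K ≃+* GdtProd S K) (t : GlJ S K) (q : S)
    (v : LgPlacesOver ((q : Nat.Primes) : ℕ) K) :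
    Ψ ((t⁻¹ : GlJ S K) : GlFS S K) q v = (Ψ (t : GlFS S K) q v)⁻¹ := by
  have h1 : Ψ (t : GlFS S K) * Ψ ((t⁻¹ : GlJ S K) : GlFS S K) = 1 := by
    rw [← map_mul, Units.mul_inv, map_one]
  have h2 := congrFun (congrFun h1 q) v
  rw [Pi.mul_apply, Pi.mul_apply] at h2
  exact eq_inv_of_mul_eq_one_right h2

/-- Distinct indices give distinct places. -/
theorem gdt_lgPlace_ne (k k' : Σ q : S, LgPlacesOver ((q : Nat.Primes) : ℕ) K) (h : k ≠ k') :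
    lgPlace ((k.1 : Nat.Primes) : ℕ) (lgEmbOf ((k.1 : Nat.Primes) : ℕ) k.2) ≠
      lgPlace ((k'.1 : Nat.Primes) : ℕ) (lgEmbOf ((k'.1 : Nat.Primes) : ℕ) k'.2) := by
  rw [lgPlace_lgEmbOf, lgPlace_lgEmbOf]
  intro heq
  obtain ⟨q, v⟩ := k
  obtain ⟨q', v'⟩ := k'
  simp only at heq
  have hqq : q = q' := by
    by_contra hne
    have hne' : ((q : Nat.Primes) : ℕ) ≠ ((q' : Nat.Primes) : ℕ) := fun h' =>
      hne (Subtype.ext (Subtype.ext h'))
    have hcop : Nat.Coprime ((q : Nat.Primes) : ℕ) ((q' : Nat.Primes) : ℕ) :=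
      (Nat.coprime_primes (q : Nat.Primes).2 (q' : Nat.Primes).2).mpr hne'
    have h1 := v.2
    have h2 := v'.2
    rw [← heq] at h2
    have h3 : ((1 : ℕ) : 𝓞 K) ∈ v.1.asIdeal := by
      have hb : ((Nat.gcd ((q : Nat.Primes) : ℕ) ((q' : Nat.Primes) : ℕ) : ℕ) : ℤ) =
          ((q : Nat.Primes) : ℕ) * Nat.gcdA ((q : Nat.Primes) : ℕ) ((q' : Nat.Primes) : ℕ) +
          ((q' : Nat.Primes) : ℕ) * Nat.gcdB ((q : Nat.Primes) : ℕ) ((q' : Nat.Primes) : ℕ) :=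
        Nat.gcd_eq_gcd_ab _ _
      rw [hcop] at hb
      have hb' : ((1 : ℕ) : 𝓞 K) = (((q : Nat.Primes) : ℕ) : 𝓞 K) *
          ((Nat.gcdA ((q : Nat.Primes) : ℕ) ((q' : Nat.Primes) : ℕ) : ℤ) : 𝓞 K) +
          (((q' : Nat.Primes) : ℕ) : 𝓞 K) *
          ((Nat.gcdB ((q : Nat.Primes) : ℕ) ((q' : Nat.Primes) : ℕ) : ℤ) : 𝓞 K) := by
        have := congrArg (fun t : ℤ => (t : 𝓞 K)) hb
        push_cast at this
        simpa using this
      rw [hb']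
      exact Ideal.add_mem _ (Ideal.mul_mem_right _ _ h1) (Ideal.mul_mem_right _ _ h2)
    rw [Nat.cast_one] at h3
    exact v.1.isPrime.ne_top ((Ideal.eq_top_iff_one _).mpr h3)
  subst hqq
  apply h
  congr 1
  exact Subtype.ext heq

/-- (i): `J_S(K) = Kˣ · J_S(K)^p`. -/
theorem gdt_exists_diag_mul_pow (Ψ : GlFS S K ≃+* GdtProd S K)
    (hΨ : ∀ (x : K) (a : GlAS S) (q : S) (v : LgPlacesOver ((q : Nat.Primes) : ℕ) K),
        Ψ (x ⊗ₜ[ℚ] a) q v =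
          algebraMap ℚ_[((q : Nat.Primes) : ℕ)] (lgField ((q : Nat.Primes) : ℕ)
            (lgEmbOf ((q : Nat.Primes) : ℕ) v)) (a q) *
          lgEmb ((q : Nat.Primes) : ℕ) (lgEmbOf ((q : Nat.Primes) : ℕ) v) x)
    {p : ℕ} (ε : ∀ q : S, LgPlacesOver ((q : Nat.Primes) : ℕ) K → ℝ)
    (hε0 : ∀ q v, 0 < ε q v)
    (hε : ∀ t : GlJ S K, (∀ (q : S) (v : LgPlacesOver ((q : Nat.Primes) : ℕ) K),
        spectralNorm ℚ_[((q : Nat.Primes) : ℕ)]
          (lgField ((q : Nat.Primes) : ℕ) (lgEmbOf ((q : Nat.Primes) : ℕ) v))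
          (Ψ (t : GlFS S K) q v - 1) < ε q v) → ∃ u : GlJ S K, t = u ^ p)
    (x : GlJ S K) : ∃ (α : Kˣ) (u : GlJ S K), x = glDiagJ S K α * u ^ p := by
  classical
  haveI : ∀ q : S, Fintype (LgPlacesOver ((q : Nat.Primes) : ℕ) K) := fun q => Fintype.ofFinite _
  -- a common `δ`
  obtain ⟨δ, hδ0, hδ⟩ : ∃ δ : ℝ, 0 < δ ∧
      ∀ k : (Σ q : S, LgPlacesOver ((q : Nat.Primes) : ℕ) K), δ ≤ ε k.1 k.2 := by
    have : ∀ s : Finset (Σ q : S, LgPlacesOver ((q : Nat.Primes) : ℕ) K),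
        ∃ δ : ℝ, 0 < δ ∧ ∀ k ∈ s, δ ≤ ε k.1 k.2 := by
      intro s
      induction s using Finset.induction_on with
      | empty => exact ⟨1, one_pos, fun k hk => absurd hk (Finset.notMem_empty k)⟩
      | insert a s _ ih =>
        obtain ⟨δ, hδ0, hδ⟩ := ih
        refine ⟨min δ (ε a.1 a.2), lt_min hδ0 (hε0 _ _), fun k hk => ?_⟩
        rcases Finset.mem_insert.mp hk with rfl | hk
        · exact min_le_right _ _
        · exact (min_le_left _ _).trans (hδ k hk)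
    obtain ⟨δ, hδ0, hδ⟩ := this Finset.univ
    exact ⟨δ, hδ0, fun k => hδ k (Finset.mem_univ k)⟩
  obtain ⟨α, hα⟩ := lg_weak_approx_units (K := K)
    (ι := Σ q : S, LgPlacesOver ((q : Nat.Primes) : ℕ) K)
    (fun k => ((k.1 : Nat.Primes) : ℕ)) (fun k => lgEmbOf ((k.1 : Nat.Primes) : ℕ) k.2)
    (fun k k' h => gdt_lgPlace_ne k k' h)
    (fun k => Units.mk0 (Ψ (x : GlFS S K) k.1 k.2) (gdt_equiv_unit_ne_zero Ψ x k.1 k.2)) hδ0
  have key : ∀ (q : S) (v : LgPlacesOver ((q : Nat.Primes) : ℕ) K),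
      spectralNorm ℚ_[((q : Nat.Primes) : ℕ)]
        (lgField ((q : Nat.Primes) : ℕ) (lgEmbOf ((q : Nat.Primes) : ℕ) v))
        (Ψ ((x⁻¹ * glDiagJ S K α : GlJ S K) : GlFS S K) q v - 1) < ε q v := by
    intro q v
    refine lt_of_lt_of_le ?_ (hδ ⟨q, v⟩)
    have h1 := hα ⟨q, v⟩
    rw [spectralNorm_lgField]
    rw [Units.val_mul, map_mul, Pi.mul_apply, Pi.mul_apply, gdt_equiv_inv,
      gdt_equiv_glDiagJ Ψ hΨ]
    simpa using h1
  obtain ⟨u, hu⟩ := hε (x⁻¹ * glDiagJ S K α) key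
  refine ⟨α, u⁻¹, ?_⟩
  rw [inv_pow, ← hu, mul_inv_rev, inv_inv, mul_inv_cancel_left]

/-- (GD-TJ) -/
theorem gdt_exists_modulus (S : Finset Nat.Primes) (p : ℕ) [hp : Fact p.Prime] (K : Type)
    [Field K] [NumberField K] :
    ∃ M : ℕ, 0 < M ∧
      (∀ x : GlJ S K, ∃ (α : Kˣ) (u : GlJ S K), x = glDiagJ S K α * u ^ p) ∧
      (∀ β : Kˣ, gdOneMod K (gdtModulus S K M) (β : K) → ∃ u : GlJ S K, glDiagJ S K β = u ^ p) := by
  classical
  obtain ⟨Ψ, hΨ⟩ := gdt_exists_equiv S K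
  obtain ⟨ε, hε0, hε⟩ := gdt_exists_pow_of_close Ψ hp.out
  haveI : ∀ q : S, Fintype (LgPlacesOver ((q : Nat.Primes) : ℕ) K) := fun q => Fintype.ofFinite _
  -- the exponent `M`
  choose n hn using fun (q : S) (v : LgPlacesOver ((q : Nat.Primes) : ℕ) K) =>
    exists_pow_lt_of_lt_one (hε0 q v) (lgexists_norm_natCast_lt_one ((q : Nat.Primes) : ℕ))
  set M : ℕ := 1 + ∑ k : (Σ q : S, LgPlacesOver ((q : Nat.Primes) : ℕ) K), n k.1 k.2 with hMdef
  have hM : 0 < M := by omega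
  have hMε : ∀ (q : S) (v : LgPlacesOver ((q : Nat.Primes) : ℕ) K),
      ‖((((q : Nat.Primes) : ℕ) : ℕ) : PadicAlgCl ((q : Nat.Primes) : ℕ))‖ ^ M < ε q v := by
    intro q v
    refine lt_of_le_of_lt ?_ (hn q v)
    refine pow_le_pow_of_le_one (norm_nonneg _)
      (lgexists_norm_natCast_lt_one ((q : Nat.Primes) : ℕ)).le ?_
    have : n q v ≤ ∑ k : (Σ q : S, LgPlacesOver ((q : Nat.Primes) : ℕ) K), n k.1 k.2 :=
      Finset.single_le_sum (f := fun k : (Σ q : S, LgPlacesOver ((q : Nat.Primes) : ℕ) K) =>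
        n k.1 k.2) (fun _ _ => Nat.zero_le _) (Finset.mem_univ ⟨q, v⟩)
    omega
  exact ⟨M, hM, gdt_exists_diag_mul_pow Ψ hΨ ε hε0 hε,
    gdt_pow_of_oneMod Ψ hΨ ε hε hM hMε⟩

end Main

end Fermat.Agent.S55
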