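import Mathlib
import Fermat.Agent.S55.Global.Second.IdeleDefs
import Fermat.Agent.S55.Global.Second.IdeleI
import Fermat.Agent.S55.Global.Second.IdeleJ
import Fermat.Agent.S55.Global.Second.Spec
import Fermat.Agent.S14.DivClass

/-!
# S55 / GD-T: the second inequality in the `S`-idele class group form (assembly)
-/

set_option autoImplicit false

namespace Fermat.Agent.S55

open NumberField IsDedekindDomain Fermat.Agent.S14
open scoped nonZeroDivisors

theorem gdOneMod_ne_zero {K : Type} [Field K] [NumberField K] {𝔪 : Ideal (𝓞 K)} {x : K}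
    (h : gdOneMod K 𝔪 x) : x ≠ 0 := by
  obtain ⟨a, b, ha, hb, -, -, -, rfl⟩ := h
  exact div_ne_zero (RingOfIntegers.coe_ne_zero_iff.mpr ha) (RingOfIntegers.coe_ne_zero_iff.mpr hb)

/-- **Second inequality, idele class form** (assembly from the leaves). -/
theorem gd_idele_second_inequality {p : ℕ} [Fact p.Prime] (S : Finset Nat.Primes) {K F : Type}
    [Field K] [NumberField K] [Field F] [NumberField F] [Algebra K F]
    (hdeg : Module.finrank K F = p) :
    ∃ c₀ : GlIdele S K, ∀ c : GlIdele S K,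
      ∃ (k : ℕ) (u : GlJ S K) (E : S14.Div F) (π : GlIdele S K),
        π ∈ glPrinc S K ∧ (∀ w : HeightOneSpectrum (𝓞 F), GlAbove S F w → E w = 0) ∧
        c = c₀ ^ k * (u ^ p, 1) * (1, Additive.toMul (divUnit K (normDiv K F E))) * π := by
  classical
  obtain ⟨M, hM, hJ1, hJ2⟩ := gdt_exists_modulus S p K
  set 𝔪 := gdtModulus S K M with h𝔪def
  have h𝔪 : 𝔪 ≠ ⊥ := gdt_modulus_ne_bot S K M
  obtain ⟨D₀, -, hD⟩ := gd_second_inequality K (F := F) hdeg 𝔪 h𝔪
  refine ⟨(1, Additive.toMul (divUnit K D₀)), ?_⟩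
  rintro ⟨x, I⟩
  obtain ⟨α, u₁, hx⟩ := hJ1 x
  obtain ⟨D', hD'⟩ := gdt_exists_divUnit_eq K (I * (glDiagI K α)⁻¹)
  set DS : S14.Div K := D'.filter (fun v => GlAbove S K v) with hDS
  set DT : S14.Div K := D'.filter (fun v => ¬ GlAbove S K v) with hDT
  have hsplit : D' = DS + DT := (Finsupp.filter_pos_add_filter_neg D' _).symm
  have hDTprime : gdPrimeTo K 𝔪 DT := by
    intro v hv
    rw [hDT, Finsupp.filter_apply_neg]
    rw [not_not]
    exact (gdt_glAbove_iff S K hM v).mpr hv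
  obtain ⟨k, β, E, hβ, hE, hDTeq⟩ := hD DT hDTprime
  have hβ0 : β ≠ 0 := gdOneMod_ne_zero hβ
  obtain ⟨u₂, hu₂⟩ := hJ2 (Units.mk0 β hβ0) hβ
  refine ⟨k, u₁ * u₂⁻¹, E, glDiag S K (α * Units.mk0 β hβ0) * (1, Additive.toMul (divUnit K DS)),
    ?_, ?_, ?_⟩
  · refine Subgroup.mul_mem _ (Subgroup.mem_sup_left ⟨_, rfl⟩) (Subgroup.mem_sup_right ?_)
    refine Subgroup.mem_prod.mpr ⟨Subgroup.mem_bot.mpr rfl, ?_⟩
    refine gdt_divUnit_mem_glIdealsOn S K DS fun v hv => ?_
    rw [hDS, Finsupp.filter_apply_neg _ _ hv]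
  · intro w hw
    exact hE w ((gdt_glAbove_of_map_le S hM w).mp hw)
  · have hI : I = glDiagI K α * Additive.toMul (divUnit K D') := by
      rw [← hD', mul_comm I, mul_inv_cancel_left]
    have hβI : glDiagI K (Units.mk0 β hβ0) = Additive.toMul (divUnit K (divOf K β)) :=
      gdt_toPrincipalIdeal_eq K (Units.mk0 β hβ0)
    refine Prod.ext ?_ ?_
    · simp only [Prod.fst_mul, Prod.pow_fst, one_pow, one_mul, mul_one, glDiag,
        MonoidHom.prod_apply, map_mul]
      rw [hx, hu₂, mul_pow, inv_pow]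
      rw [mul_comm ((glDiagJ S K) α) (u₂ ^ p), ← mul_assoc, inv_mul_cancel_right, mul_comm]
    · simp only [Prod.snd_mul, Prod.pow_snd, mul_one, glDiag,
        MonoidHom.prod_apply, map_mul]
      rw [hI, hsplit, hDTeq, hβI]
      simp only [map_add, map_nsmul, toMul_add, toMul_nsmul]
      ac_rfl
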